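import Fermat.Agent.S13.M2Type

/-!
# S13, multiplicative case in any residue characteristic: the level count

`p` odd.  The `p`-torsion points fall into at most `p` classes modulo `E₀`: the class of `E₀`
and, for each of the `(p - 1)/2` possible values of `v x` of a point of node type, the two
branches at the node.
-/

set_option linter.unusedSectionVars false

open WeierstrassCurve WeierstrassCurve.Affine

namespace Fermat.Agent.S13

open Fermat.Agent.S05

variable {K : Type*} [Field K] {W : WeierstrassCurve.Affine K}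
variable {Γ : Type*} [LinearOrderedCommGroupWithZero Γ] {v : Valuation K Γ}

/-- The exponent `k` with `(v x)^p = (v a₄)^(2k)` (or `0`). -/
noncomputable def FA_S13_m2_expo (W : WeierstrassCurve.Affine K) (v : Valuation K Γ) (p : ℕ)
    (x : K) : ℤ :=
  open Classical in
  if hk : ∃ k : ℤ, v x ^ p = v W.a₄ ^ (2 * k) then hk.choose else 0

lemma FA_S13_m2_expo_spec {p : ℕ} {x : K}
    (hk : ∃ k : ℤ, v x ^ p = v W.a₄ ^ (2 * k)) :
    v x ^ p = v W.a₄ ^ (2 * FA_S13_m2_expo W v p x) := by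
  unfold FA_S13_m2_expo
  rw [dif_pos hk]
  exact hk.choose_spec

/-- The bounds `0 < 2k < p` for the exponent of a point of node type. -/
lemma FA_S13_m2_expo_bounds (hW : FA_S13_m2Mult W v) {p : ℕ} (hp : p ≠ 0) {x : K} {k : ℤ}
    (hx : v W.a₄ < v x) (hx' : v x < 1) (hk : v x ^ p = v W.a₄ ^ (2 * k)) :
    0 < 2 * k ∧ 2 * k < p := by
  have hB0 : (0 : Γ) < v W.a₄ := zero_lt_iff.2 hW.B_ne
  have hB1 : v W.a₄ < 1 := hW.a4
  have h1 : v x ^ p < 1 := pow_lt_one₀ zero_le hx' hp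
  have h2 : v W.a₄ ^ p < v x ^ p := pow_lt_pow_left₀ hx zero_le hp
  rw [hk] at h1 h2
  constructor
  · have : v W.a₄ ^ (2 * k) < v W.a₄ ^ (0 : ℤ) := by rwa [zpow_zero]
    exact (zpow_lt_zpow_iff_right_of_lt_one₀ hB0 hB1).1 this
  · have : v W.a₄ ^ ((p : ℕ) : ℤ) < v W.a₄ ^ (2 * k) := by rwa [zpow_natCast]
    exact (zpow_lt_zpow_iff_right_of_lt_one₀ hB0 hB1).1 this

/-- The label of a point: `0` on `E₀`, `± k` for a point of node type. -/
noncomputable def FA_S13_m2_label (v : Valuation K Γ) (p : ℕ) (α : K) : W.Point → ℤ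
  | .zero => 0
  | .some x y _ =>
    open Classical in
    if 1 ≤ v x then 0
    else if v (y - α * x) < v x then FA_S13_m2_expo W v p x else -FA_S13_m2_expo W v p x

variable [DecidableEq K]

/-- Facts about a `p`-torsion point which is not in `E₀`. -/
lemma FA_S13_m2_node_facts (hW : FA_S13_m2Mult W v) {p : ℕ} (hp : Odd p) {x y : K}
    (h : W.Nonsingular x y) (hP : p • Point.some x y h = 0) (hx' : ¬ 1 ≤ v x) :
    v W.a₄ < v x ∧ v x < 1 ∧ v x ^ p = v W.a₄ ^ (2 * FA_S13_m2_expo W v p x) ∧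
      0 < FA_S13_m2_expo W v p x ∧ 2 * FA_S13_m2_expo W v p x < p := by
  rw [not_le] at hx'
  have hx := FA_S13_m2_not_mid hW h p hp hP
  have hk := FA_S13_m2_torsion_val hW h hx hx' p hP
  have hs := FA_S13_m2_expo_spec hk
  have hp0 : p ≠ 0 := by
    rintro rfl
    simp at hp
  have hb := FA_S13_m2_expo_bounds hW hp0 hx hx' hs
  exact ⟨hx, hx', hs, by omega, hb.2⟩

lemma FA_S13_m2_label_of_E0 {p : ℕ} {α : K} {x y : K} (h : W.Nonsingular x y)
    (hx : 1 ≤ v x) : FA_S13_m2_label v p α (Point.some x y h) = 0 := by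
  unfold FA_S13_m2_label
  simp only
  rw [if_pos hx]

lemma FA_S13_m2_label_of_branch {p : ℕ} {α : K} {x y : K} (h : W.Nonsingular x y)
    (hx : ¬ 1 ≤ v x) (hb : v (y - α * x) < v x) :
    FA_S13_m2_label v p α (Point.some x y h) = FA_S13_m2_expo W v p x := by
  unfold FA_S13_m2_label
  simp only
  rw [if_neg hx, if_pos hb]

lemma FA_S13_m2_label_of_not_branch {p : ℕ} {α : K} {x y : K} (h : W.Nonsingular x y)
    (hx : ¬ 1 ≤ v x) (hb : ¬ v (y - α * x) < v x) :
    FA_S13_m2_label v p α (Point.some x y h) = -FA_S13_m2_expo W v p x := by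
  unfold FA_S13_m2_label
  simp only
  rw [if_neg hx, if_neg hb]

/-- The label of a `p`-torsion point vanishes exactly on `E₀`. -/
lemma FA_S13_m2_label_eq_zero_iff (hW : FA_S13_m2Mult W v) {p : ℕ} (hp : Odd p) (α : K)
    (P : W.Point) (hP : p • P = 0) :
    FA_S13_m2_label v p α P = 0 ↔ P ∈ FA_S13_m2E0 hW := by
  rcases P with _ | ⟨x, y, h⟩
  · exact ⟨fun _ => (FA_S13_m2E0 hW).zero_mem, fun _ => rfl⟩
  · rw [FA_S13_mem_m2E0, FA_S13_m2Cls_eq_one_iff hW h]
    constructor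
    · intro h0
      by_contra hx
      obtain ⟨-, -, -, hk0, -⟩ := FA_S13_m2_node_facts hW hp h hP hx
      by_cases hb : v (y - α * x) < v x
      · rw [FA_S13_m2_label_of_branch h hx hb] at h0
        omega
      · rw [FA_S13_m2_label_of_not_branch h hx hb] at h0
        omega
    · exact FA_S13_m2_label_of_E0 h

/-- The label of a `p`-torsion point lies in `[-k₀, k₀]`, `p = 2 k₀ + 1`. -/
lemma FA_S13_m2_label_mem (hW : FA_S13_m2Mult W v) {k₀ : ℕ} (α : K)
    (P : W.Point) (hP : (2 * k₀ + 1) • P = 0) :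
    FA_S13_m2_label v (2 * k₀ + 1) α P ∈ Finset.Icc (-(k₀ : ℤ)) k₀ := by
  have hp : Odd (2 * k₀ + 1) := ⟨k₀, rfl⟩
  rw [Finset.mem_Icc]
  rcases P with _ | ⟨x, y, h⟩
  · show -(k₀ : ℤ) ≤ 0 ∧ (0 : ℤ) ≤ k₀
    omega
  · by_cases hx : 1 ≤ v x
    · rw [FA_S13_m2_label_of_E0 h hx]
      omega
    · obtain ⟨-, -, -, hk0, hk1⟩ := FA_S13_m2_node_facts hW hp h hP hx
      push_cast at hk1
      by_cases hb : v (y - α * x) < v x
      · rw [FA_S13_m2_label_of_branch h hx hb]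
        omega
      · rw [FA_S13_m2_label_of_not_branch h hx hb]
        omega

/-- Two `p`-torsion points with the same label differ by an element of `E₀`. -/
theorem FA_S13_m2_sub_of_label_eq (hW : FA_S13_m2Mult W v) {p : ℕ} (hp : Odd p) {α : K}
    (hα : α ^ 2 + α = W.a₂) (P Q : W.Point) (hP : p • P = 0) (hQ : p • Q = 0)
    (hl : FA_S13_m2_label v p α P = FA_S13_m2_label v p α Q) :
    P - Q ∈ FA_S13_m2E0 hW := by
  have hp0 : p ≠ 0 := by
    rintro rfl
    simp at hp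
  by_cases hPE : P ∈ FA_S13_m2E0 hW
  · have hQE : Q ∈ FA_S13_m2E0 hW := by
      rw [← FA_S13_m2_label_eq_zero_iff hW hp α Q hQ, ← hl,
        FA_S13_m2_label_eq_zero_iff hW hp α P hP]
      exact hPE
    exact (FA_S13_m2E0 hW).sub_mem hPE hQE
  · have hQE : Q ∉ FA_S13_m2E0 hW := by
      rw [← FA_S13_m2_label_eq_zero_iff hW hp α Q hQ, ← hl,
        FA_S13_m2_label_eq_zero_iff hW hp α P hP]
      exact hPE
    rcases P with _ | ⟨x₁, y₁, h₁⟩
    · exact absurd (FA_S13_m2E0 hW).zero_mem hPE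
    rcases Q with _ | ⟨x₂, y₂, h₂⟩
    · exact absurd (FA_S13_m2E0 hW).zero_mem hQE
    rw [FA_S13_mem_m2E0, FA_S13_m2Cls_eq_one_iff hW] at hPE hQE
    obtain ⟨hx₁, hx₁', hs₁, hk₁, -⟩ := FA_S13_m2_node_facts hW hp h₁ hP hPE
    obtain ⟨hx₂, hx₂', hs₂, hk₂, -⟩ := FA_S13_m2_node_facts hW hp h₂ hQ hQE
    rw [FA_S13_mem_m2E0]
    by_cases hb₁ : v (y₁ - α * x₁) < v x₁
    · by_cases hb₂ : v (y₂ - α * x₂) < v x₂
      · rw [FA_S13_m2_label_of_branch h₁ hPE hb₁, FA_S13_m2_label_of_branch h₂ hQE hb₂] at hl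
        have hx : v x₁ = v x₂ := by
          apply (pow_left_inj₀ zero_le zero_le hp0).1
          rw [hs₁, hs₂, hl]
        exact FA_S13_m2_sub_of_same_branch hW α h₁ h₂ hx₁ hx₁' hx hb₁ hb₂
      · rw [FA_S13_m2_label_of_branch h₁ hPE hb₁,
          FA_S13_m2_label_of_not_branch h₂ hQE hb₂] at hl
        omega
    · by_cases hb₂ : v (y₂ - α * x₂) < v x₂
      · rw [FA_S13_m2_label_of_not_branch h₁ hPE hb₁,
          FA_S13_m2_label_of_branch h₂ hQE hb₂] at hl
        omega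
      · rw [FA_S13_m2_label_of_not_branch h₁ hPE hb₁,
          FA_S13_m2_label_of_not_branch h₂ hQE hb₂] at hl
        have hl' : FA_S13_m2_expo W v p x₁ = FA_S13_m2_expo W v p x₂ := neg_injective hl
        have hx : v x₁ = v x₂ := by
          apply (pow_left_inj₀ zero_le zero_le hp0).1
          rw [hs₁, hs₂, hl']
        have hc₁ := (FA_S13_m2_branch hW hα h₁ hx₁ hx₁').resolve_left hb₁
        have hc₂ := (FA_S13_m2_branch hW hα h₂ hx₂ hx₂').resolve_left hb₂
        exact FA_S13_m2_sub_of_same_branch hW (-1 - α) h₁ h₂ hx₁ hx₁' hx hc₁ hc₂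

/-- **Level count**: a set of `p`-torsion points, pairwise incongruent modulo `E₀`, has at
most `p` elements (`p` odd). -/
theorem FA_S13_m2_lev (hW : FA_S13_m2Mult W v) {p : ℕ} (hp : Odd p) {α : K}
    (hα : α ^ 2 + α = W.a₂) (s : Finset W.Point) (hs : ∀ P ∈ s, p • P = 0)
    (hinj : ∀ P ∈ s, ∀ Q ∈ s, P - Q ∈ FA_S13_m2E0 hW → P = Q) : s.card ≤ p := by
  obtain ⟨k₀, rfl⟩ := hp
  have hp : Odd (2 * k₀ + 1) := ⟨k₀, rfl⟩
  have hcard : (Finset.Icc (-(k₀ : ℤ)) k₀).card = 2 * k₀ + 1 := by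
    rw [Int.card_Icc]
    omega
  rw [← hcard]
  apply Finset.card_le_card_of_injOn (FA_S13_m2_label v (2 * k₀ + 1) α)
  · intro P hP
    exact FA_S13_m2_label_mem hW α P (hs P hP)
  · intro P hP Q hQ hl
    exact hinj P hP Q hQ (FA_S13_m2_sub_of_label_eq hW hp hα P Q (hs P hP) (hs Q hQ) hl)

end Fermat.Agent.S13
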