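import Mathlib
import Fermat.Prelude.Def_FLTPrelim_FreyPackage
import Fermat.Prelude.Def_FLTPrelim_GaloisRep
import Fermat.Prelude.Def_FLTPrelim_Ramification
import Fermat.Prelude.Def_FLTPrelim_CofixedLine
import Fermat.Agent.S05.Interface

/-!
# S13 (item 82): interface — exact targets of the work packages (owner: helper9)

Plan: `NOTES/plan/S13.md`. `K = Q̄`, `V = E[p](Q̄)` for the Frey curve `E`, `G = Gal(Q̄/Q)`.
Each work package proves ONE of the `FA_S13_Target_*` below (as a theorem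
`FA_S13_x : FA_S13_Target_x` in its own file `Fermat/Agent/S13/*.lean`); the glue
(`S13/Glue.lean`, helper9) derives the statement S13 from them.
-/

namespace Fermat.Agent.S13

open WeierstrassCurve WeierstrassCurve.Affine WeierstrassCurve.Affine.Point
open Fermat.Agent.S05

/-- `Q̄`. -/
abbrev FA_S13_Qb : Type := AlgebraicClosure ℚ

/-- `G = Gal(Q̄/Q)`. -/
abbrev FA_S13_G : Type := FA_S13_Qb ≃ₐ[ℚ] FA_S13_Qb

/-- The Frey curve over `Q̄`. -/
noncomputable abbrev FA_S13_E (P : FreyPackage) : WeierstrassCurve.Affine FA_S13_Qb :=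
  P.freyCurve⁄FA_S13_Qb

/-- `V = E[p](Q̄)`. -/
noncomputable abbrev FA_S13_V (P : FreyPackage) : Type :=
  Submodule.torsionBy ℤ (FA_S13_E P).Point P.p

/-- **WP-a**: the `p`-torsion is nontrivial. -/
def FA_S13_Target_a : Prop :=
  ∀ P : FreyPackage, Nontrivial (FA_S13_V P)

/-- **WP-card** (b1): `V` is finite with at most `p²` elements. -/
def FA_S13_Target_card : Prop :=
  ∀ P : FreyPackage, Finite (FA_S13_V P) ∧ Nat.card (FA_S13_V P) ≤ P.p ^ 2

/-- **WP-b2**: inertia at `2` is unipotent: for every valuation subring `A` over `2` there is a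
subgroup `V₀` (`= V ∩ E₀(A)`) fixed pointwise by inertia and containing `(σ - 1) V`. -/
def FA_S13_Target_b2 : Prop :=
  ∀ (P : FreyPackage) (A : ValuationSubring FA_S13_Qb), A.LiesOverPrime 2 →
    ∃ V₀ : AddSubgroup (FA_S13_V P), ∀ σ ∈ A.inertiaSubgroupIn ℚ,
      (∀ x ∈ V₀, σ • x = x) ∧ (∀ x : FA_S13_V P, σ • x - x ∈ V₀)

/-- **WP-b3**: there is no nonzero `G`-fixed `p`-torsion point (no rational point of order `p`). -/
def FA_S13_Target_b3 : Prop :=
  ∀ (P : FreyPackage) (x : FA_S13_V P), (∀ σ : FA_S13_G, σ • x = x) → x = 0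

/-- **WP-c1**: at `p`, inertia moves `p`-torsion points by elements of the kernel of
reduction. -/
def FA_S13_Target_c1 : Prop :=
  ∀ (P : FreyPackage) (A : ValuationSubring FA_S13_Qb), A.LiesOverPrime P.p →
    ∀ σ ∈ A.inertiaSubgroupIn ℚ, ∀ x : FA_S13_V P,
      FA_S05_E1 A ((σ • x - x : FA_S13_V P) : (FA_S13_E P).Point)

/-- **WP-c3**: at `p`, a nonzero `G`-stable subspace `N` contained in the kernel of reduction
contains every `p`-torsion point of the kernel of reduction. -/
def FA_S13_Target_c3 : Prop :=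
  ∀ (P : FreyPackage) (A : ValuationSubring FA_S13_Qb), A.LiesOverPrime P.p →
    ∀ N : Submodule (ZMod P.p) (FA_S13_V P), IsGaloisStable ℚ N → N ≠ ⊥ →
      (∀ x ∈ N, FA_S05_E1 A ((x : FA_S13_V P) : (FA_S13_E P).Point)) →
      ∀ x : FA_S13_V P, FA_S05_E1 A ((x : FA_S13_V P) : (FA_S13_E P).Point) → x ∈ N

/-- **WP-d** (Minkowski bridge): an open normal subgroup of `G` containing, for every prime
`q`, the inertia group of ONE valuation subring over `q`, is everything. -/
def FA_S13_Target_d : Prop :=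
  ∀ H : Subgroup FA_S13_G, H.Normal →
    (∃ L : IntermediateField ℚ FA_S13_Qb, FiniteDimensional ℚ L ∧
      ∀ σ : FA_S13_G, (∀ x ∈ L, σ x = x) → σ ∈ H) →
    (∀ q : ℕ, q.Prime → ∃ A : ValuationSubring FA_S13_Qb, A.LiesOverPrime q ∧
      ∀ σ ∈ A.inertiaSubgroupIn ℚ, σ ∈ H) →
    ∀ σ : FA_S13_G, σ ∈ H

/-- **WP-place**: every prime has a valuation subring of `Q̄` over it. -/
def FA_S13_Target_place : Prop :=
  ∀ q : ℕ, q.Prime → ∃ A : ValuationSubring FA_S13_Qb, A.LiesOverPrime q

/-- The statement S05 (landed as `Fermat.Agent.S05.result`), in the form used by the glue. -/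
def FA_S13_Target_S05 : Prop :=
  ∀ (P : FreyPackage) {q : ℕ}, q.Prime → q ≠ 2 → q ≠ P.p → P.GaloisRepUnramifiedAt q

/-- The statement S13. -/
def FA_S13_Statement : Prop :=
  ∀ (P : FreyPackage),
    ¬ GaloisRepIsIrreducible (K := AlgebraicClosure ℚ) ℚ P.freyCurve P.p →
    HasGaloisStableCofixedLine (K := AlgebraicClosure ℚ) ℚ P.freyCurve P.p

end Fermat.Agent.S13
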