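import Mathlib
import Fermat.Agent.S13.Interface
import Fermat.Agent.Lib.FrobeniusExists

/-!
# S13, WP-place: every prime has a valuation subring of `ℚ̄` over it
-/

set_option autoImplicit false

namespace Fermat.Agent.S13

/-- **WP-place**. -/
theorem FA_S13_place : FA_S13_Target_place := by
  intro q hq
  obtain ⟨A, hA, -⟩ := Fermat.Agent.Lib.FA_exists_frobenius q hq
  exact ⟨A, hA⟩

end Fermat.Agent.S13
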