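import Fermat.Agent.S13.M2Frey
import Fermat.Agent.S13.M2Lev
import Fermat.Agent.S13.Place

/-!
# S13, WP-b3 (helper7): the Frey curve has no rational point of order `p`

`P ∈ E[p]` fixed by `Gal(Q̄/ℚ)` has rational coordinates. At a valuation subring `A` of `Q̄` over
`2` the Frey curve has multiplicative reduction with node `(0,0)`:

* `P` of node type: `(v x)^p = (v a₄)^(2k)` with `0 < 2k < p`, `v x = (v 2)^m` (`x` rational) and
  `v a₄ = (v 2)^(pt - 4)` give `p ∣ 8k`: impossible.
* `P` of class `1`: `P`, `2P` are rational with nonsingular reduction (not in the kernel of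
  reduction by `KL`); the residue field of `ℚ ∩ A` is `𝔽₂`, so both reduce to `(1, 0)` or `(1, 1)`:
  `2P` is close to `P` or to `-P`, so `P` or `3P` is in the kernel of reduction: `P = 0`.
-/

namespace Fermat.Agent.S13

open WeierstrassCurve WeierstrassCurve.Affine
open Fermat.Agent.S05

section rat

variable {K : Type*} [Field K] [Algebra ℚ K]

omit [Algebra ℚ K] in
/-- The valuation at `2` of a nonzero integer is a power of `v 2`. -/
lemma FA_S13_b3_v_int (A : ValuationSubring K) (hA : ((2 : ℕ) : K) ∈ A.nonunits) (n : ℤ)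
    (hn : n ≠ 0) : ∃ i : ℕ, A.valuation (n : K) = A.valuation (2 : K) ^ i := by
  have hn0 : n.natAbs ≠ 0 := Int.natAbs_ne_zero.mpr hn
  obtain ⟨i, m, hm, e⟩ := Nat.exists_eq_two_pow_mul_odd hn0
  have hm2 : ¬ (2 : ℤ) ∣ (m : ℤ) := by
    intro h
    have : 2 ∣ m := by exact_mod_cast h
    exact (Nat.not_even_iff_odd.mpr hm) (even_iff_two_dvd.mpr this)
  have hvm : A.valuation ((m : ℤ) : K) = 1 := FA_S13_frey_v_odd A hA _ hm2
  refine ⟨i, ?_⟩
  have habs : A.valuation (n : K) = A.valuation ((n.natAbs : ℤ) : K) := by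
    rcases Int.natAbs_eq n with h | h
    · rw [← h]
    · conv_lhs => rw [h]
      push_cast
      rw [Valuation.map_neg]
  rw [habs, e]
  push_cast
  rw [map_mul, map_pow]
  have : A.valuation ((m : ℤ) : K) = A.valuation (m : K) := by push_cast; rfl
  rw [← this, hvm, mul_one]

/-- The valuation at `2` of a nonzero rational number is a power of `v 2`. -/
lemma FA_S13_b3_v_rat (A : ValuationSubring K) (hA : ((2 : ℕ) : K) ∈ A.nonunits) (r : ℚ)
    (hr : r ≠ 0) : ∃ m : ℤ, A.valuation (algebraMap ℚ K r) = A.valuation (2 : K) ^ m := by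
  have hch : CharZero K := algebraRat.charZero K
  obtain ⟨i, hi⟩ := FA_S13_b3_v_int A hA r.num (Rat.num_ne_zero.mpr hr)
  obtain ⟨j, hj⟩ := FA_S13_b3_v_int A hA (r.den : ℤ) (by exact_mod_cast r.den_ne_zero)
  refine ⟨(i : ℤ) - j, ?_⟩
  have e : algebraMap ℚ K r = (r.num : K) / ((r.den : ℤ) : K) := by
    conv_lhs => rw [← Rat.num_div_den r]
    rw [map_div₀, map_intCast, map_natCast]
    push_cast
    rfl
  have h20 : A.valuation (2 : K) ≠ 0 := FA_S13_frey_v_two_ne A
  rw [e, map_div₀, hi, hj, zpow_sub₀ h20, zpow_natCast, zpow_natCast]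

/-- The residue field of `ℚ ∩ A` is `𝔽₂`. -/
lemma FA_S13_b3_rat_res (A : ValuationSubring K) (hA : ((2 : ℕ) : K) ∈ A.nonunits) (r : ℚ)
    (hr : algebraMap ℚ K r ∈ A) :
    algebraMap ℚ K r ∈ A.nonunits ∨ algebraMap ℚ K r - 1 ∈ A.nonunits := by
  have hch : CharZero K := algebraRat.charZero K
  have e : algebraMap ℚ K r = (r.num : K) / ((r.den : ℤ) : K) := by
    conv_lhs => rw [← Rat.num_div_den r]
    rw [map_div₀, map_intCast, map_natCast]
    push_cast
    rfl
  have hden0 : ((r.den : ℤ) : K) ≠ 0 := by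
    have := r.den_ne_zero
    exact_mod_cast this
  have hcop : IsCoprime r.num (r.den : ℤ) := by
    rw [Int.isCoprime_iff_gcd_eq_one]
    exact r.reduced
  -- the denominator is odd
  have hden : ¬ (2 : ℤ) ∣ (r.den : ℤ) := by
    intro h2
    have hnum : ¬ (2 : ℤ) ∣ r.num := by
      intro h3
      have := hcop.isUnit_of_dvd' h3 h2
      exact Int.prime_two.not_isUnit this
    have h1 : A.valuation (r.num : K) = 1 := FA_S13_frey_v_odd A hA _ hnum
    have h4 : A.valuation ((r.den : ℤ) : K) < 1 :=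
      FA_S05_m_v_int_lt_one A Nat.prime_two hA _ (by exact_mod_cast h2)
    have h5 : A.valuation (algebraMap ℚ K r) ≤ 1 := (A.valuation_le_one_iff _).mpr hr
    rw [e, map_div₀, h1] at h5
    have h6 : A.valuation ((r.den : ℤ) : K) ≠ 0 := (Valuation.ne_zero_iff _).mpr hden0
    have h7 : (1 : _) ≤ A.valuation ((r.den : ℤ) : K) := by
      have := (div_le_iff₀ (zero_lt_iff.mpr h6)).mp h5
      rwa [one_mul] at this
    exact absurd h4 (not_lt.mpr h7)
  have hvden : A.valuation ((r.den : ℤ) : K) = 1 := FA_S13_frey_v_odd A hA _ hden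
  by_cases hnum : (2 : ℤ) ∣ r.num
  · left
    rw [A.mem_nonunits_iff, e, map_div₀, hvden, div_one]
    exact FA_S05_m_v_int_lt_one A Nat.prime_two hA _ (by exact_mod_cast hnum)
  · right
    have e2 : algebraMap ℚ K r - 1 = ((r.num - (r.den : ℤ) : ℤ) : K) / ((r.den : ℤ) : K) := by
      rw [e]
      push_cast
      field_simp
    have hsub : (2 : ℤ) ∣ r.num - (r.den : ℤ) := by
      have h1 : r.num % 2 = 1 := by omega
      have h2 : (r.den : ℤ) % 2 = 1 := by omega
      omega
    rw [A.mem_nonunits_iff, e2, map_div₀, hvden, div_one]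
    exact FA_S05_m_v_int_lt_one A Nat.prime_two hA _ (by exact_mod_cast hsub)

end rat

/-- `Q̄ / ℚ` is Galois (for the prelude's algebra structure). -/
theorem FA_S13_b3_isGalois : IsGalois ℚ FA_S13_Qb := by
  have h : (AlgebraicClosure.instAlgebra ℚ : Algebra ℚ (AlgebraicClosure ℚ)) =
      DivisionRing.toRatAlgebra := Subsingleton.elim _ _
  rw [← h]
  infer_instance

/-- Galois descent: an element of `Q̄` fixed by the whole Galois group is rational. -/
theorem FA_S13_b3_descend (x : FA_S13_Qb) (h : ∀ σ : FA_S13_G, σ x = x) :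
    ∃ x₀ : ℚ, algebraMap ℚ FA_S13_Qb x₀ = x := by
  have := FA_S13_b3_isGalois
  exact (InfiniteGalois.mem_range_algebraMap_iff_fixed (k := ℚ) (K := AlgebraicClosure ℚ) x).mpr h

/-- A Galois-fixed affine point has rational coordinates. -/
lemma FA_S13_b3_rational (P : FreyPackage) {x y : FA_S13_Qb} (h : (FA_S13_E P).Nonsingular x y)
    (hfix : ∀ σ : FA_S13_G, σ • (Point.some x y h : (FA_S13_E P).Point) = Point.some x y h) :
    (∃ x₀ : ℚ, algebraMap ℚ FA_S13_Qb x₀ = x) ∧ (∃ y₀ : ℚ, algebraMap ℚ FA_S13_Qb y₀ = y) := by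
  have key : ∀ σ : FA_S13_G, σ x = x ∧ σ y = y := by
    intro σ
    obtain ⟨h', he⟩ := FA_S05_smul_some P.freyCurve σ h
    have := (hfix σ).symm.trans he
    exact ⟨(Point.some.inj this).1.symm, (Point.some.inj this).2.symm⟩
  exact ⟨FA_S13_b3_descend x fun σ => (key σ).1, FA_S13_b3_descend y fun σ => (key σ).2⟩

/-- A rational point with nonsingular reduction at `2` reduces to `(1, 0)` or `(1, 1)`. -/
lemma FA_S13_b3_red (P : FreyPackage) (A : ValuationSubring FA_S13_Qb)
    (hA : ((2 : ℕ) : FA_S13_Qb) ∈ A.nonunits) {x y : FA_S13_Qb}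
    (h : (FA_S13_E P).Nonsingular x y)
    (hfix : ∀ σ : FA_S13_G, σ • (Point.some x y h : (FA_S13_E P).Point) = Point.some x y h)
    (hx1 : 1 ≤ A.valuation x) (hxA : x ∈ A) (hyA : y ∈ A) :
    x - 1 ∈ A.nonunits ∧ (y ∈ A.nonunits ∨ y - 1 ∈ A.nonunits) := by
  obtain ⟨⟨x₀, rfl⟩, ⟨y₀, rfl⟩⟩ := FA_S13_b3_rational P h hfix
  refine ⟨?_, FA_S13_b3_rat_res A hA y₀ hyA⟩
  rcases FA_S13_b3_rat_res A hA x₀ hxA with h1 | h1
  · rw [A.mem_nonunits_iff] at h1
    exact absurd hx1 (not_le.mpr h1)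
  · exact h1

/-- Core of `b3`. -/
theorem FA_S13_b3_core (P : FreyPackage) (A : ValuationSubring FA_S13_Qb)
    (hA : ((2 : ℕ) : FA_S13_Qb) ∈ A.nonunits) (Q : (FA_S13_E P).Point) (hQ : P.p • Q = 0)
    (hfix : ∀ σ : FA_S13_G, σ • Q = Q) : Q = 0 := by
  have hW := FA_S13_frey_m2Mult (K := FA_S13_Qb) P A hA
  have hInt := FA_S13_m2_integral hW
  have hpu : ((P.p : ℕ) : FA_S13_Qb) ∉ A.nonunits := by
    rw [FA_S05_natCast_mem_nonunits_iff A Nat.prime_two hA]
    intro h
    have := (Nat.prime_dvd_prime_iff_eq Nat.prime_two P.pp).mp h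
    have := P.hp5
    omega
  have h2lt := FA_S13_frey_v_two_lt A hA
  have h20 : A.valuation (2 : FA_S13_Qb) ≠ 0 := FA_S13_frey_v_two_ne A
  have h2mem : (2 : FA_S13_Qb) ∈ A.nonunits := A.mem_nonunits_iff.mpr h2lt
  by_contra hne
  rcases Q with _ | ⟨x, y, h⟩
  · exact hne rfl
  by_cases hx1 : 1 ≤ A.valuation x
  · -- class `1`
    have hcls : FA_S13_m2Cls A.valuation (Point.some x y h) = 1 :=
      FA_S13_m2Cls_of_one_le hW h hx1
    rcases FA_S13_m2_E1_or_NS hW _ hcls with hE | hNS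
    · exact hne (FA_S05_KL A _ hInt P.p hpu _ hE hQ)
    have hNS' := (FA_S05_NS_some A h).mp hNS
    obtain ⟨hxA, hyA, -⟩ := hNS'
    obtain ⟨hxr, hyr⟩ := FA_S13_b3_red P A hA h hfix hx1 hxA hyA
    -- the point `2P`
    have hQ2 : P.p • ((2 : ℕ) • (Point.some x y h : (FA_S13_E P).Point)) = 0 := by
      rw [← mul_nsmul, mul_comm, mul_nsmul, hQ, nsmul_zero]
    have hfix2 : ∀ σ : FA_S13_G,
        σ • ((2 : ℕ) • (Point.some x y h : (FA_S13_E P).Point)) = (2 : ℕ) • Point.some x y h := by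
      intro σ
      have : σ • ((2 : ℕ) • (Point.some x y h : (FA_S13_E P).Point))
          = (2 : ℕ) • (σ • (Point.some x y h : (FA_S13_E P).Point)) :=
        map_nsmul (DistribSMul.toAddMonoidHom (FA_S13_E P).Point σ) 2 _
      rw [this, hfix σ]
    have hcls2 : FA_S13_m2Cls A.valuation ((2 : ℕ) • (Point.some x y h : (FA_S13_E P).Point))
        = 1 := by
      have hmem : (Point.some x y h : (FA_S13_E P).Point) ∈ FA_S13_m2E0 hW := hcls
      exact (FA_S13_m2E0 hW).nsmul_mem hmem 2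
    have hne2 : (2 : ℕ) • (Point.some x y h : (FA_S13_E P).Point) ≠ 0 := by
      intro h0
      obtain ⟨k, hk⟩ := P.hp_odd
      apply hne
      have : P.p • (Point.some x y h : (FA_S13_E P).Point)
          = k • ((2 : ℕ) • Point.some x y h) + Point.some x y h := by
        rw [hk, add_nsmul, one_nsmul, mul_nsmul]
      rw [h0, nsmul_zero, zero_add] at this
      rw [← this]
      exact hQ
    generalize hR : (2 : ℕ) • (Point.some x y h : (FA_S13_E P).Point) = R
      at hQ2 hfix2 hcls2 hne2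
    rcases R with _ | ⟨x₃, y₃, h₃⟩
    · exact hne2 rfl
    rcases FA_S13_m2_E1_or_NS hW _ hcls2 with hE | hNS2
    · exact hne2 (FA_S05_KL A _ hInt P.p hpu _ hE hQ2)
    obtain ⟨hxA3, hyA3, -⟩ := (FA_S05_NS_some A h₃).mp hNS2
    have hx13 : 1 ≤ A.valuation x₃ := (FA_S13_m2Cls_eq_one_iff hW h₃).mp hcls2
    obtain ⟨hxr3, hyr3⟩ := FA_S13_b3_red P A hA h₃ hfix2 hx13 hxA3 hyA3
    have hxx : x₃ - x ∈ A.nonunits := by
      have : x₃ - x = (x₃ - 1) - (x - 1) := by ring
      rw [this, A.mem_nonunits_iff]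
      exact Valuation.map_sub_lt _ (A.mem_nonunits_iff.mp hxr3) (A.mem_nonunits_iff.mp hxr)
    -- close to `P`: then `P = 2P - P` is in the kernel of reduction
    have hsame : y₃ - y ∈ A.nonunits → False := by
      intro hyy
      have hcl := FA_S05_close A hInt h h₃ hNS hxx hyy
      rw [← hR, two_nsmul, add_sub_cancel_right, FA_S05_E1_some] at hcl
      exact hcl hxA
    -- close to `-P`: then `3P` is in the kernel of reduction
    have hdiff : y₃ + y + x - 2 ∈ A.nonunits → False := by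
      intro hyy
      have hnegNS : FA_S05_NS A (-(Point.some x y h : (FA_S13_E P).Point)) := by
        have hc : FA_S13_m2Cls A.valuation (-(Point.some x y h : (FA_S13_E P).Point)) = 1 := by
          rw [FA_S13_m2Cls_neg]
          exact hcls
        rcases FA_S13_m2_E1_or_NS hW _ hc with hE | hN
        · exfalso
          rw [Point.neg_some, FA_S05_E1_some] at hE
          exact hE hxA
        · exact hN
      obtain ⟨hn', hneg⟩ : ∃ hn' : (FA_S13_E P).Nonsingular x ((FA_S13_E P).negY x y),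
          -(Point.some x y h : (FA_S13_E P).Point)
            = Point.some x ((FA_S13_E P).negY x y) hn' := ⟨_, Point.neg_some h⟩
      rw [hneg] at hnegNS
      have hyy' : y₃ - (FA_S13_E P).negY x y ∈ A.nonunits := by
        have e : y₃ - (FA_S13_E P).negY x y = (y₃ + y + x - 2) + 2 := by
          rw [negY, hW.a1, hW.a3]
          ring
        rw [e, A.mem_nonunits_iff]
        exact Valuation.map_add_lt _ (A.mem_nonunits_iff.mp hyy) h2lt
      have hcl := FA_S05_close A hInt hn' h₃ hnegNS hxx hyy'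
      rw [← hneg, ← hR, sub_neg_eq_add] at hcl
      have h3 : (3 : ℕ) • (Point.some x y h : (FA_S13_E P).Point) = 0 := by
        apply FA_S05_KL A _ hInt P.p hpu
        · have : (3 : ℕ) • (Point.some x y h : (FA_S13_E P).Point)
              = (2 : ℕ) • Point.some x y h + Point.some x y h := by
            rw [show (3 : ℕ) = 2 + 1 from rfl, add_nsmul, one_nsmul]
          rw [this]
          exact hcl
        · rw [← mul_nsmul, mul_comm, mul_nsmul, hQ, nsmul_zero]
      -- `gcd(3, p) = 1`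
      have hcop : Nat.Coprime 3 P.p := by
        rw [Nat.coprime_primes Nat.prime_three P.pp]
        have := P.hp5
        omega
      have hord := addOrderOf_dvd_of_nsmul_eq_zero h3
      have hord' := addOrderOf_dvd_of_nsmul_eq_zero hQ
      have h1 : addOrderOf (Point.some x y h : (FA_S13_E P).Point) ∣ 1 := by
        rw [← Nat.Coprime.gcd_eq_one hcop]
        exact Nat.dvd_gcd hord hord'
      rw [Nat.dvd_one, AddMonoid.addOrderOf_eq_one_iff] at h1
      exact hne h1
    rcases hyr with hy | hy <;> rcases hyr3 with hy3 | hy3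
    · apply hsame
      rw [A.mem_nonunits_iff] at hy hy3 ⊢
      exact Valuation.map_sub_lt _ hy3 hy
    · apply hdiff
      have e : y₃ + y + x - 2 = (y₃ - 1) + y + (x - 1) := by ring
      rw [e, A.mem_nonunits_iff]
      exact Valuation.map_add_lt _ (Valuation.map_add_lt _ (A.mem_nonunits_iff.mp hy3)
        (A.mem_nonunits_iff.mp hy)) (A.mem_nonunits_iff.mp hxr)
    · apply hdiff
      have e : y₃ + y + x - 2 = y₃ + (y - 1) + (x - 1) := by ring
      rw [e, A.mem_nonunits_iff]
      exact Valuation.map_add_lt _ (Valuation.map_add_lt _ (A.mem_nonunits_iff.mp hy3)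
        (A.mem_nonunits_iff.mp hy)) (A.mem_nonunits_iff.mp hxr)
    · apply hsame
      have e : y₃ - y = (y₃ - 1) - (y - 1) := by ring
      rw [e, A.mem_nonunits_iff]
      exact Valuation.map_sub_lt _ (A.mem_nonunits_iff.mp hy3) (A.mem_nonunits_iff.mp hy)
  · -- node type
    obtain ⟨hxa, hxlt, hs, hk0, hk1⟩ := FA_S13_m2_node_facts hW P.hp_odd h hQ hx1
    obtain ⟨⟨x₀, rfl⟩, -⟩ := FA_S13_b3_rational P h hfix
    have hx₀ : x₀ ≠ 0 := by
      rintro rfl
      rw [map_zero, map_zero] at hxa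
      exact not_lt_zero hxa
    obtain ⟨m, hm⟩ := FA_S13_b3_v_rat A hA x₀ hx₀
    obtain ⟨t, ht, hv4⟩ := FA_S13_frey_v_a4 P A hA
    generalize FA_S13_m2_expo (FA_S13_E P) A.valuation P.p (algebraMap ℚ FA_S13_Qb x₀) = k
      at hs hk0 hk1
    rw [hm, hv4, ← zpow_natCast, ← zpow_mul, ← zpow_mul] at hs
    have hinj := (zpow_right_inj₀ (zero_lt_iff.mpr h20) h2lt.ne).mp hs
    -- `m p = (p t - 4) (2k)`, so `p ∣ 8k`
    have hdvd : (P.p : ℤ) ∣ 8 * k := ⟨2 * k * t - m, by linear_combination hinj⟩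
    have hpi := Nat.prime_iff_prime_int.mp P.pp
    rcases hpi.dvd_or_dvd hdvd with h8 | hk
    · have h8' : P.p ∣ 8 := by exact_mod_cast h8
      have h2' : P.p ∣ 2 := by
        have : (8 : ℕ) = 2 ^ 3 := by norm_num
        rw [this] at h8'
        exact P.pp.dvd_of_dvd_pow h8'
      have := Nat.le_of_dvd (by norm_num) h2'
      have := P.hp5
      omega
    · have := Int.le_of_dvd hk0 hk
      omega

/-- **WP-b3**: there is no nonzero `G`-fixed `p`-torsion point. -/
theorem FA_S13_b3 : FA_S13_Target_b3 := by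
  intro P x hx
  obtain ⟨A, hA⟩ := FA_S13_place 2 Nat.prime_two
  obtain ⟨Q, hQ⟩ := x
  have hQ' : P.p • Q = 0 := by
    rw [Submodule.mem_torsionBy_iff] at hQ
    rw [← hQ]
    exact (natCast_zsmul Q P.p).symm
  have hfix : ∀ σ : FA_S13_G, σ • Q = Q := fun σ => congrArg Subtype.val (hx σ)
  apply Subtype.ext
  exact FA_S13_b3_core P A hA Q hQ' hfix

end Fermat.Agent.S13
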