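import Fermat.Agent.S13.Interface
import Fermat.Agent.S05.FreyMult

/-!
# S13, WP-c1 (helper7): at `p`, inertia moves `p`-torsion points of the Frey curve by elements
of the kernel of reduction

For `A` a valuation subring of `Q̄` over `p`, `σ` in the inertia group of `A` and `x ∈ E[p]`:
`σ • x - x ∈ E₁(A)`.

* good reduction (`p ∤ abc`): every point is in `E₁ ∪ NS`, so `FA_S05_L3` applies.
* multiplicative reduction (`p ∣ abc`): `FA_S05_m_exists_fixed` gives an inertia-fixed `R'` with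
  `P + R'` of class `1` (so in `E₁ ∪ NS`), and `FA_S05_L3` applied to `P + R'` gives the claim.
  For `p ∣ c` the node is first translated to `(0,0)`.
-/

namespace Fermat.Agent.S13

open WeierstrassCurve WeierstrassCurve.Affine
open Fermat.Agent.S05 FreyPackage

section general

variable {K : Type*} [Field K]
variable {R S : Type*} [CommRing R] [Field S] [DecidableEq K] [Algebra R S] [Algebra R K]
  [Algebra S K] [IsScalarTower R S K]

/-- Multiplicative case, general form: `σ • P - P` is in the kernel of reduction (no hypothesis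
on the residue characteristic). -/
theorem FA_S13_c1_m_core [IsAlgClosed K] (W' : WeierstrassCurve.Affine R)
    (A : ValuationSubring K) (hW : FA_S05_mMult (W'⁄K) A.valuation)
    (σ : K ≃ₐ[S] K) (hσ : σ ∈ A.inertiaSubgroupIn S)
    (p : ℕ) (hp : p ≠ 0) (b₀ : S)
    (hb : A.valuation (W'⁄K).a₄ = A.valuation (algebraMap S K b₀) ^ p)
    (P : (W'⁄K).Point) (hP : p • P = 0) : FA_S05_E1 A (σ • P - P) := by
  have hInt := FA_S05_m_integral hW
  obtain ⟨R', hR', hcls⟩ := FA_S05_m_exists_fixed W' A hW σ hσ p hp b₀ hb P hP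
  have h1 := FA_S05_L3 W' A hInt σ hσ (P + R') (FA_S05_m_E1_or_NS hW _ hcls)
  rwa [smul_add, hR', add_sub_add_right_eq_sub] at h1

omit [DecidableEq K] in
/-- The kernel of reduction is preserved by a translation with `r ∈ A`. -/
lemma FA_S13_c1_E1_transl [DecidableEq K] {W₁ W₂ : WeierstrassCurve.Affine K} {r t : K}
    (hT : FA_S05_mTransl W₁ W₂ r t) (A : ValuationSubring K) (hr : r ∈ A) (Q : W₁.Point)
    (h : FA_S05_E1 A (FA_S05_mTranslMap hT Q)) : FA_S05_E1 A Q := by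
  rcases Q with _ | ⟨x, y, hxy⟩
  · exact Or.inl rfl
  · rw [FA_S05_mTranslMap_some, FA_S05_E1_some] at h
    rw [FA_S05_E1_some]
    intro hx
    exact h (A.sub_mem hx hr)

end general

section frey

variable {K : Type*} [Field K] [Algebra ℚ K] [DecidableEq K] [IsAlgClosed K]

omit [IsAlgClosed K] in
/-- Good reduction at `q` odd. -/
theorem FA_S13_c1_good (P : FreyPackage) {q : ℕ} (hq : q.Prime) (hq2 : q ≠ 2)
    (hqabc : ¬ (q : ℤ) ∣ P.a * P.b * P.c)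
    (A : ValuationSubring K) (hA : (q : K) ∈ A.nonunits)
    (σ : K ≃ₐ[ℚ] K) (hσ : σ ∈ A.inertiaSubgroupIn ℚ)
    (Q : (P.freyCurve⁄K).Point) : FA_S05_E1 A (σ • Q - Q) := by
  have hW := FA_S05_frey_integral (K := K) P A hq hq2 hA
  have hΔ := FA_S05_frey_Δ_unit (K := K) P A hq hq2 hA hqabc
  exact FA_S05_L3 P.freyCurve A hW σ hσ Q (FA_S05_E1_or_NS A hW hΔ Q)

/-- Multiplicative case, `q ∣ a`. -/
theorem FA_S13_c1_mult_a (P : FreyPackage) {q : ℕ} (hq : q.Prime) (hq2 : q ≠ 2)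
    (hqa : (q : ℤ) ∣ P.a)
    (A : ValuationSubring K) (hA : (q : K) ∈ A.nonunits)
    (σ : K ≃ₐ[ℚ] K) (hσ : σ ∈ A.inertiaSubgroupIn ℚ)
    (Q : (P.freyCurve⁄K).Point) (hQ : P.p • Q = 0) : FA_S05_E1 A (σ • Q - Q) := by
  have hb : ¬ (q : ℤ) ∣ P.b := FA_S05_m_not_dvd_of_gcd P.hgcdab hq hqa
  have hu : ¬ (q : ℤ) ∣ P.b ^ P.p - P.a ^ P.p := by
    intro h
    have h2 : (q : ℤ) ∣ P.a ^ P.p := dvd_pow hqa P.hp0
    have h3 : (q : ℤ) ∣ P.b ^ P.p := by
      have := dvd_add h h2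
      simpa using this
    exact FA_S05_m_not_dvd_pow hq hb _ h3
  have he : ¬ (q : ℤ) ∣ -(P.b ^ P.p) := by
    rw [dvd_neg]
    exact FA_S05_m_not_dvd_pow hq hb _
  obtain ⟨hW, hv⟩ := FA_S05_m_mult_of_ints (K := K) P.freyCurve (P.b ^ P.p - P.a ^ P.p) P.a
    (-(P.b ^ P.p)) P.p rfl (by simp only [freyCurve]; push_cast; ring) rfl
    (by simp only [freyCurve]; push_cast; ring) rfl A hq hq2 hA hu hqa he P.ha0 P.hp0
  exact FA_S13_c1_m_core P.freyCurve A hW σ hσ P.p P.hp0 (P.a : ℚ) hv Q hQ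

/-- Multiplicative case, `q ∣ b`. -/
theorem FA_S13_c1_mult_b (P : FreyPackage) {q : ℕ} (hq : q.Prime) (hq2 : q ≠ 2)
    (hqb : (q : ℤ) ∣ P.b)
    (A : ValuationSubring K) (hA : (q : K) ∈ A.nonunits)
    (σ : K ≃ₐ[ℚ] K) (hσ : σ ∈ A.inertiaSubgroupIn ℚ)
    (Q : (P.freyCurve⁄K).Point) (hQ : P.p • Q = 0) : FA_S05_E1 A (σ • Q - Q) := by
  have ha : ¬ (q : ℤ) ∣ P.a :=
    FA_S05_m_not_dvd_of_gcd (by rw [gcd_comm]; exact P.hgcdab) hq hqb
  have hu : ¬ (q : ℤ) ∣ P.b ^ P.p - P.a ^ P.p := by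
    intro h
    have h2 : (q : ℤ) ∣ P.b ^ P.p := dvd_pow hqb P.hp0
    have h3 : (q : ℤ) ∣ P.a ^ P.p := by
      have := dvd_sub h2 h
      simpa using this
    exact FA_S05_m_not_dvd_pow hq ha _ h3
  have he : ¬ (q : ℤ) ∣ -(P.a ^ P.p) := by
    rw [dvd_neg]
    exact FA_S05_m_not_dvd_pow hq ha _
  obtain ⟨hW, hv⟩ := FA_S05_m_mult_of_ints (K := K) P.freyCurve (P.b ^ P.p - P.a ^ P.p) P.b
    (-(P.a ^ P.p)) P.p rfl (by simp only [freyCurve]; push_cast; ring) rfl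
    (by simp only [freyCurve]; push_cast; ring) rfl A hq hq2 hA hu hqb he P.hb0 P.hp0
  exact FA_S13_c1_m_core P.freyCurve A hW σ hσ P.p P.hp0 (P.b : ℚ) hv Q hQ

/-- Multiplicative case, `q ∣ c`. -/
theorem FA_S13_c1_mult_c (P : FreyPackage) {q : ℕ} (hq : q.Prime) (hq2 : q ≠ 2)
    (hqc : (q : ℤ) ∣ P.c)
    (A : ValuationSubring K) (hA : (q : K) ∈ A.nonunits)
    (σ : K ≃ₐ[ℚ] K) (hσ : σ ∈ A.inertiaSubgroupIn ℚ)
    (Q : (P.freyCurve⁄K).Point) (hQ : P.p • Q = 0) : FA_S05_E1 A (σ • Q - Q) := by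
  have ha : ¬ (q : ℤ) ∣ P.a :=
    FA_S05_m_not_dvd_of_gcd (by rw [gcd_comm]; exact P.hgcdac) hq hqc
  have hu : ¬ (q : ℤ) ∣ P.c ^ P.p + P.a ^ P.p := by
    intro h
    have h2 : (q : ℤ) ∣ P.c ^ P.p := dvd_pow hqc P.hp0
    have h3 : (q : ℤ) ∣ P.a ^ P.p := by
      have := dvd_sub h h2
      simpa using this
    exact FA_S05_m_not_dvd_pow hq ha _ h3
  have he : ¬ (q : ℤ) ∣ P.a ^ P.p := FA_S05_m_not_dvd_pow hq ha _
  obtain ⟨hW, hv⟩ := FA_S05_m_mult_of_ints (K := K) (FA_S05_mFrey2 P) (P.c ^ P.p + P.a ^ P.p)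
    P.c (P.a ^ P.p) P.p rfl (by simp only [FA_S05_mFrey2]; push_cast; ring) rfl
    (by simp only [FA_S05_mFrey2]; push_cast; ring) rfl A hq hq2 hA hu hqc he P.hc0 P.hp0
  have hT := FA_S05_mTransl_baseChange (K := K) (FA_S05_mFrey2_transl P)
  have h1 : P.p • FA_S05_mTranslMap hT Q = 0 := by
    rw [← map_nsmul, hQ, map_zero]
  have h2 := FA_S13_c1_m_core (FA_S05_mFrey2 P) A hW σ hσ P.p P.hp0 (P.c : ℚ) hv _ h1
  rw [← FA_S05_mTranslMap_smul (S := ℚ) P.freyCurve (FA_S05_mFrey2 P) hT σ (σ.commutes _)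
    (σ.commutes _), ← map_sub] at h2
  refine FA_S13_c1_E1_transl hT A ?_ _ h2
  -- `r = aᵖ / 4 ∈ A`
  have h2inv := FA_S05_two_inv_mem A hq hq2 hA
  have e : algebraMap ℚ K ((P.a : ℚ) ^ P.p / 4) = ((P.a ^ P.p : ℤ) : K) * (2 : K)⁻¹ ^ 2 := by
    rw [map_div₀, map_pow, map_intCast, map_ofNat]
    push_cast
    have : CharZero K := algebraRat.charZero K
    field_simp
    norm_num
  rw [e]
  exact A.mul_mem _ _ (intCast_mem A _) (pow_mem h2inv 2)

end frey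

/-- **WP-c1**. -/
theorem FA_S13_c1 : FA_S13_Target_c1 := by
  intro P A hA σ hσ x
  have hq := P.pp
  have hq2 : P.p ≠ 2 := by
    have := P.hp5
    omega
  obtain ⟨Q, hQ⟩ := x
  have hQ' : P.p • Q = 0 := by
    rw [Submodule.mem_torsionBy_iff] at hQ
    rw [← hQ]
    exact (natCast_zsmul Q P.p).symm
  show FA_S05_E1 A (σ • Q - Q)
  by_cases hqabc : (P.p : ℤ) ∣ P.a * P.b * P.c
  · have hqi := Nat.prime_iff_prime_int.mp hq
    rcases hqi.dvd_or_dvd hqabc with hab | hc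
    · rcases hqi.dvd_or_dvd hab with ha | hb
      · exact FA_S13_c1_mult_a P hq hq2 ha A hA σ hσ Q hQ'
      · exact FA_S13_c1_mult_b P hq hq2 hb A hA σ hσ Q hQ'
    · exact FA_S13_c1_mult_c P hq hq2 hc A hA σ hσ Q hQ'
  · exact FA_S13_c1_good P hq hq2 hqabc A hA σ hσ Q

end Fermat.Agent.S13
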