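import Mathlib

/-!
# S13 WP-c3, part 3: the valuation bound (lead)

If `f` is a polynomial over a valuation ring `A` with leading coefficient `u * c` (`u` a unit) and
`T` is a finite set of roots of `f` in `K` none of which lies in `A`, then `c * ∏_{t ∈ T} t ∈ A`.
(Reverse the polynomial: the `t⁻¹` are distinct roots in `A` of `f.reverse`, whose constant term
is the leading coefficient of `f`.)
-/

namespace Fermat.Agent.S13

open Polynomial

theorem FA_S13_c3_bound {K : Type*} [Field K] (A : ValuationSubring K) (f : A[X]) (hf : f ≠ 0)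
    (u c : A) (hu : IsUnit u) (hlead : f.leadingCoeff = u * c) (T : Finset K)
    (hT : ∀ t ∈ T, t ∉ A ∧ (f.map A.subtype).eval t = 0) :
    (c : K) * ∏ t ∈ T, t ∈ A := by
  classical
  have hinv : ∀ t ∈ T, t⁻¹ ∈ A := fun t ht =>
    (A.mem_or_inv_mem t).resolve_left (hT t ht).1
  have hne : ∀ t ∈ T, t ≠ 0 := fun t ht h0 => (hT t ht).1 (h0 ▸ A.zero_mem)
  let g : K → A := fun t => if h : t⁻¹ ∈ A then ⟨t⁻¹, h⟩ else 0
  have hg : ∀ t ∈ T, ((g t : A) : K) = t⁻¹ := by
    intro t ht
    simp only [g, dif_pos (hinv t ht)]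
  have hginj : Set.InjOn g (T : Set K) := by
    intro t ht t' ht' h
    have := congrArg (fun a : A => (a : K)) h
    simp only [hg t ht, hg t' ht'] at this
    exact inv_injective this
  have hrev : f.reverse ≠ 0 := by
    rwa [Ne, reverse_eq_zero]
  have hroot : ∀ t ∈ T, g t ∈ f.reverse.roots := by
    intro t ht
    rw [mem_roots hrev, IsRoot.def]
    apply A.subtype_injective
    rw [map_zero, ← eval₂_at_apply, show A.subtype (g t) = t⁻¹ from hg t ht]
    have : Invertible t := invertibleOfNonzero (hne t ht)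
    rw [← invOf_eq_inv, eval₂_reverse_eq_zero_iff, ← eval_map]
    exact (hT t ht).2
  have hnodup : (T.val.map g).Nodup := Multiset.Nodup.map_on
    (fun x hx y hy h => hginj (Finset.mem_coe.2 hx) (Finset.mem_coe.2 hy) h) T.nodup
  have hle : T.val.map g ≤ f.reverse.roots := by
    rw [Multiset.le_iff_subset hnodup]
    intro a ha
    obtain ⟨t, ht, rfl⟩ := Multiset.mem_map.1 ha
    exact hroot t ht
  obtain ⟨q, hq⟩ := (Multiset.prod_X_sub_C_dvd_iff_le_roots hrev _).2 hle
  have h0 : f.leadingCoeff = (∏ t ∈ T, (-(g t))) * q.coeff 0 := by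
    rw [← coeff_zero_reverse, hq, mul_coeff_zero]
    congr 1
    rw [coeff_zero_eq_eval_zero, eval_multiset_prod, Multiset.map_map, Multiset.map_map]
    simp only [Function.comp, eval_sub, eval_X, eval_C, zero_sub]
    rfl
  obtain ⟨v, hv⟩ := hu.exists_left_inv
  -- `v * u = 1`
  have h1 : (c : A) = v * ((∏ t ∈ T, (-(g t))) * q.coeff 0) := by
    rw [← h0, hlead, ← mul_assoc, hv, one_mul]
  have h2 : (c : K) = (v : K) * ((∏ t ∈ T, (-(t⁻¹))) * (q.coeff 0 : K)) := by
    have := congrArg (fun a : A => A.subtype a) h1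
    simp only [map_mul, map_prod, map_neg] at this
    refine this.trans ?_
    congr 2
    exact Finset.prod_congr rfl (fun t ht => by rw [show A.subtype (g t) = t⁻¹ from hg t ht])
  have h3 : (∏ t ∈ T, (-(t⁻¹))) * ∏ t ∈ T, t = ∏ t ∈ T, (-1 : K) := by
    rw [← Finset.prod_mul_distrib]
    refine Finset.prod_congr rfl (fun t ht => ?_)
    rw [neg_mul, inv_mul_cancel₀ (hne t ht)]
  have h4 : (c : K) * ∏ t ∈ T, t = (v : K) * (q.coeff 0 : K) * ∏ t ∈ T, (-1 : K) := by
    rw [h2, ← h3]
    ring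
  rw [h4]
  refine A.mul_mem _ _ (A.mul_mem _ _ v.2 (q.coeff 0).2) ?_
  exact Subring.prod_mem _ (fun t _ => A.neg_mem _ A.one_mem)

end Fermat.Agent.S13
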