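import Mathlib

/-!
# S13 WP-c3, part 1: uncancelled multiplication polynomials `A_j / B_j` (lead)

For a Weierstrass curve with invariants `b₂ b₄ b₆ b₈` we define polynomials `A_j, B_j` with
`x(jP) = A_j(x(P)) / B_j(x(P))` (no cancellation attempted) and record their degrees and leading
coefficients.  `FA_S13_c3_Cpoly k = A_k B_{k+1} - A_{k+1} B_k` vanishes at the `x`-coordinates
of the points of order `2k+1` and has leading coefficient `α_k α_{k+1} (2k+1)`.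
-/

namespace Fermat.Agent.S13

open Polynomial

section poly

variable {R : Type*} [CommRing R]

/-- `natDegree f ≤ d` and the coefficient of `f` at `d` is `c`. -/
def FA_S13_c3_Lead (f : R[X]) (d : ℕ) (c : R) : Prop := f.natDegree ≤ d ∧ f.coeff d = c

lemma FA_S13_c3_Lead_mul {f g : R[X]} {d e : ℕ} {c c' : R} (hf : FA_S13_c3_Lead f d c)
    (hg : FA_S13_c3_Lead g e c') : FA_S13_c3_Lead (f * g) (d + e) (c * c') :=
  ⟨natDegree_mul_le_of_le hf.1 hg.1, by rw [coeff_mul_add_eq_of_natDegree_le hf.1 hg.1, hf.2, hg.2]⟩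

lemma FA_S13_c3_Lead_sq {f : R[X]} {d : ℕ} {c : R} (hf : FA_S13_c3_Lead f d c) :
    FA_S13_c3_Lead (f ^ 2) (2 * d) (c ^ 2) := by
  have := FA_S13_c3_Lead_mul hf hf
  rw [← two_mul, ← pow_two, ← pow_two] at this
  exact this

lemma FA_S13_c3_Lead_sub {f g : R[X]} {d : ℕ} {c c' : R} (hf : FA_S13_c3_Lead f d c)
    (hg : FA_S13_c3_Lead g d c') : FA_S13_c3_Lead (f - g) d (c - c') :=
  ⟨(natDegree_sub_le_of_le hf.1 hg.1).trans (by simp), by rw [coeff_sub, hf.2, hg.2]⟩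

lemma FA_S13_c3_Lead_sub_lt {f g : R[X]} {d : ℕ} {c : R} (hf : FA_S13_c3_Lead f d c)
    (hg : g.natDegree < d) : FA_S13_c3_Lead (f - g) d c := by
  have := FA_S13_c3_Lead_sub hf (⟨hg.le, coeff_eq_zero_of_natDegree_lt hg⟩ : FA_S13_c3_Lead g d 0)
  rwa [sub_zero] at this

lemma FA_S13_c3_Lead_X : FA_S13_c3_Lead (X : R[X]) 1 1 :=
  ⟨natDegree_X_le, coeff_X_one⟩

lemma FA_S13_c3_Lead_one : FA_S13_c3_Lead (1 : R[X]) 0 1 :=
  ⟨by simp, coeff_one_zero⟩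

lemma FA_S13_c3_Lead_cast {f : R[X]} {d d' : ℕ} {c c' : R} (hf : FA_S13_c3_Lead f d c)
    (hd : d = d') (hc : c = c') : FA_S13_c3_Lead f d' c' := by
  subst hd; subst hc; exact hf

/-- A polynomial with `FA_S13_c3_Lead f d c`, `c ≠ 0`, has degree `d` and leading coefficient `c`. -/
lemma FA_S13_c3_Lead_natDegree {f : R[X]} {d : ℕ} {c : R} (hf : FA_S13_c3_Lead f d c)
    (hc : c ≠ 0) : f.natDegree = d ∧ f.leadingCoeff = c := by
  have h1 : f.natDegree = d := by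
    refine le_antisymm hf.1 ?_
    by_contra hlt
    rw [not_le] at hlt
    exact hc (hf.2 ▸ coeff_eq_zero_of_natDegree_lt hlt)
  refine ⟨h1, ?_⟩
  rw [leadingCoeff, h1, hf.2]

/-- The numerator of the add–sub product formula with `x(P) = A/B` and `x(Q) = X`,
multiplied by `B²`. -/
noncomputable def FA_S13_c3_num (b₄ b₆ b₈ : R) (A B : R[X]) : R[X] :=
  (A * X) ^ 2 - (C b₄ * (A * B * X) + C b₆ * ((A + X * B) * B) + C b₈ * B ^ 2)

/-- The pairs `(A_j, B_j)`; index `0` is a dummy. -/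
noncomputable def FA_S13_c3_AB (b₂ b₄ b₆ b₈ : R) : ℕ → R[X] × R[X]
  | 0 => (1, 0)
  | 1 => (X, 1)
  | 2 => (X ^ 4 - (C b₄ * X ^ 2 + C (2 * b₆) * X + C b₈),
          C 4 * X ^ 3 + (C b₂ * X ^ 2 + C (2 * b₄) * X + C b₆))
  | (j + 3) =>
      (FA_S13_c3_num b₄ b₆ b₈ (FA_S13_c3_AB b₂ b₄ b₆ b₈ (j + 2)).1
          (FA_S13_c3_AB b₂ b₄ b₆ b₈ (j + 2)).2 * (FA_S13_c3_AB b₂ b₄ b₆ b₈ (j + 1)).2,
       ((FA_S13_c3_AB b₂ b₄ b₆ b₈ (j + 2)).1 - X * (FA_S13_c3_AB b₂ b₄ b₆ b₈ (j + 2)).2) ^ 2 *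
          (FA_S13_c3_AB b₂ b₄ b₆ b₈ (j + 1)).1)

lemma FA_S13_c3_AB_succ (b₂ b₄ b₆ b₈ : R) (j : ℕ) :
    FA_S13_c3_AB b₂ b₄ b₆ b₈ (j + 3) =
      (FA_S13_c3_num b₄ b₆ b₈ (FA_S13_c3_AB b₂ b₄ b₆ b₈ (j + 2)).1
          (FA_S13_c3_AB b₂ b₄ b₆ b₈ (j + 2)).2 * (FA_S13_c3_AB b₂ b₄ b₆ b₈ (j + 1)).2,
       ((FA_S13_c3_AB b₂ b₄ b₆ b₈ (j + 2)).1 - X * (FA_S13_c3_AB b₂ b₄ b₆ b₈ (j + 2)).2) ^ 2 *
          (FA_S13_c3_AB b₂ b₄ b₆ b₈ (j + 1)).1) := by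
  rw [FA_S13_c3_AB]

/-- `e_j = deg B_j = deg A_j - 1`. -/
def FA_S13_c3_e : ℕ → ℕ
  | 0 => 0
  | 1 => 0
  | 2 => 3
  | (j + 3) => 2 * FA_S13_c3_e (j + 2) + FA_S13_c3_e (j + 1) + 3

/-- `α_j` = leading coefficient of `A_j`. -/
def FA_S13_c3_α : ℕ → ℕ
  | 0 => 1
  | 1 => 1
  | 2 => 1
  | (j + 3) => FA_S13_c3_α (j + 2) ^ 2 * (j + 1) ^ 2 * FA_S13_c3_α (j + 1)

lemma FA_S13_c3_α_not_dvd {p : ℕ} (hp : p.Prime) : ∀ j : ℕ, j ≤ p → ¬ p ∣ FA_S13_c3_α j := by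
  intro j
  induction j using Nat.strong_induction_on with
  | _ j ih =>
    intro hj
    match j, ih, hj with
    | 0, _, _ => simpa [FA_S13_c3_α] using hp.one_lt.ne'
    | 1, _, _ => simpa [FA_S13_c3_α] using hp.one_lt.ne'
    | 2, _, _ => simpa [FA_S13_c3_α] using hp.one_lt.ne'
    | (j + 3), ih, hj =>
      rw [FA_S13_c3_α]
      intro hdvd
      rcases (Nat.Prime.dvd_mul hp).1 hdvd with h | h
      · rcases (Nat.Prime.dvd_mul hp).1 h with h | h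
        · exact ih (j + 2) (by omega) (by omega) (hp.dvd_of_dvd_pow h)
        · have := Nat.le_of_dvd (by omega) (hp.dvd_of_dvd_pow h)
          omega
      · exact ih (j + 1) (by omega) (by omega) h

lemma FA_S13_c3_Lead_num {b₄ b₆ b₈ : R} {A B : R[X]} {e : ℕ} {a b : R}
    (hA : FA_S13_c3_Lead A (e + 1) a) (hB : FA_S13_c3_Lead B e b) :
    FA_S13_c3_Lead (FA_S13_c3_num b₄ b₆ b₈ A B) (2 * e + 4) (a ^ 2) := by
  unfold FA_S13_c3_num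
  have h1 : FA_S13_c3_Lead ((A * X) ^ 2) (2 * e + 4) (a ^ 2) := by
    have := FA_S13_c3_Lead_sq (FA_S13_c3_Lead_mul hA FA_S13_c3_Lead_X)
    exact FA_S13_c3_Lead_cast this (by ring) (by ring)
  refine FA_S13_c3_Lead_sub_lt h1 ?_
  have hA1 := hA.1
  have hB1 := hB.1
  have t1 : (C b₄ * (A * B * X)).natDegree ≤ 2 * e + 2 := by
    refine (natDegree_C_mul_le _ _).trans ?_
    refine (natDegree_mul_le_of_le (natDegree_mul_le_of_le hA1 hB1) natDegree_X_le).trans ?_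
    omega
  have t2 : (C b₆ * ((A + X * B) * B)).natDegree ≤ 2 * e + 1 := by
    refine (natDegree_C_mul_le _ _).trans ?_
    have : (A + X * B).natDegree ≤ e + 1 := by
      refine natDegree_add_le_of_degree_le hA1 ?_
      refine (natDegree_mul_le_of_le natDegree_X_le hB1).trans ?_
      omega
    refine (natDegree_mul_le_of_le this hB1).trans ?_
    omega
  have t3 : (C b₈ * B ^ 2).natDegree ≤ 2 * e := by
    refine (natDegree_C_mul_le _ _).trans ?_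
    refine (natDegree_pow_le_of_le 2 hB1).trans ?_
    omega
  have : (C b₄ * (A * B * X) + C b₆ * ((A + X * B) * B) + C b₈ * B ^ 2).natDegree ≤ 2 * e + 2 := by
    refine natDegree_add_le_of_degree_le (natDegree_add_le_of_degree_le t1 (t2.trans ?_))
      (t3.trans ?_) <;> omega
  omega

/-- Degrees and leading coefficients of `A_j` and `B_j` for `j ≥ 1`. -/
theorem FA_S13_c3_Lead_AB (b₂ b₄ b₆ b₈ : R) : ∀ j : ℕ, 1 ≤ j →
    FA_S13_c3_Lead (FA_S13_c3_AB b₂ b₄ b₆ b₈ j).1 (FA_S13_c3_e j + 1) (FA_S13_c3_α j : R) ∧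
    FA_S13_c3_Lead (FA_S13_c3_AB b₂ b₄ b₆ b₈ j).2 (FA_S13_c3_e j)
      ((j : R) ^ 2 * (FA_S13_c3_α j : R)) := by
  intro j
  induction j using Nat.strong_induction_on with
  | _ j ih =>
    intro hj
    match j, ih, hj with
    | 1, _, _ =>
      refine ⟨?_, ?_⟩
      · simpa [FA_S13_c3_AB, FA_S13_c3_e, FA_S13_c3_α] using (FA_S13_c3_Lead_X (R := R))
      · simpa [FA_S13_c3_AB, FA_S13_c3_e, FA_S13_c3_α] using (FA_S13_c3_Lead_one (R := R))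
    | 2, _, _ =>
      refine ⟨?_, ?_⟩
      · simp only [FA_S13_c3_AB, FA_S13_c3_e, FA_S13_c3_α, Nat.cast_one]
        refine FA_S13_c3_Lead_sub_lt ⟨natDegree_X_pow_le 4, by simp⟩ ?_
        have : (C b₄ * X ^ 2 + C (2 * b₆) * X + C b₈ : R[X]).natDegree ≤ 2 := by
          compute_degree
        omega
      · simp only [FA_S13_c3_AB, FA_S13_c3_e, FA_S13_c3_α, Nat.cast_one]
        refine ⟨by compute_degree, ?_⟩
        simp
        norm_num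
    | (j + 3), ih, _ =>
      obtain ⟨hA2, hB2⟩ := ih (j + 2) (by omega) (by omega)
      obtain ⟨hA1, hB1⟩ := ih (j + 1) (by omega) (by omega)
      rw [FA_S13_c3_AB_succ]
      refine ⟨?_, ?_⟩
      · have := FA_S13_c3_Lead_mul (FA_S13_c3_Lead_num (b₄ := b₄) (b₆ := b₆) (b₈ := b₈) hA2 hB2) hB1
        refine FA_S13_c3_Lead_cast this ?_ ?_
        · simp only [FA_S13_c3_e]; ring
        · simp only [FA_S13_c3_α]; push_cast; ring
      · have hXB : FA_S13_c3_Lead (X * (FA_S13_c3_AB b₂ b₄ b₆ b₈ (j + 2)).2)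
            (FA_S13_c3_e (j + 2) + 1) (((j + 2 : ℕ) : R) ^ 2 * (FA_S13_c3_α (j + 2) : R)) := by
          have := FA_S13_c3_Lead_mul (FA_S13_c3_Lead_X (R := R)) hB2
          exact FA_S13_c3_Lead_cast this (by ring) (by ring)
        have := FA_S13_c3_Lead_mul (FA_S13_c3_Lead_sq (FA_S13_c3_Lead_sub hA2 hXB)) hA1
        refine FA_S13_c3_Lead_cast this ?_ ?_
        · simp only [FA_S13_c3_e]; ring
        · simp only [FA_S13_c3_α]; push_cast; ring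

/-- `C_k = A_k B_{k+1} - A_{k+1} B_k`. -/
noncomputable def FA_S13_c3_Cpoly (b₂ b₄ b₆ b₈ : R) (k : ℕ) : R[X] :=
  (FA_S13_c3_AB b₂ b₄ b₆ b₈ k).1 * (FA_S13_c3_AB b₂ b₄ b₆ b₈ (k + 1)).2 -
    (FA_S13_c3_AB b₂ b₄ b₆ b₈ (k + 1)).1 * (FA_S13_c3_AB b₂ b₄ b₆ b₈ k).2

theorem FA_S13_c3_Lead_Cpoly (b₂ b₄ b₆ b₈ : R) (k : ℕ) (hk : 1 ≤ k) :
    FA_S13_c3_Lead (FA_S13_c3_Cpoly b₂ b₄ b₆ b₈ k) (FA_S13_c3_e k + FA_S13_c3_e (k + 1) + 1)
      ((FA_S13_c3_α k : R) * (FA_S13_c3_α (k + 1) : R) * ((2 * k + 1 : ℕ) : R)) := by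
  obtain ⟨hA, hB⟩ := FA_S13_c3_Lead_AB b₂ b₄ b₆ b₈ k hk
  obtain ⟨hA', hB'⟩ := FA_S13_c3_Lead_AB b₂ b₄ b₆ b₈ (k + 1) (by omega)
  have h1 := FA_S13_c3_Lead_cast (FA_S13_c3_Lead_mul hA hB') (d' := FA_S13_c3_e k +
    FA_S13_c3_e (k + 1) + 1) (by ring) rfl
  have h2 := FA_S13_c3_Lead_cast (FA_S13_c3_Lead_mul hA' hB) (d' := FA_S13_c3_e k +
    FA_S13_c3_e (k + 1) + 1) (by ring) rfl
  refine FA_S13_c3_Lead_cast (FA_S13_c3_Lead_sub h1 h2) rfl ?_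
  push_cast
  ring

/-- Compatibility with ring homomorphisms. -/
theorem FA_S13_c3_AB_map {S : Type*} [CommRing S] (f : R →+* S) (b₂ b₄ b₆ b₈ : R) : ∀ j : ℕ,
    ((FA_S13_c3_AB b₂ b₄ b₆ b₈ j).1.map f = (FA_S13_c3_AB (f b₂) (f b₄) (f b₆) (f b₈) j).1) ∧
    ((FA_S13_c3_AB b₂ b₄ b₆ b₈ j).2.map f = (FA_S13_c3_AB (f b₂) (f b₄) (f b₆) (f b₈) j).2) := by
  intro j
  induction j using Nat.strong_induction_on with
  | _ j ih =>
    match j, ih with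
    | 0, _ => simp [FA_S13_c3_AB]
    | 1, _ => simp [FA_S13_c3_AB]
    | 2, _ =>
      have h2 : f 2 = 2 := map_ofNat f 2
      have h4 : f 4 = 4 := map_ofNat f 4
      simp [FA_S13_c3_AB, h2, h4]
    | (j + 3), ih =>
      obtain ⟨hA2, hB2⟩ := ih (j + 2) (by omega)
      obtain ⟨hA1, hB1⟩ := ih (j + 1) (by omega)
      rw [FA_S13_c3_AB_succ, FA_S13_c3_AB_succ]
      simp only [FA_S13_c3_num, Polynomial.map_mul, Polynomial.map_sub, Polynomial.map_add,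
        Polynomial.map_pow, Polynomial.map_X, Polynomial.map_C, hA2, hB2, hA1, hB1, and_self]

theorem FA_S13_c3_Cpoly_map {S : Type*} [CommRing S] (f : R →+* S) (b₂ b₄ b₆ b₈ : R) (k : ℕ) :
    (FA_S13_c3_Cpoly b₂ b₄ b₆ b₈ k).map f = FA_S13_c3_Cpoly (f b₂) (f b₄) (f b₆) (f b₈) k := by
  simp only [FA_S13_c3_Cpoly, Polynomial.map_sub, Polynomial.map_mul,
    (FA_S13_c3_AB_map f b₂ b₄ b₆ b₈ k).1, (FA_S13_c3_AB_map f b₂ b₄ b₆ b₈ k).2,
    (FA_S13_c3_AB_map f b₂ b₄ b₆ b₈ (k + 1)).1, (FA_S13_c3_AB_map f b₂ b₄ b₆ b₈ (k + 1)).2]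

end poly

end Fermat.Agent.S13
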