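import Mathlib
import Fermat.Agent.S13.C3Poly

/-!
# S13 WP-c3, part 2: `x(jP) = A_j(x(P)) / B_j(x(P))` (lead)

The add–sub product formula `x(P+Q) x(P-Q) (x_P - x_Q)² = (x_P x_Q)² - b₄ x_P x_Q - b₆ (x_P + x_Q) - b₈`,
the duplication formula, the evaluation of the polynomials `A_j`, `B_j` of `C3Poly`, and the
consequence: `C_k(x(P)) = 0` for every point `P` of order `2k+1`.
-/

namespace Fermat.Agent.S13

open WeierstrassCurve WeierstrassCurve.Affine Polynomial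

section point

variable {K : Type*} [Field K] [DecidableEq K] {W : WeierstrassCurve.Affine K}

/-- The `x`-coordinate of a point (`0` at infinity). -/
def FA_S13_c3_xc : W.Point → K
  | .zero => 0
  | .some x _ _ => x

@[simp] lemma FA_S13_c3_xc_some {x y : K} (h : W.Nonsingular x y) :
    FA_S13_c3_xc (Point.some x y h) = x := rfl

lemma FA_S13_c3_xc_neg (P : W.Point) : FA_S13_c3_xc (-P) = FA_S13_c3_xc P := by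
  cases P <;> rfl

/-- Pure algebra: the add–sub product formula with cleared denominators. -/
lemma FA_S13_c3_addsub_alg [CharZero K] (a₁ a₂ a₃ a₄ a₆ x₁ y₁ x₂ y₂ : K)
    (h₁ : y₁ ^ 2 + a₁ * x₁ * y₁ + a₃ * y₁ = x₁ ^ 3 + a₂ * x₁ ^ 2 + a₄ * x₁ + a₆)
    (h₂ : y₂ ^ 2 + a₁ * x₂ * y₂ + a₃ * y₂ = x₂ ^ 3 + a₂ * x₂ ^ 2 + a₄ * x₂ + a₆) :
    ((y₁ - y₂) ^ 2 + a₁ * (y₁ - y₂) * (x₁ - x₂) - (a₂ + x₁ + x₂) * (x₁ - x₂) ^ 2) *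
      ((y₁ - (-y₂ - a₁ * x₂ - a₃)) ^ 2 + a₁ * (y₁ - (-y₂ - a₁ * x₂ - a₃)) * (x₁ - x₂) -
        (a₂ + x₁ + x₂) * (x₁ - x₂) ^ 2) =
    (x₁ - x₂) ^ 2 * ((x₁ * x₂) ^ 2 - (2 * a₄ + a₁ * a₃) * (x₁ * x₂) -
      (a₃ ^ 2 + 4 * a₆) * (x₁ + x₂) -
      (a₁ ^ 2 * a₆ + 4 * a₂ * a₆ - a₁ * a₃ * a₄ + a₂ * a₃ ^ 2 - a₄ ^ 2)) := by
  linear_combination
    (((4 * x₁ ^ 3 + (a₁ ^ 2 + 4 * a₂) * x₁ ^ 2 + 2 * (2 * a₄ + a₁ * a₃) * x₁ + (a₃ ^ 2 + 4 * a₆)) -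
        (4 * x₂ ^ 3 + (a₁ ^ 2 + 4 * a₂) * x₂ ^ 2 + 2 * (2 * a₄ + a₁ * a₃) * x₂ + (a₃ ^ 2 + 4 * a₆)))
        / 2 +
      ((y₁ ^ 2 + a₁ * x₁ * y₁ + a₃ * y₁ - (x₁ ^ 3 + a₂ * x₁ ^ 2 + a₄ * x₁ + a₆)) -
        (y₂ ^ 2 + a₁ * x₂ * y₂ + a₃ * y₂ - (x₂ ^ 3 + a₂ * x₂ ^ 2 + a₄ * x₂ + a₆))) -
      ((a₁ ^ 2 + 4 * a₂) + 4 * x₁ + 4 * x₂) * (x₁ - x₂) ^ 2 / 2) * h₁ +
    (-((4 * x₁ ^ 3 + (a₁ ^ 2 + 4 * a₂) * x₁ ^ 2 + 2 * (2 * a₄ + a₁ * a₃) * x₁ + (a₃ ^ 2 + 4 * a₆)) -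
        (4 * x₂ ^ 3 + (a₁ ^ 2 + 4 * a₂) * x₂ ^ 2 + 2 * (2 * a₄ + a₁ * a₃) * x₂ + (a₃ ^ 2 + 4 * a₆)))
        / 2 -
      ((y₁ ^ 2 + a₁ * x₁ * y₁ + a₃ * y₁ - (x₁ ^ 3 + a₂ * x₁ ^ 2 + a₄ * x₁ + a₆)) -
        (y₂ ^ 2 + a₁ * x₂ * y₂ + a₃ * y₂ - (x₂ ^ 3 + a₂ * x₂ ^ 2 + a₄ * x₂ + a₆))) -
      ((a₁ ^ 2 + 4 * a₂) + 4 * x₁ + 4 * x₂) * (x₁ - x₂) ^ 2 / 2) * h₂

/-- Pure algebra: the duplication formula with cleared denominators. -/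
lemma FA_S13_c3_dup_alg (a₁ a₂ a₃ a₄ a₆ x y : K)
    (h : y ^ 2 + a₁ * x * y + a₃ * y = x ^ 3 + a₂ * x ^ 2 + a₄ * x + a₆) :
    (3 * x ^ 2 + 2 * a₂ * x + a₄ - a₁ * y) ^ 2 +
      a₁ * (3 * x ^ 2 + 2 * a₂ * x + a₄ - a₁ * y) * (2 * y + a₁ * x + a₃) -
      (a₂ + 2 * x) * (2 * y + a₁ * x + a₃) ^ 2 =
    x ^ 4 - (2 * a₄ + a₁ * a₃) * x ^ 2 - 2 * (a₃ ^ 2 + 4 * a₆) * x -
      (a₁ ^ 2 * a₆ + 4 * a₂ * a₆ - a₁ * a₃ * a₄ + a₂ * a₃ ^ 2 - a₄ ^ 2) := by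
  linear_combination (-(8 * x + (a₁ ^ 2 + 4 * a₂))) * h

/-- The add–sub product formula
`x(P+Q) x(P-Q) (x_P - x_Q)² = (x_P x_Q)² - b₄ x_P x_Q - b₆ (x_P + x_Q) - b₈`. -/
theorem FA_S13_c3_addsub [CharZero K] {P Q : W.Point} (hP : P ≠ 0) (hQ : Q ≠ 0)
    (hadd : P + Q ≠ 0) (hsub : P - Q ≠ 0) :
    FA_S13_c3_xc (P + Q) * FA_S13_c3_xc (P - Q) * (FA_S13_c3_xc P - FA_S13_c3_xc Q) ^ 2 =
      (FA_S13_c3_xc P * FA_S13_c3_xc Q) ^ 2 - W.b₄ * (FA_S13_c3_xc P * FA_S13_c3_xc Q) -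
        W.b₆ * (FA_S13_c3_xc P + FA_S13_c3_xc Q) - W.b₈ := by
  rcases P with _ | ⟨x₁, y₁, h₁⟩
  · exact absurd rfl hP
  rcases Q with _ | ⟨x₂, y₂, h₂⟩
  · exact absurd rfl hQ
  have hx : x₁ ≠ x₂ := by
    intro hx
    rcases (Point.X_eq_iff (h₁ := h₁) (h₂ := h₂)).1 hx with h | h
    · exact hsub (by rw [h, sub_self])
    · exact hadd (by rw [h, neg_add_cancel])
  have hd : x₁ - x₂ ≠ 0 := sub_ne_zero.2 hx
  have e₁ := (W.equation_iff x₁ y₁).1 h₁.1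
  have e₂ := (W.equation_iff x₂ y₂).1 h₂.1
  have hplus : FA_S13_c3_xc (Point.some x₁ y₁ h₁ + Point.some x₂ y₂ h₂) * (x₁ - x₂) ^ 2 =
      (y₁ - y₂) ^ 2 + W.a₁ * (y₁ - y₂) * (x₁ - x₂) - (W.a₂ + x₁ + x₂) * (x₁ - x₂) ^ 2 := by
    rw [Point.add_of_X_ne hx, FA_S13_c3_xc_some, addX, slope_of_X_ne hx]
    field_simp
    ring
  have hminus : FA_S13_c3_xc (Point.some x₁ y₁ h₁ - Point.some x₂ y₂ h₂) * (x₁ - x₂) ^ 2 =
      (y₁ - (-y₂ - W.a₁ * x₂ - W.a₃)) ^ 2 + W.a₁ * (y₁ - (-y₂ - W.a₁ * x₂ - W.a₃)) * (x₁ - x₂) -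
        (W.a₂ + x₁ + x₂) * (x₁ - x₂) ^ 2 := by
    rw [sub_eq_add_neg, Point.neg_some, Point.add_of_X_ne hx, FA_S13_c3_xc_some, addX,
      slope_of_X_ne hx, negY]
    field_simp
    ring
  have key := FA_S13_c3_addsub_alg W.a₁ W.a₂ W.a₃ W.a₄ W.a₆ x₁ y₁ x₂ y₂ e₁ e₂
  rw [← hplus, ← hminus] at key
  simp only [FA_S13_c3_xc_some]
  have hd2 : (x₁ - x₂) ^ 2 ≠ 0 := pow_ne_zero 2 hd
  apply mul_left_cancel₀ hd2
  simp only [WeierstrassCurve.b₄, WeierstrassCurve.b₆, WeierstrassCurve.b₈]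
  linear_combination key

/-- The duplication formula `x(2P) (4x³ + b₂x² + 2b₄x + b₆) = x⁴ - b₄x² - 2b₆x - b₈`. -/
theorem FA_S13_c3_dup {P : W.Point} (hP : P ≠ 0) (h2 : P + P ≠ 0) :
    FA_S13_c3_xc (P + P) * (4 * FA_S13_c3_xc P ^ 3 + W.b₂ * FA_S13_c3_xc P ^ 2 +
        2 * W.b₄ * FA_S13_c3_xc P + W.b₆) =
      FA_S13_c3_xc P ^ 4 - W.b₄ * FA_S13_c3_xc P ^ 2 - 2 * W.b₆ * FA_S13_c3_xc P - W.b₈ := by
  rcases P with _ | ⟨x, y, h⟩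
  · exact absurd rfl hP
  have hy : y ≠ W.negY x y := fun hy => h2 (Point.add_self_of_Y_eq hy)
  have e := (W.equation_iff x y).1 h.1
  have hη : 2 * y + W.a₁ * x + W.a₃ ≠ 0 := by
    intro h0
    apply hy
    rw [negY]
    linear_combination h0
  have hf : 4 * x ^ 3 + W.b₂ * x ^ 2 + 2 * W.b₄ * x + W.b₆ = (2 * y + W.a₁ * x + W.a₃) ^ 2 := by
    simp only [WeierstrassCurve.b₂, WeierstrassCurve.b₄, WeierstrassCurve.b₆]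
    linear_combination (-4 : K) * e
  have hx2 : FA_S13_c3_xc (Point.some x y h + Point.some x y h) * (2 * y + W.a₁ * x + W.a₃) ^ 2 =
      (3 * x ^ 2 + 2 * W.a₂ * x + W.a₄ - W.a₁ * y) ^ 2 +
        W.a₁ * (3 * x ^ 2 + 2 * W.a₂ * x + W.a₄ - W.a₁ * y) * (2 * y + W.a₁ * x + W.a₃) -
        (W.a₂ + 2 * x) * (2 * y + W.a₁ * x + W.a₃) ^ 2 := by
    have hden : y - W.negY x y = 2 * y + W.a₁ * x + W.a₃ := by rw [negY]; ring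
    rw [Point.add_self_of_Y_ne hy, FA_S13_c3_xc_some, addX, slope_of_Y_ne rfl hy, hden]
    generalize 2 * y + W.a₁ * x + W.a₃ = η at hη ⊢
    generalize 3 * x ^ 2 + 2 * W.a₂ * x + W.a₄ - W.a₁ * y = n
    field_simp
    ring
  simp only [FA_S13_c3_xc_some]
  rw [hf, hx2, FA_S13_c3_dup_alg W.a₁ W.a₂ W.a₃ W.a₄ W.a₆ x y e]
  simp only [WeierstrassCurve.b₄, WeierstrassCurve.b₆, WeierstrassCurve.b₈]

/-- `A_j(x(P)) = x(jP) · B_j(x(P))` as long as `P, 2P, …, jP ≠ 0`. -/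
theorem FA_S13_c3_eval [CharZero K] (P₀ : W.Point) : ∀ j : ℕ, 1 ≤ j →
    (∀ i : ℕ, 1 ≤ i → i ≤ j → i • P₀ ≠ 0) →
    (FA_S13_c3_AB W.b₂ W.b₄ W.b₆ W.b₈ j).1.eval (FA_S13_c3_xc P₀) =
      FA_S13_c3_xc (j • P₀) * (FA_S13_c3_AB W.b₂ W.b₄ W.b₆ W.b₈ j).2.eval (FA_S13_c3_xc P₀) := by
  intro j
  induction j using Nat.strong_induction_on with
  | _ j ih =>
    intro hj hne
    match j, ih, hj, hne with
    | 1, _, _, _ => simp [FA_S13_c3_AB]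
    | 2, _, _, hne =>
      have h1 : P₀ ≠ 0 := by simpa using hne 1 le_rfl (by omega)
      have h2 : P₀ + P₀ ≠ 0 := by simpa [two_nsmul] using hne 2 (by omega) le_rfl
      have := FA_S13_c3_dup h1 h2
      simp only [FA_S13_c3_AB, eval_sub, eval_add, eval_mul, eval_pow, eval_X, eval_C, two_nsmul]
      have e4 : eval (FA_S13_c3_xc P₀) (4 : K[X]) = 4 := by
        rw [show (4 : K[X]) = C 4 from (map_ofNat C 4).symm, eval_C]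
      linear_combination -this
    | (j + 3), ih, _, hne =>
      have hA2 := ih (j + 2) (by omega) (by omega) (fun i h1 h2 => hne i h1 (by omega))
      have hA1 := ih (j + 1) (by omega) (by omega) (fun i h1 h2 => hne i h1 (by omega))
      have hQ : P₀ ≠ 0 := by simpa using hne 1 le_rfl (by omega)
      have hP : (j + 2) • P₀ ≠ 0 := hne (j + 2) (by omega) (by omega)
      have e3 : (j + 2) • P₀ + P₀ = (j + 3) • P₀ := (succ_nsmul P₀ (j + 2)).symm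
      have e1 : (j + 2) • P₀ - P₀ = (j + 1) • P₀ := by
        rw [sub_eq_iff_eq_add]
        exact succ_nsmul P₀ (j + 1)
      have hadd : (j + 2) • P₀ + P₀ ≠ 0 := by
        rw [e3]; exact hne (j + 3) (by omega) le_rfl
      have hsub : (j + 2) • P₀ - P₀ ≠ 0 := by
        rw [e1]; exact hne (j + 1) (by omega) (by omega)
      have key := FA_S13_c3_addsub hP hQ hadd hsub
      rw [e3, e1] at key
      rw [FA_S13_c3_AB_succ]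
      simp only [FA_S13_c3_num, eval_sub, eval_add, eval_mul, eval_pow, eval_X, eval_C]
      rw [hA2, hA1]
      linear_combination
        (eval (FA_S13_c3_xc P₀) (FA_S13_c3_AB W.b₂ W.b₄ W.b₆ W.b₈ (j + 2)).2) ^ 2 *
          (eval (FA_S13_c3_xc P₀) (FA_S13_c3_AB W.b₂ W.b₄ W.b₆ W.b₈ (j + 1)).2) * (-key)

/-- `C_k` vanishes at the `x`-coordinate of every point of prime order `2k+1`. -/
theorem FA_S13_c3_Cpoly_eval [CharZero K] (P₀ : W.Point) (k : ℕ) (hk : 1 ≤ k)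
    (hprime : (2 * k + 1).Prime) (h0 : P₀ ≠ 0) (htor : (2 * k + 1) • P₀ = 0) :
    (FA_S13_c3_Cpoly W.b₂ W.b₄ W.b₆ W.b₈ k).eval (FA_S13_c3_xc P₀) = 0 := by
  have hord : addOrderOf P₀ = 2 * k + 1 := by
    have hdvd : addOrderOf P₀ ∣ 2 * k + 1 := addOrderOf_dvd_of_nsmul_eq_zero htor
    rcases (Nat.dvd_prime hprime).1 hdvd with h | h
    · exact absurd (AddMonoid.addOrderOf_eq_one_iff.1 h) h0
    · exact h
  have hne : ∀ i : ℕ, 1 ≤ i → i ≤ k + 1 → i • P₀ ≠ 0 := by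
    intro i h1 h2 h
    have := addOrderOf_dvd_of_nsmul_eq_zero h
    rw [hord] at this
    have := Nat.le_of_dvd (by omega) this
    omega
  have hA := FA_S13_c3_eval P₀ k hk (fun i h1 h2 => hne i h1 (by omega))
  have hA' := FA_S13_c3_eval P₀ (k + 1) (by omega) hne
  have hx : FA_S13_c3_xc (k • P₀) = FA_S13_c3_xc ((k + 1) • P₀) := by
    have : k • P₀ = -((k + 1) • P₀) := by
      rw [eq_neg_iff_add_eq_zero, ← add_nsmul, show k + (k + 1) = 2 * k + 1 by ring, htor]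
    rw [this, FA_S13_c3_xc_neg]
  simp only [FA_S13_c3_Cpoly, eval_sub, eval_mul]
  rw [hA, hA', hx]
  ring

end point

end Fermat.Agent.S13
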