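import Mathlib
import Fermat.Agent.S13.Interface
import Fermat.Agent.S13.C3Poly
import Fermat.Agent.S13.C3Point
import Fermat.Agent.S13.C3Bound
import Fermat.Agent.S05.FreyGood
import Fermat.Agent.S05.L3

/-!
# S13 WP-c3 (lead): `FA_S13_c3 : FA_S13_Target_c3`

At `p`, a nonzero Galois-stable subspace `N` of `E[p]` contained in the kernel of reduction
contains every `p`-torsion point of the kernel of reduction.
-/

namespace Fermat.Agent.S13

open WeierstrassCurve WeierstrassCurve.Affine Polynomial Fermat.Agent.S05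

section curve

variable {K : Type*} [Field K] [DecidableEq K] [CharZero K]

lemma FA_S13_c3_isUnit_natCast (A : ValuationSubring K) {p : ℕ} (hp : p.Prime)
    (hA : (p : K) ∈ A.nonunits) {n : ℕ} (hn : ¬ p ∣ n) : IsUnit ((n : ℕ) : A) := by
  rw [ValuationSubring.valuation_eq_one_iff]
  have h1 : ((n : A) : K) = (n : K) := by simp
  have h2 : (n : K) ∉ A.nonunits := fun h => hn ((FA_S05_natCast_mem_nonunits_iff A hp hA n).1 h)
  rw [A.mem_nonunits_iff, not_lt] at h2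
  rw [h1]
  exact le_antisymm ((A.valuation_le_one_iff _).2 (natCast_mem A n)) h2

lemma FA_S13_c3_b_mem (A : ValuationSubring K) (W : Affine K) (hW : FA_S05_Integral A W) :
    W.b₂ ∈ A ∧ W.b₄ ∈ A ∧ W.b₆ ∈ A ∧ W.b₈ ∈ A := by
  obtain ⟨h1, h2, h3, h4, h6⟩ := hW
  have n2 : (2 : K) ∈ A := ofNat_mem A 2
  have n4 : (4 : K) ∈ A := ofNat_mem A 4
  refine ⟨?_, ?_, ?_, ?_⟩
  · rw [WeierstrassCurve.b₂]
    exact A.add_mem _ _ (pow_mem h1 2) (A.mul_mem _ _ n4 h2)
  · rw [WeierstrassCurve.b₄]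
    exact A.add_mem _ _ (A.mul_mem _ _ n2 h4) (A.mul_mem _ _ h1 h3)
  · rw [WeierstrassCurve.b₆]
    exact A.add_mem _ _ (pow_mem h3 2) (A.mul_mem _ _ n4 h6)
  · rw [WeierstrassCurve.b₈]
    refine sub_mem (A.add_mem _ _ (sub_mem (A.add_mem _ _ ?_ ?_) ?_) ?_) (pow_mem h4 2)
    · exact A.mul_mem _ _ (pow_mem h1 2) h6
    · exact A.mul_mem _ _ (A.mul_mem _ _ n4 h2) h6
    · exact A.mul_mem _ _ (A.mul_mem _ _ h1 h3) h4
    · exact A.mul_mem _ _ h2 (pow_mem h3 2)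

/-- The polynomial `C_k` of the curve is nonzero. -/
lemma FA_S13_c3_Cpoly_ne_zero (W : Affine K) {k : ℕ} (hk : 1 ≤ k) (hp : (2 * k + 1).Prime) :
    FA_S13_c3_Cpoly W.b₂ W.b₄ W.b₆ W.b₈ k ≠ 0 := by
  have hL := FA_S13_c3_Lead_Cpoly W.b₂ W.b₄ W.b₆ W.b₈ k hk
  have hα : FA_S13_c3_α k ≠ 0 := fun h =>
    FA_S13_c3_α_not_dvd hp k (by omega) (h ▸ dvd_zero _)
  have hα' : FA_S13_c3_α (k + 1) ≠ 0 := fun h =>
    FA_S13_c3_α_not_dvd hp (k + 1) (by omega) (h ▸ dvd_zero _)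
  have hc : ((FA_S13_c3_α k : K) * (FA_S13_c3_α (k + 1) : K) * ((2 * k + 1 : ℕ) : K)) ≠ 0 := by
    refine mul_ne_zero (mul_ne_zero ?_ ?_) ?_
    · exact_mod_cast hα
    · exact_mod_cast hα'
    · exact_mod_cast (by omega : 2 * k + 1 ≠ 0)
  intro h0
  rw [h0] at hL
  exact hc (by simpa using hL.2.symm)

/-- **The bound**: for finitely many `x`-coordinates `t ∉ A` of points of order `p`,
`p · ∏ t ∈ A`. -/
theorem FA_S13_c3_curve (A : ValuationSubring K) (W : Affine K) (hW : FA_S05_Integral A W)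
    {p : ℕ} (hp : p.Prime) (hp3 : 3 ≤ p) (hA : (p : K) ∈ A.nonunits) (T : Finset K)
    (hT : ∀ t ∈ T, t ∉ A ∧ ∃ P : W.Point, P ≠ 0 ∧ p • P = 0 ∧ FA_S13_c3_xc P = t) :
    (p : K) * ∏ t ∈ T, t ∈ A := by
  obtain ⟨k, hk⟩ : ∃ k, p = 2 * k + 1 := by
    rcases hp.eq_two_or_odd with h | h
    · omega
    · exact ⟨p / 2, by omega⟩
  have hk1 : 1 ≤ k := by omega
  have hpk : (2 * k + 1).Prime := hk ▸ hp
  obtain ⟨hb2, hb4, hb6, hb8⟩ := FA_S13_c3_b_mem A W hW
  set f : A[X] := FA_S13_c3_Cpoly (⟨W.b₂, hb2⟩ : A) ⟨W.b₄, hb4⟩ ⟨W.b₆, hb6⟩ ⟨W.b₈, hb8⟩ k with hfdef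
  have hmap : f.map A.subtype = FA_S13_c3_Cpoly W.b₂ W.b₄ W.b₆ W.b₈ k := by
    rw [hfdef, FA_S13_c3_Cpoly_map]
    rfl
  have hf0 : f ≠ 0 := by
    intro h0
    apply FA_S13_c3_Cpoly_ne_zero W hk1 hpk
    rw [← hmap, h0, Polynomial.map_zero]
  have hL := FA_S13_c3_Lead_Cpoly (⟨W.b₂, hb2⟩ : A) ⟨W.b₄, hb4⟩ ⟨W.b₆, hb6⟩ ⟨W.b₈, hb8⟩ k hk1
  have hu1 := FA_S13_c3_isUnit_natCast A hp hA (FA_S13_c3_α_not_dvd hp k (by omega))
  have hu2 := FA_S13_c3_isUnit_natCast A hp hA (FA_S13_c3_α_not_dvd hp (k + 1) (by omega))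
  have hc0 : ((FA_S13_c3_α k : A) * (FA_S13_c3_α (k + 1) : A) * ((2 * k + 1 : ℕ) : A)) ≠ 0 := by
    intro h0
    have := congrArg (fun a : A => A.subtype a) h0
    simp only [map_mul, map_natCast, map_zero] at this
    have hα : FA_S13_c3_α k ≠ 0 := fun h =>
      FA_S13_c3_α_not_dvd hp k (by omega) (h ▸ dvd_zero _)
    have hα' : FA_S13_c3_α (k + 1) ≠ 0 := fun h =>
      FA_S13_c3_α_not_dvd hp (k + 1) (by omega) (h ▸ dvd_zero _)
    have hc : ((FA_S13_c3_α k : K) * (FA_S13_c3_α (k + 1) : K) * ((2 * k + 1 : ℕ) : K)) ≠ 0 := by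
      refine mul_ne_zero (mul_ne_zero ?_ ?_) ?_
      · exact_mod_cast hα
      · exact_mod_cast hα'
      · exact_mod_cast (by omega : 2 * k + 1 ≠ 0)
    exact hc this
  have hlead := (FA_S13_c3_Lead_natDegree hL hc0).2
  have key := FA_S13_c3_bound A f hf0 ((FA_S13_c3_α k : A) * (FA_S13_c3_α (k + 1) : A))
    ((2 * k + 1 : ℕ) : A) (hu1.mul hu2) hlead T (by
      intro t ht
      obtain ⟨h1, P, hP0, hPp, hPx⟩ := hT t ht
      refine ⟨h1, ?_⟩
      rw [hmap, ← hPx]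
      exact FA_S13_c3_Cpoly_eval P k hk1 hpk hP0 (hk ▸ hPp))
  have hcast : (((2 * k + 1 : ℕ) : A) : K) = (p : K) := by
    rw [hk]
    exact map_natCast A.subtype (2 * k + 1)
  rwa [hcast] at key

/-- A rational number in the maximal ideal of a valuation ring over `p` is divisible by `p`
there. -/
lemma FA_S13_c3_rat_div (A : ValuationSubring K) {p : ℕ} (hp : p.Prime)
    (hA : (p : K) ∈ A.nonunits) (q : ℚ) (hq : (algebraMap ℚ K q) ∈ A.nonunits) :
    (algebraMap ℚ K q) / (p : K) ∈ A := by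
  have hqK : (algebraMap ℚ K q) = (q.num : K) / (q.den : K) := by
    conv_lhs => rw [← Rat.num_div_den q]
    simp
  have hden0 : (q.den : K) ≠ 0 := by exact_mod_cast q.den_nz
  have hnum : (q.num : K) = (algebraMap ℚ K q) * (q.den : K) := by
    rw [hqK]; field_simp
  have hnum_nu : (q.num : K) ∈ A.nonunits := by
    rw [hnum, A.mem_nonunits_iff, map_mul]
    have h1 : A.valuation (algebraMap ℚ K q) < 1 := (A.mem_nonunits_iff).1 hq
    have h2 : A.valuation (q.den : K) ≤ 1 := (A.valuation_le_one_iff _).2 (natCast_mem A _)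
    calc A.valuation (algebraMap ℚ K q) * A.valuation (q.den : K)
        ≤ A.valuation (algebraMap ℚ K q) * 1 := by gcongr
      _ < 1 := by rwa [mul_one]
  have hpnum : (p : ℤ) ∣ q.num := (FA_S05_intCast_mem_nonunits_iff A hp hA q.num).1 hnum_nu
  have hpden : ¬ p ∣ q.den := by
    intro h
    have h1 : p ∣ q.num.natAbs := by
      have := Int.natAbs_dvd_natAbs.2 hpnum
      simpa using this
    have hcop := q.reduced
    have := Nat.dvd_gcd h1 h
    rw [Nat.Coprime] at hcop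
    rw [hcop] at this
    exact hp.one_lt.ne' (Nat.dvd_one.1 this)
  have hdenu : (q.den : K) ∉ A.nonunits := fun h =>
    hpden ((FA_S05_natCast_mem_nonunits_iff A hp hA q.den).1 h)
  have hdeninv : (q.den : K)⁻¹ ∈ A :=
    FA_S05_inv_mem_of_not_mem_nonunits A (natCast_mem A _) hdenu
  obtain ⟨m, hm⟩ := hpnum
  have hp0 : (p : K) ≠ 0 := by exact_mod_cast hp.ne_zero
  have : (algebraMap ℚ K q) / (p : K) = (m : K) * (q.den : K)⁻¹ := by
    rw [hqK, hm]
    push_cast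
    field_simp
  rw [this]
  exact A.mul_mem _ _ (intCast_mem A m) hdeninv

lemma FA_S13_c3_inv_nonunits (A : ValuationSubring K) {t : K} (ht : t ∉ A) :
    t⁻¹ ∈ A.nonunits := by
  rw [A.mem_nonunits_iff, map_inv₀]
  rw [← A.valuation_le_one_iff, not_le] at ht
  exact (inv_lt_one₀ (lt_trans zero_lt_one ht)).2 ht

lemma FA_S13_c3_prod_nonunits (A : ValuationSubring K) {ι : Type*} (S : Finset ι)
    (hS : S.Nonempty) {f : ι → K} (hf : ∀ i ∈ S, f i ∈ A.nonunits) :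
    ∏ i ∈ S, f i ∈ A.nonunits := by
  classical
  induction hS using Finset.Nonempty.cons_induction with
  | singleton a => simpa using hf a (Finset.mem_singleton_self a)
  | cons a s ha hs ih =>
    rw [Finset.prod_cons]
    exact A.nonunits.mul_mem (hf a (Finset.mem_cons_self a s))
      (ih (fun i hi => hf i (Finset.mem_cons.2 (Or.inr hi))))

end curve

section frey

lemma FA_S13_c3_xc_smul (W' : WeierstrassCurve.Affine ℚ) (σ : FA_S13_G)
    (Q : (W'⁄FA_S13_Qb).Point) : FA_S13_c3_xc (σ • Q) = σ (FA_S13_c3_xc Q) := by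
  rcases Q with _ | ⟨x, y, h⟩
  · exact (map_zero σ).symm
  · obtain ⟨h', e⟩ := FA_S05_smul_some (S := ℚ) W' σ h
    rw [e]
    rfl

lemma FA_S13_c3_eq_or_neg {W : WeierstrassCurve.Affine FA_S13_Qb} {Q R : W.Point} (hQ : Q ≠ 0)
    (hR : R ≠ 0) (h : FA_S13_c3_xc Q = FA_S13_c3_xc R) : Q = R ∨ Q = -R := by
  rcases Q with _ | ⟨x₁, y₁, h₁⟩
  · exact absurd rfl hQ
  rcases R with _ | ⟨x₂, y₂, h₂⟩
  · exact absurd rfl hR
  exact (Point.X_eq_iff (h₁ := h₁) (h₂ := h₂)).1 h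

/-- **WP-c3**. -/
theorem FA_S13_c3 : FA_S13_Target_c3 := by
  classical
  intro P A hA N hN hN0 hNE1 x hx
  by_contra hxN
  have hp : P.p.Prime := P.pp
  have hp5 := P.hp5
  have hA' : ((P.p : ℕ) : FA_S13_Qb) ∈ A.nonunits := hA
  have hW : FA_S05_Integral A (FA_S13_E P) :=
    FA_S05_frey_integral P A hp (by omega) hA'
  -- torsion in `nsmul` form
  have htor : ∀ y : FA_S13_V P, P.p • (y : (FA_S13_E P).Point) = 0 := by
    intro y
    have := (Submodule.mem_torsionBy_iff _ _).1 y.2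
    rwa [natCast_zsmul] at this
  -- the polynomial
  obtain ⟨k, hk⟩ : ∃ k, P.p = 2 * k + 1 := by
    rcases hp.eq_two_or_odd with h | h
    · omega
    · exact ⟨P.p / 2, by omega⟩
  have hk1 : 1 ≤ k := by omega
  have hpk : (2 * k + 1).Prime := hk ▸ hp
  set Cp := FA_S13_c3_Cpoly (FA_S13_E P).b₂ (FA_S13_E P).b₄ (FA_S13_E P).b₆ (FA_S13_E P).b₈ k
    with hCp
  have hCp0 : Cp ≠ 0 := FA_S13_c3_Cpoly_ne_zero (FA_S13_E P) hk1 hpk
  -- the set of `x`-coordinates of the nonzero points of `N`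
  let Sset : Set FA_S13_Qb :=
    {t | ∃ y ∈ N, (y : (FA_S13_E P).Point) ≠ 0 ∧ FA_S13_c3_xc (y : (FA_S13_E P).Point) = t}
  have hSfin : Sset.Finite := by
    refine (Polynomial.finite_setOfPred_isRoot hCp0).subset ?_
    rintro t ⟨y, _, hy0, rfl⟩
    exact FA_S13_c3_Cpoly_eval _ k hk1 hpk hy0 (hk ▸ htor y)
  set S : Finset FA_S13_Qb := hSfin.toFinset with hS
  have hSmem : ∀ t, t ∈ S ↔ ∃ y ∈ N, (y : (FA_S13_E P).Point) ≠ 0 ∧
      FA_S13_c3_xc (y : (FA_S13_E P).Point) = t := by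
    intro t
    rw [hS, Set.Finite.mem_toFinset]
    rfl
  -- elements of `S` are not in `A`
  have hxcA : ∀ Q : (FA_S13_E P).Point, Q ≠ 0 → FA_S05_E1 A Q → FA_S13_c3_xc Q ∉ A := by
    intro Q hQ hE
    rcases hE with h0 | ⟨x', y', h', rfl, hx'⟩
    · exact absurd h0 hQ
    · exact hx'
  have hSA : ∀ t ∈ S, t ∉ A := by
    intro t ht
    obtain ⟨y, hyN, hy0, rfl⟩ := (hSmem t).1 ht
    exact hxcA _ hy0 (hNE1 y hyN)
  -- `S` is nonempty
  have hSne : S.Nonempty := by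
    obtain ⟨y, hyN, hy0⟩ := Submodule.exists_mem_ne_zero_of_ne_bot hN0
    refine ⟨FA_S13_c3_xc (y : (FA_S13_E P).Point), (hSmem _).2 ⟨y, hyN, ?_, rfl⟩⟩
    intro h
    exact hy0 (Subtype.ext h)
  -- `S` is Galois stable
  have hSσ : ∀ σ : FA_S13_G, S.image σ = S := by
    intro σ
    refine Finset.eq_of_subset_of_card_le ?_ ?_
    · intro t ht
      obtain ⟨t', ht', rfl⟩ := Finset.mem_image.1 ht
      obtain ⟨y, hyN, hy0, rfl⟩ := (hSmem t').1 ht'
      refine (hSmem _).2 ⟨σ • y, hN σ y hyN, ?_, ?_⟩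
      · intro h
        apply hy0
        have h' : σ • (y : (FA_S13_E P).Point) = 0 := h
        have := congrArg (fun Q => σ⁻¹ • Q) h'
        simp only [inv_smul_smul] at this
        exact this
      · exact FA_S13_c3_xc_smul _ σ _
    · rw [Finset.card_image_of_injective _ σ.injective]
  -- the product of `S` is rational
  have hgal : IsGalois ℚ (AlgebraicClosure ℚ) := by
    have h : (AlgebraicClosure.instAlgebra ℚ : Algebra ℚ (AlgebraicClosure ℚ)) =
        DivisionRing.toRatAlgebra := Subsingleton.elim _ _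
    rw [← h]
    infer_instance
  have hrat : (∏ t ∈ S, t) ∈ Set.range (algebraMap ℚ FA_S13_Qb) := by
    rw [InfiniteGalois.mem_range_algebraMap_iff_fixed]
    intro σ
    rw [map_prod]
    conv_rhs => rw [← hSσ σ]
    rw [Finset.prod_image (fun a _ b _ h => σ.injective h)]
  obtain ⟨r, hr⟩ := hrat
  -- its inverse is in the maximal ideal
  have hSinv : (∏ t ∈ S, t)⁻¹ ∈ A.nonunits := by
    rw [← Finset.prod_inv_distrib]
    exact FA_S13_c3_prod_nonunits A S hSne (fun t ht => FA_S13_c3_inv_nonunits A (hSA t ht))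
  have hr0 : (∏ t ∈ S, t) ≠ 0 := by
    rw [Finset.prod_ne_zero_iff]
    intro t ht h0
    exact hSA t ht (h0 ▸ A.zero_mem)
  -- `(p · ∏ S)⁻¹ ∈ A`
  have hpr : ((P.p : FA_S13_Qb) * ∏ t ∈ S, t)⁻¹ ∈ A := by
    have h1 : (algebraMap ℚ FA_S13_Qb r⁻¹) ∈ A.nonunits := by
      rw [map_inv₀, hr]; exact hSinv
    have := FA_S13_c3_rat_div A hp hA' r⁻¹ h1
    rw [map_inv₀, hr] at this
    rw [mul_inv, mul_comm]
    exact this
  -- the extra point
  have hx0 : (x : (FA_S13_E P).Point) ≠ 0 := by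
    intro h
    apply hxN
    have : x = 0 := Subtype.ext h
    rw [this]
    exact N.zero_mem
  have hx0A : FA_S13_c3_xc (x : (FA_S13_E P).Point) ∉ A := hxcA _ hx0 hx
  have hx0S : FA_S13_c3_xc (x : (FA_S13_E P).Point) ∉ S := by
    intro h
    obtain ⟨y, hyN, hy0, hxy⟩ := (hSmem _).1 h
    rcases FA_S13_c3_eq_or_neg hy0 hx0 hxy with h1 | h1
    · apply hxN
      have : x = y := Subtype.ext h1.symm
      rw [this]; exact hyN
    · apply hxN
      have : x = -y := by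
        apply Subtype.ext
        show (x : (FA_S13_E P).Point) = -(y : (FA_S13_E P).Point)
        rw [h1, neg_neg]
      rw [this]; exact N.neg_mem hyN
  have hbound := FA_S13_c3_curve A (FA_S13_E P) hW hp (by omega) hA'
    (insert (FA_S13_c3_xc (x : (FA_S13_E P).Point)) S) (by
      intro t ht
      rcases Finset.mem_insert.1 ht with h | h
      · subst h
        exact ⟨hx0A, _, hx0, htor x, rfl⟩
      · obtain ⟨y, hyN, hy0, rfl⟩ := (hSmem t).1 h
        exact ⟨hSA _ h, _, hy0, htor y, rfl⟩)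
  rw [Finset.prod_insert hx0S] at hbound
  apply hx0A
  have hp0 : (P.p : FA_S13_Qb) ≠ 0 := by exact_mod_cast hp.ne_zero
  have : FA_S13_c3_xc (x : (FA_S13_E P).Point) =
      ((P.p : FA_S13_Qb) * (FA_S13_c3_xc (x : (FA_S13_E P).Point) * ∏ t ∈ S, t)) *
        ((P.p : FA_S13_Qb) * ∏ t ∈ S, t)⁻¹ := by
    field_simp
  rw [this]
  exact A.mul_mem _ _ hbound hpr

end frey

end Fermat.Agent.S13
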