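import Fermat.Agent.S13.Interface
import Fermat.Agent.S05.FreyGood

/-!
# S13: the Frey curve at the prime `2` (helper9)

`y² + xy = x³ + a₂x² + a₄x` with `a₂ = (b^p − 1 − a^p)/4 ∈ ℤ`, `a₄ = −a^p b^p/16 ∈ 2ℤ`,
`1 + 4a₂ = b^p − a^p` odd.
-/

namespace Fermat.Agent.S13

open WeierstrassCurve WeierstrassCurve.Affine Fermat.Agent.S05

variable (P : FreyPackage)

lemma FA_S13_frey2_two_dvd_b : (2 : ℤ) ∣ P.b :=
  (ZMod.intCast_zmod_eq_zero_iff_dvd P.b 2).mp P.hb2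

lemma FA_S13_frey2_a_odd : ¬ (2 : ℤ) ∣ P.a := by
  intro h
  obtain ⟨c, hc⟩ := h
  have h4 := P.ha4
  rw [hc] at h4
  push_cast at h4
  have : ∀ x : ZMod 4, (2 : ZMod 4) * x ≠ 3 := by decide
  exact this _ h4

lemma FA_S13_frey2_pow_a_mod4 : ((P.a ^ P.p : ℤ) : ZMod 4) = 3 := by
  obtain ⟨k, hk⟩ := P.hp_odd
  push_cast
  rw [P.ha4, hk, pow_succ, pow_mul]
  have : (3 : ZMod 4) ^ 2 = 1 := by decide
  rw [this, one_pow, one_mul]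

lemma FA_S13_frey2_32_dvd : (32 : ℤ) ∣ P.b ^ P.p := by
  obtain ⟨c, hc⟩ := FA_S13_frey2_two_dvd_b P
  have hp5 := P.hp5
  obtain ⟨k, hk⟩ : ∃ k, P.p = 5 + k := ⟨P.p - 5, by omega⟩
  rw [hc, mul_pow, hk, pow_add]
  exact ⟨2 ^ k * c ^ (5 + k), by ring⟩

lemma FA_S13_frey2_four_dvd : (4 : ℤ) ∣ P.b ^ P.p - 1 - P.a ^ P.p := by
  apply (ZMod.intCast_zmod_eq_zero_iff_dvd _ 4).mp
  have h1 := FA_S13_frey2_pow_a_mod4 P
  have h2 : ((P.b ^ P.p : ℤ) : ZMod 4) = 0 := by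
    rw [ZMod.intCast_zmod_eq_zero_iff_dvd]
    exact Dvd.dvd.trans ⟨8, by norm_num⟩ (FA_S13_frey2_32_dvd P)
  push_cast at h1 h2 ⊢
  rw [h1, h2]
  decide

lemma FA_S13_frey2_disc_odd : ¬ (2 : ℤ) ∣ P.b ^ P.p - P.a ^ P.p := by
  intro h
  have hb : (2 : ℤ) ∣ P.b ^ P.p := dvd_pow (FA_S13_frey2_two_dvd_b P) P.hp0
  have ha : (2 : ℤ) ∣ P.a ^ P.p := by
    have := dvd_sub hb h
    rwa [sub_sub_cancel] at this
  exact FA_S13_frey2_a_odd P (Int.prime_two.dvd_of_dvd_pow ha)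

/-- `a₂` is an integer. -/
lemma FA_S13_frey2_a₂ : ∃ n : ℤ, (FA_S13_E P).a₂ = (n : FA_S13_Qb) := by
  obtain ⟨n, hn⟩ := FA_S13_frey2_four_dvd P
  refine ⟨n, ?_⟩
  rw [FA_S13_E, FA_S05_frey_a₂, hn]
  push_cast
  have h2 : (2 : FA_S13_Qb) * (2 : FA_S13_Qb)⁻¹ = 1 := mul_inv_cancel₀ two_ne_zero
  generalize (2 : FA_S13_Qb)⁻¹ = t at h2 ⊢
  linear_combination (n : FA_S13_Qb) * (2 * t + 1) * h2

/-- `a₄` is an even integer. -/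
lemma FA_S13_frey2_a₄ : ∃ n : ℤ, (2 : ℤ) ∣ n ∧ (FA_S13_E P).a₄ = (n : FA_S13_Qb) := by
  obtain ⟨m, hm⟩ := FA_S13_frey2_32_dvd P
  refine ⟨-(P.a ^ P.p) * (2 * m), Dvd.dvd.mul_left ⟨m, rfl⟩ _, ?_⟩
  rw [FA_S13_E, FA_S05_frey_a₄, hm]
  push_cast
  have h2 : (2 : FA_S13_Qb) * (2 : FA_S13_Qb)⁻¹ = 1 := mul_inv_cancel₀ two_ne_zero
  generalize (2 : FA_S13_Qb)⁻¹ = t at h2 ⊢
  have h4 : (2 : FA_S13_Qb) ^ 4 * t ^ 4 = 1 := by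
    rw [← mul_pow, h2, one_pow]
  linear_combination (-(P.a : FA_S13_Qb) ^ P.p * 2 * (m : FA_S13_Qb)) * h4

/-- `1 + 4a₂ = b^p − a^p`. -/
lemma FA_S13_frey2_disc :
    1 + 4 * (FA_S13_E P).a₂ = ((P.b ^ P.p - P.a ^ P.p : ℤ) : FA_S13_Qb) := by
  rw [FA_S13_E, FA_S05_frey_a₂]
  push_cast
  have h2 : (2 : FA_S13_Qb) * (2 : FA_S13_Qb)⁻¹ = 1 := mul_inv_cancel₀ two_ne_zero
  generalize (2 : FA_S13_Qb)⁻¹ = t at h2 ⊢
  linear_combination ((P.b : FA_S13_Qb) ^ P.p - 1 - (P.a : FA_S13_Qb) ^ P.p) * (2 * t + 1) * h2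

section place

variable {A : ValuationSubring FA_S13_Qb} (hA : A.LiesOverPrime 2)

lemma FA_S13_frey2_a₂_mem (A : ValuationSubring FA_S13_Qb) : (FA_S13_E P).a₂ ∈ A := by
  obtain ⟨n, hn⟩ := FA_S13_frey2_a₂ P
  rw [hn]
  exact intCast_mem A n

include hA

lemma FA_S13_frey2_a₄_mem : (FA_S13_E P).a₄ ∈ A.nonunits := by
  obtain ⟨n, h2, hn⟩ := FA_S13_frey2_a₄ P
  rw [hn, FA_S05_intCast_mem_nonunits_iff A Nat.prime_two hA]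
  exact_mod_cast h2

lemma FA_S13_frey2_disc_unit : 1 + 4 * (FA_S13_E P).a₂ ∉ A.nonunits := by
  rw [FA_S13_frey2_disc, FA_S05_intCast_mem_nonunits_iff A Nat.prime_two hA]
  exact_mod_cast FA_S13_frey2_disc_odd P

lemma FA_S13_frey2_p_unit : ((P.p : ℕ) : FA_S13_Qb) ∉ A.nonunits := by
  rw [FA_S05_natCast_mem_nonunits_iff A Nat.prime_two hA]
  intro h
  have := (Nat.prime_dvd_prime_iff_eq Nat.prime_two P.pp).mp h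
  have := P.hp5
  omega

end place

end Fermat.Agent.S13
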