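import Fermat.Agent.S13.Interface2

/-!
# S13 (item 82): interface, part 3 — the level count at `2` (owner: helper9)

`FA_S13_Target_lev`: for `A` over `2` there is a subgroup `V₀ ≤ V` of points in `E₁ ∪ NS`
(`= V ∩ E₀(A)`) such that `V / V₀` has at most `p` elements (the cosets are classified by the
level and the branch at the node: `(p - 1)/2` levels, `2` branches, and `V₀` itself).
`card` follows from `u` and `lev`.
-/

namespace Fermat.Agent.S13

open WeierstrassCurve WeierstrassCurve.Affine WeierstrassCurve.Affine.Point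
open Fermat.Agent.S05

/-- **WP-lev**: `V ∩ E₀(A)` has index at most `p` in `V`, for `A` over `2`. -/
def FA_S13_Target_lev : Prop :=
  ∀ (P : FreyPackage) (A : ValuationSubring FA_S13_Qb), A.LiesOverPrime 2 →
    ∃ V₀ : AddSubgroup (FA_S13_V P),
      (∀ x ∈ V₀, FA_S05_E1 A ((x : FA_S13_V P) : (FA_S13_E P).Point) ∨
        FA_S05_NS A ((x : FA_S13_V P) : (FA_S13_E P).Point)) ∧
      ∀ s : Finset (FA_S13_V P), (∀ x ∈ s, ∀ y ∈ s, x - y ∈ V₀ → x = y) → s.card ≤ P.p

/-- `card` from `u`, `lev` and `place`. -/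
def FA_S13_Target_card_of : Prop :=
  FA_S13_Target_u → FA_S13_Target_lev → FA_S13_Target_place → FA_S13_Target_card

end Fermat.Agent.S13
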