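import Fermat.Agent.S13.CardAbs
import Fermat.Agent.S13.Frey2
import Fermat.Agent.S13.Interface3

/-!
# S13 card (helper9): `FA_S13_card_of : FA_S13_Target_card_of`
(`|E[p]| ≤ p²` from `u` (`|E₀[p]| ≤ p`) and `lev` (`[E[p] : E₀[p]] ≤ p`) at the prime `2`).
-/

namespace Fermat.Agent.S13

open WeierstrassCurve WeierstrassCurve.Affine Fermat.Agent.S05

theorem FA_S13_card_of : FA_S13_Target_card_of := by
  intro hu hlev hplace P
  obtain ⟨A, hA⟩ := hplace 2 Nat.prime_two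
  obtain ⟨V₀, hV₀, hcos⟩ := hlev P A hA
  -- the image of `V₀` in the group of points
  let f : FA_S13_V P →+ (FA_S13_E P).Point :=
    (Submodule.torsionBy ℤ (FA_S13_E P).Point P.p).subtype.toAddMonoidHom
  have hf : Function.Injective f := Subtype.val_injective
  have hH1 : ∀ Q ∈ V₀.map f, P.p • Q = 0 := by
    rintro Q ⟨x, -, rfl⟩
    have := x.2
    rw [Submodule.mem_torsionBy_iff, natCast_zsmul] at this
    exact this
  have hH2 : ∀ Q ∈ V₀.map f, FA_S05_E1 A Q ∨ FA_S05_NS A Q := by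
    rintro Q ⟨x, hx, rfl⟩
    exact hV₀ x hx
  obtain ⟨hfin, hc⟩ := hu FA_S13_Qb (FA_S13_E P) A (FA_S05_frey_a₁ P) (FA_S05_frey_a₃ P)
    (FA_S05_frey_a₆ P) (FA_S13_frey2_a₂_mem P A) (FA_S13_frey2_a₄_mem P hA)
    (FA_S13_frey2_disc_unit P hA) P.p P.pp (FA_S13_frey2_p_unit P hA) (V₀.map f) hH1 hH2
  have e := V₀.equivMapOfInjective f hf
  haveI : Finite (V₀.map f) := hfin
  haveI : Finite V₀ := Finite.of_equiv _ e.symm.toEquiv
  have h₀ : Nat.card V₀ ≤ P.p := by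
    rw [Nat.card_congr e.toEquiv]
    exact hc
  have := FA_S13_card_abs V₀ P.p P.p h₀ hcos
  rw [pow_two]
  exact this

end Fermat.Agent.S13
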