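import Fermat.Agent.S13.Interface

/-!
# S13 (item 82): interface, part 2 — further leaves (owner: helper9)

* `FA_S13_Target_u`: a subgroup of `p`-torsion points with nonsingular reduction on a curve
  `y² + xy = x³ + a₂x² + a₄x` with multiplicative reduction (node at `(0,0)`, `a₄ ∈ 𝔪`,
  `1 + 4a₂ ∈ Aˣ`, ANY residue characteristic) has at most `p` elements
  (it embeds into `μ_p` of the residue field via `u = (y - αx)/(y - βx)`, where
  `α, β` are the roots of `t² + t - a₂`).
* `FA_S13_Target_glue`: the glue.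
-/

namespace Fermat.Agent.S13

open WeierstrassCurve WeierstrassCurve.Affine WeierstrassCurve.Affine.Point
open Fermat.Agent.S05

/-- **WP-u**: `E₀[p]` has at most `p` elements at a place of multiplicative reduction. -/
def FA_S13_Target_u : Prop :=
  ∀ (K : Type) [Field K] [DecidableEq K] [IsAlgClosed K] (W : WeierstrassCurve.Affine K)
    (A : ValuationSubring K),
    W.a₁ = 1 → W.a₃ = 0 → W.a₆ = 0 → W.a₂ ∈ A → W.a₄ ∈ A.nonunits →
    (1 + 4 * W.a₂) ∉ A.nonunits →
    ∀ (p : ℕ), p.Prime → (p : K) ∉ A.nonunits →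
    ∀ H : AddSubgroup W.Point, (∀ P ∈ H, p • P = 0) →
      (∀ P ∈ H, FA_S05_E1 A P ∨ FA_S05_NS A P) →
      Finite H ∧ Nat.card H ≤ p

/-- **WP-g**: the glue. -/
def FA_S13_Target_glue : Prop :=
  FA_S13_Target_a → FA_S13_Target_card → FA_S13_Target_b2 → FA_S13_Target_b3 →
    FA_S13_Target_c1 → FA_S13_Target_c3 → FA_S13_Target_d → FA_S13_Target_place →
    FA_S13_Target_S05 → FA_S13_Statement

end Fermat.Agent.S13
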