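import Fermat.Agent.S13.GlueAbs
import Fermat.Agent.S13.Interface2
import Fermat.Agent.S05.FreyGood
import Fermat.Agent.S05.L3

/-!
# S13 glue (helper9): `FA_S13_glue : FA_S13_Target_glue`
-/

set_option linter.unusedSectionVars false

namespace Fermat.Agent.S13

open WeierstrassCurve WeierstrassCurve.Affine WeierstrassCurve.Affine.Point
open Fermat.Agent.S05

/-- The `x`-coordinate of a point of the Frey curve (`0` at infinity). -/
noncomputable def FA_S13_glue_xc (P : FreyPackage) : (FA_S13_E P).Point → FA_S13_Qb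
  | .zero => 0
  | .some x _ _ => x

/-- The `y`-coordinate of a point of the Frey curve (`0` at infinity). -/
noncomputable def FA_S13_glue_yc (P : FreyPackage) : (FA_S13_E P).Point → FA_S13_Qb
  | .zero => 0
  | .some _ y _ => y

/-- A Galois automorphism fixing the coordinates of a point fixes the point. -/
lemma FA_S13_glue_fix (P : FreyPackage) (σ : FA_S13_G) (Q : (FA_S13_E P).Point)
    (hx : σ (FA_S13_glue_xc P Q) = FA_S13_glue_xc P Q)
    (hy : σ (FA_S13_glue_yc P Q) = FA_S13_glue_yc P Q) : σ • Q = Q := by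
  rcases Q with _ | ⟨x, y, h⟩
  · rfl
  · obtain ⟨h', e⟩ := FA_S05_smul_some P.freyCurve σ h
    rw [e]
    have hx' : σ x = x := hx
    have hy' : σ y = y := hy
    have key : ∀ (a b : FA_S13_Qb) (hab : (FA_S13_E P).Nonsingular a b), a = x → b = y →
        (Affine.Point.some a b hab : (FA_S13_E P).Point) = Affine.Point.some x y h := by
      rintro a b hab rfl rfl
      rfl
    exact key _ _ h' hx' hy'

/-- The field of definition of the (finitely many) `p`-torsion points is finite over `ℚ`. -/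
lemma FA_S13_glue_open (P : FreyPackage) [Finite (FA_S13_V P)] :
    ∃ L : IntermediateField ℚ FA_S13_Qb, FiniteDimensional ℚ L ∧
      ∀ σ : FA_S13_G, (∀ x ∈ L, σ x = x) → ∀ v : FA_S13_V P, σ • v = v := by
  let S : Set FA_S13_Qb :=
    Set.range (fun v : FA_S13_V P => FA_S13_glue_xc P v.1) ∪
      Set.range (fun v : FA_S13_V P => FA_S13_glue_yc P v.1)
  have hS : S.Finite := (Set.finite_range _).union (Set.finite_range _)
  haveI : Finite S := hS.to_subtype
  refine ⟨IntermediateField.adjoin ℚ S, ?_, ?_⟩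
  · exact IntermediateField.finiteDimensional_adjoin
      (fun x _ => ((AlgebraicClosure.isAlgebraic ℚ).isAlgebraic x).isIntegral)
  · intro σ hσ v
    apply Subtype.ext
    change σ • (v : (FA_S13_E P).Point) = v
    apply FA_S13_glue_fix
    · exact hσ _ (IntermediateField.subset_adjoin ℚ S (Or.inl ⟨v, rfl⟩))
    · exact hσ _ (IntermediateField.subset_adjoin ℚ S (Or.inr ⟨v, rfl⟩))

/-- The `p`-torsion points in the kernel of reduction, as a subgroup. -/
noncomputable def FA_S13_glue_V₁ (P : FreyPackage) (A : ValuationSubring FA_S13_Qb)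
    (hW : FA_S05_Integral A (FA_S13_E P)) : AddSubgroup (FA_S13_V P) where
  carrier := {x | FA_S05_E1 A ((x : FA_S13_V P) : (FA_S13_E P).Point)}
  zero_mem' := FA_S05_E1_zero A
  add_mem' := fun ha hb => FA_S05_E1_add A hW ha hb
  neg_mem' := fun ha => FA_S05_E1_neg A ha

/-- **WP-g**: the glue. -/
theorem FA_S13_glue : FA_S13_Target_glue := by
  intro ha hcard hb2 hb3 hc1 hc3 hd hplace hS05 P hred
  haveI : Fact P.p.Prime := ⟨P.pp⟩
  haveI : Nontrivial (FA_S13_V P) := ha P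
  obtain ⟨hfin, hcard'⟩ := hcard P
  haveI : Finite (FA_S13_V P) := hfin
  -- the stable line
  have hexN : ∃ N : Submodule (ZMod P.p) (FA_S13_V P),
      IsGaloisStable ℚ N ∧ N ≠ ⊥ ∧ N ≠ ⊤ := by
    by_contra hcon
    apply hred
    refine ⟨ha P, fun N hN => ?_⟩
    by_contra h
    rw [not_or] at h
    exact hcon ⟨N, hN, h.1, h.2⟩
  obtain ⟨N, hN, hN0, hN1⟩ := hexN
  -- places
  obtain ⟨A₂, hA₂⟩ := hplace 2 Nat.prime_two
  obtain ⟨Ap, hAp⟩ := hplace P.p P.pp
  have hp2 : P.p ≠ 2 := by have := P.hp5; omega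
  have hW := FA_S05_frey_integral (K := FA_S13_Qb) P Ap P.pp hp2 hAp
  obtain ⟨L, hLfin, hL⟩ := FA_S13_glue_open P
  refine ⟨N, hN, hN0, hN1, ?_⟩
  refine FA_S13_glue_abs hcard' N hN hN0 hN1 (hb3 P)
    (A₂.inertiaSubgroupIn ℚ : Set FA_S13_G) (Ap.inertiaSubgroupIn ℚ : Set FA_S13_G)
    ?_ (hb2 P A₂ hA₂) ⟨FA_S13_glue_V₁ P Ap hW, ?_, ?_⟩
  · -- Minkowski
    intro H hHn hH₀ hH₂ hHp
    refine hd H hHn ⟨L, hLfin, fun σ hσ => hH₀ σ (hL σ hσ)⟩ ?_
    intro q hq
    by_cases hq2 : q = 2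
    · subst hq2
      exact ⟨A₂, hA₂, hH₂⟩
    by_cases hqp : q = P.p
    · subst hqp
      exact ⟨Ap, hAp, hHp⟩
    obtain ⟨Aq, hAq⟩ := hplace q hq
    exact ⟨Aq, hAq, fun σ hσ => hH₀ σ (fun x => hS05 P hq hq2 hqp Aq hAq σ hσ x)⟩
  · intro σ hσ x
    exact hc1 P Ap hAp σ hσ x
  · intro N' hN' hN'0 hsub x hx
    exact hc3 P Ap hAp N' hN' hN'0 hsub x hx

end Fermat.Agent.S13
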