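import Mathlib
import Fermat.Prelude.Def_FLTPrelim_Ramification
import Fermat.Agent.Lib.FrobeniusExists

/-!
# S13, WP-d (Minkowski bridge), part 1: valuation subrings of `ℚ̄` and primes of `ℤ̄`

For a valuation subring `A` of `ℚ̄` lying over a prime `q`:
* `FA_S13_d_primeOf A` is the prime `A.nonunits ∩ ℤ̄` of `ℤ̄`;
* `A` is the localisation of `ℤ̄` at this prime (`FA_S13_d_exists_frac`);
* an automorphism stabilising the prime and acting trivially on `ℤ̄ / Q` lies in the inertia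
  subgroup of `A` (`FA_S13_d_mem_inertia`).
-/

set_option autoImplicit false

open scoped Pointwise

namespace Fermat.Agent.S13

local notation "Qb" => AlgebraicClosure ℚ
local notation "Γ" => (AlgebraicClosure ℚ ≃ₐ[ℚ] AlgebraicClosure ℚ)
local notation "Zb" => integralClosure ℤ (AlgebraicClosure ℚ)

/-- Integral elements lie in every valuation subring. -/
theorem FA_S13_d_integral_mem (A : ValuationSubring Qb) (b : Qb) (hb : IsIntegral ℤ b) :
    b ∈ A := by
  have h1 : IsIntegral A b := hb.tower_top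
  obtain ⟨y, hy⟩ := (IsIntegrallyClosed.isIntegral_iff (R := A) (K := Qb)).mp h1
  rw [← hy]
  exact y.2

/-- The inclusion `ℤ̄ → A`. -/
noncomputable def FA_S13_d_incl (A : ValuationSubring Qb) : Zb →+* A where
  toFun b := ⟨(b : Qb), FA_S13_d_integral_mem A b b.2⟩
  map_one' := rfl
  map_mul' _ _ := rfl
  map_zero' := rfl
  map_add' _ _ := rfl

/-- The prime of `ℤ̄` below a valuation subring. -/
noncomputable def FA_S13_d_primeOf (A : ValuationSubring Qb) : Ideal Zb :=
  Ideal.comap (FA_S13_d_incl A) (IsLocalRing.maximalIdeal A)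

theorem FA_S13_d_mem_primeOf (A : ValuationSubring Qb) (b : Zb) :
    b ∈ FA_S13_d_primeOf A ↔ (b : Qb) ∈ A.nonunits := by
  rw [FA_S13_d_primeOf, Ideal.mem_comap, ← ValuationSubring.coe_mem_nonunits_iff]
  rfl

instance FA_S13_d_primeOf_isPrime (A : ValuationSubring Qb) : (FA_S13_d_primeOf A).IsPrime :=
  Ideal.comap_isPrime _ _

theorem FA_S13_d_natCast_mem_primeOf (A : ValuationSubring Qb) (q : ℕ) (hq : A.LiesOverPrime q) :
    (q : Zb) ∈ FA_S13_d_primeOf A := by
  rw [FA_S13_d_mem_primeOf]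
  have : (((q : Zb)) : Qb) = (q : Qb) := by simp
  rw [this]
  exact hq

/-- Products of elements of `A` with nonunits are nonunits. -/
theorem FA_S13_d_mul_mem_nonunits (A : ValuationSubring Qb) {x y : Qb} (hx : x ∈ A)
    (hy : y ∈ A.nonunits) : x * y ∈ A.nonunits := by
  rw [ValuationSubring.mem_nonunits_iff] at hy ⊢
  rw [← ValuationSubring.valuation_le_one_iff] at hx
  rw [map_mul]
  exact mul_lt_one_of_nonneg_of_lt_one_right hx zero_le hy

/-- `A` is the localisation of `ℤ̄` at its prime. -/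
theorem FA_S13_d_exists_frac (A : ValuationSubring Qb) (q : ℕ) (hq0 : q ≠ 0)
    (hq : A.LiesOverPrime q) (x : Qb) (hx : x ∈ A) :
    ∃ b s : Zb, s ∉ FA_S13_d_primeOf A ∧ x * (s : Qb) = (b : Qb) := by
  rcases Lib.FA_locSubring_mem_or_inv_mem (FA_S13_d_primeOf A) q hq0
    (FA_S13_d_natCast_mem_primeOf A q hq) x with h | h
  · exact h
  · obtain ⟨b, s, hs, hxs⟩ := h
    by_cases hx0 : x = 0
    · exact ⟨0, 1, (Ideal.ne_top_iff_one _).mp (Ideal.IsPrime.ne_top inferInstance),
        by simp [hx0]⟩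
    have h1 : x * (b : Qb) = (s : Qb) := by
      rw [← hxs]; field_simp
    by_cases hb : b ∈ FA_S13_d_primeOf A
    · exfalso
      rw [FA_S13_d_mem_primeOf] at hb hs
      have h2 : x * (b : Qb) ∈ A.nonunits := FA_S13_d_mul_mem_nonunits A hx hb
      rw [h1] at h2
      exact hs h2
    · exact ⟨s, b, hb, h1⟩

/-- An integral element outside the prime is a unit of `A`. -/
theorem FA_S13_d_inv_mem (A : ValuationSubring Qb) (s : Zb) (hs : s ∉ FA_S13_d_primeOf A) :
    (s : Qb) ≠ 0 ∧ (s : Qb)⁻¹ ∈ A := by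
  rw [FA_S13_d_mem_primeOf, ValuationSubring.mem_nonunits_iff_or, not_or, not_not] at hs
  exact hs

theorem FA_S13_d_smul_mem_primeOf_iff (A : ValuationSubring Qb) (σ : Γ)
    (htriv : ∀ b : Zb, σ • b - b ∈ FA_S13_d_primeOf A) (b : Zb) :
    σ • b ∈ FA_S13_d_primeOf A ↔ b ∈ FA_S13_d_primeOf A := by
  constructor
  · intro h
    have := (FA_S13_d_primeOf A).sub_mem h (htriv b)
    simpa using this
  · intro h
    have := (FA_S13_d_primeOf A).add_mem (htriv b) h
    simpa using this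

theorem FA_S13_d_inv_triv (A : ValuationSubring Qb) (σ : Γ)
    (htriv : ∀ b : Zb, σ • b - b ∈ FA_S13_d_primeOf A) (b : Zb) :
    σ⁻¹ • b - b ∈ FA_S13_d_primeOf A := by
  rw [← FA_S13_d_smul_mem_primeOf_iff A σ htriv, smul_sub, smul_inv_smul]
  have := (FA_S13_d_primeOf A).neg_mem (htriv b)
  simpa using this

/-- If `σ` acts trivially on `ℤ̄ / Q` then `σ` maps `A` into `A` and acts trivially on the
residue field of `A`. -/
theorem FA_S13_d_smul_sub_mem (A : ValuationSubring Qb) (q : ℕ) (hq0 : q ≠ 0)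
    (hq : A.LiesOverPrime q) (σ : Γ)
    (htriv : ∀ b : Zb, σ • b - b ∈ FA_S13_d_primeOf A) (x : Qb) (hx : x ∈ A) :
    σ • x ∈ A ∧ σ • x - x ∈ A.nonunits := by
  obtain ⟨b, s, hs, hxs⟩ := FA_S13_d_exists_frac A q hq0 hq x hx
  have hσs : σ • s ∉ FA_S13_d_primeOf A := fun h =>
    hs ((FA_S13_d_smul_mem_primeOf_iff A σ htriv s).mp h)
  obtain ⟨hs0, hsinv⟩ := FA_S13_d_inv_mem A s hs
  obtain ⟨hσs0, hσsinv⟩ := FA_S13_d_inv_mem A (σ • s) hσs
  have e1 : (((σ • s : Zb)) : Qb) = σ • (s : Qb) := rfl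
  have e2 : (((σ • b : Zb)) : Qb) = σ • (b : Qb) := rfl
  rw [e1] at hσs0 hσsinv
  have h1 : σ • x * σ • (s : Qb) = σ • (b : Qb) := by
    rw [← smul_mul', hxs]
  have hσx : σ • x = σ • (b : Qb) * (σ • (s : Qb))⁻¹ := by
    rw [← h1]; field_simp
  have hx' : x = (b : Qb) * (s : Qb)⁻¹ := by
    rw [← hxs]; field_simp
  refine ⟨?_, ?_⟩
  · rw [hσx]
    exact A.mul_mem _ _ (FA_S13_d_integral_mem A _ (σ • b).2) hσsinv
  · have key : σ • x - x = ((s : Qb)⁻¹ * (σ • (s : Qb))⁻¹) *
        ((((σ • b - b) * s - b * (σ • s - s) : Zb)) : Qb) := by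
      push_cast
      rw [e1, e2, hσx, hx']
      field_simp
      ring
    rw [key]
    apply FA_S13_d_mul_mem_nonunits A (A.mul_mem _ _ hsinv hσsinv)
    rw [← FA_S13_d_mem_primeOf]
    exact (FA_S13_d_primeOf A).sub_mem ((FA_S13_d_primeOf A).mul_mem_right _ (htriv b))
      ((FA_S13_d_primeOf A).mul_mem_left _ (htriv s))

/-- An automorphism acting trivially on `ℤ̄ / Q` lies in the inertia subgroup of `A`. -/
theorem FA_S13_d_mem_inertia (A : ValuationSubring Qb) (q : ℕ) (hq0 : q ≠ 0)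
    (hq : A.LiesOverPrime q) (σ : Γ)
    (htriv : ∀ b : Zb, σ • b - b ∈ FA_S13_d_primeOf A) :
    σ ∈ A.inertiaSubgroupIn ℚ := by
  have hinv := FA_S13_d_inv_triv A σ htriv
  have hσA : σ ∈ A.decompositionSubgroup ℚ := by
    rw [MulAction.mem_stabilizer_iff]
    apply le_antisymm
    · intro x hx
      rw [ValuationSubring.mem_pointwise_smul_iff_inv_smul_mem] at hx
      have := (FA_S13_d_smul_sub_mem A q hq0 hq σ htriv _ hx).1
      simpa using this
    · intro x hx
      rw [ValuationSubring.mem_pointwise_smul_iff_inv_smul_mem]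
      exact (FA_S13_d_smul_sub_mem A q hq0 hq σ⁻¹ hinv x hx).1
  refine Subgroup.mem_map.mpr ⟨⟨σ, hσA⟩, ?_, rfl⟩
  rw [ValuationSubring.inertiaSubgroup, MonoidHom.mem_ker]
  ext x
  obtain ⟨a, rfl⟩ := IsLocalRing.residue_surjective x
  change (⟨σ, hσA⟩ : A.decompositionSubgroup ℚ) • (IsLocalRing.residue A a) = IsLocalRing.residue A a
  rw [← IsLocalRing.ResidueField.residue_smul, ← sub_eq_zero, ← map_sub,
    IsLocalRing.residue_eq_zero_iff, ← ValuationSubring.coe_mem_nonunits_iff]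
  exact (FA_S13_d_smul_sub_mem A q hq0 hq σ htriv a a.2).2

end Fermat.Agent.S13
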