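import Mathlib
import Fermat.Agent.S13.MinkPrime

/-!
# S13, WP-d (Minkowski bridge), part 2: lifting inertia

Let `H` be a closed normal subgroup of `Γ = Gal(ℚ̄/ℚ)`, `A` a valuation subring of `ℚ̄` over `q`,
`Q` its prime of `ℤ̄`. If `τ ∈ Γ` acts trivially on `ℤ̄^H / (Q ∩ ℤ̄^H)`, then `h τ` lies in the
inertia subgroup of `A` for some `h ∈ H`.
-/

set_option autoImplicit false

open scoped Pointwise

namespace Fermat.Agent.S13

local notation "Qb" => AlgebraicClosure ℚ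
local notation "Γ" => (AlgebraicClosure ℚ ≃ₐ[ℚ] AlgebraicClosure ℚ)
local notation "Zb" => integralClosure ℤ (AlgebraicClosure ℚ)

attribute [local instance] Lib.FA_isAlgebraic_Qb Lib.FA_isAlgClosure_Qb Lib.FA_isInvariant_Zb
  Lib.FA_topZb Lib.FA_discZb Lib.FA_contSMul_Zb

theorem FA_S13_d_lift (H : Subgroup Γ) (hn : H.Normal) (hH : IsClosed (H : Set Γ))
    (A : ValuationSubring Qb) (q : ℕ) (hq0 : q ≠ 0) (hq : A.LiesOverPrime q) (τ : Γ)
    (hτ : ∀ b : Zb, (∀ h ∈ H, h • b = b) → τ • b - b ∈ FA_S13_d_primeOf A) :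
    ∃ h ∈ H, h * τ ∈ A.inertiaSubgroupIn ℚ := by
  classical
  have : CompactSpace H := isCompact_iff_compactSpace.mp hH.isCompact
  -- the invariant ring
  let A' : Subalgebra ℤ Zb := FixedPoints.subalgebra ℤ Zb H
  have hmemA' : ∀ b : Zb, b ∈ A' ↔ ∀ h ∈ H, h • b = b := by
    intro b
    constructor
    · intro hb h hh
      exact hb ⟨h, hh⟩
    · intro hb h
      exact hb h.1 h.2
  have hcomm : SMulCommClass H A' Zb := ⟨fun h a b => by
    change h • ((a : Zb) * b) = (a : Zb) * h • b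
    rw [smul_mul']
    congr 1
    exact a.2 h⟩
  have hinv : Algebra.IsInvariant A' Zb H := ⟨fun b hb => ⟨⟨b, hb⟩, rfl⟩⟩
  set Q : Ideal Zb := FA_S13_d_primeOf A with hQ
  -- `A'` is stable under `Γ`
  have hstab : ∀ (g : Γ) (b : Zb), b ∈ A' → g • b ∈ A' := by
    intro g b hb
    rw [hmemA'] at hb ⊢
    intro h hh
    have h1 : g⁻¹ * h * g ∈ H := by
      have := hn.conj_mem h hh g⁻¹
      simpa using this
    have h2 := hb _ h1
    calc h • g • b = g • (g⁻¹ * h * g) • b := by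
          rw [← mul_smul, ← mul_smul]; congr 1; group
      _ = g • b := by rw [h2]
  -- `τ⁻¹` also acts trivially on `A' / (Q ∩ A')`
  have hτ' : ∀ b : Zb, b ∈ A' → τ⁻¹ • b - b ∈ Q := by
    intro b hb
    have h1 := hτ (τ⁻¹ • b) ((hmemA' _).mp (hstab τ⁻¹ b hb))
    rw [smul_inv_smul] at h1
    have := Q.neg_mem h1
    simpa using this
  -- step 1: move `τ • Q` back to `Q` by an element of `H`
  have hunder : (τ • Q).under A' = Q.under A' := by
    ext ⟨b, hb⟩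
    simp only [Ideal.under, Ideal.mem_comap]
    change b ∈ τ • Q ↔ b ∈ Q
    rw [Ideal.mem_pointwise_smul_iff_inv_smul_mem]
    constructor
    · intro h
      have := Q.sub_mem h (hτ' b hb)
      simpa using this
    · intro h
      have := Q.add_mem (hτ' b hb) h
      simpa using this
  obtain ⟨h₁, hh₁⟩ := Algebra.IsInvariant.exists_smul_of_under_eq_of_profinite
    (A := A') (B := Zb) (G := H) (τ • Q) Q hunder
  -- `τ₁ = h₁ τ` stabilises `Q`
  have hτ₁Q : ((h₁ : Γ) * τ) • Q = Q := by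
    rw [mul_smul]
    exact hh₁.symm
  have hτ₁ : ∀ b : Zb, b ∈ A' → ((h₁ : Γ) * τ) • b - b ∈ Q := by
    intro b hb
    rw [mul_smul]
    have h1 : (h₁ : Γ) • τ • b = τ • b := (hmemA' _).mp (hstab τ b hb) h₁.1 h₁.2
    rw [h1]
    exact hτ b ((hmemA' b).mp hb)
  -- step 2: the automorphism of `Zb / Q` induced by `τ₁` is `A' / P'`-linear
  have : Q.LiesOver (Q.under A') := ⟨rfl⟩
  let σ₀ : (Zb ⧸ Q) ≃+* (Zb ⧸ Q) :=
    Ideal.quotientEquiv Q Q (MulSemiringAction.toRingEquiv Γ Zb ((h₁ : Γ) * τ)) (by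
      conv_lhs => rw [← hτ₁Q]
      rfl)
  let σ : (Zb ⧸ Q) ≃ₐ[A' ⧸ Q.under A'] (Zb ⧸ Q) :=
    AlgEquiv.ofRingEquiv (f := σ₀) (by
      intro x
      obtain ⟨a, rfl⟩ := Ideal.Quotient.mk_surjective x
      change σ₀ (Ideal.Quotient.mk Q (a : Zb)) = Ideal.Quotient.mk Q (a : Zb)
      change Ideal.Quotient.mk Q (((h₁ : Γ) * τ) • (a : Zb)) = Ideal.Quotient.mk Q (a : Zb)
      rw [Ideal.Quotient.eq]
      exact hτ₁ a a.2)
  obtain ⟨⟨h₂, hh₂⟩, hh₂σ⟩ :=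
    Ideal.Quotient.stabilizerHom_surjective_of_profinite (Q.under A') Q (G := H) σ
  have hkey : ∀ b : Zb, (h₂ : Γ) • b - ((h₁ : Γ) * τ) • b ∈ Q := by
    intro b
    have h1 := congrArg (fun f => f (Ideal.Quotient.mk Q b)) hh₂σ
    simp only [Ideal.Quotient.stabilizerHom_apply] at h1
    have h2 : σ (Ideal.Quotient.mk Q b) = Ideal.Quotient.mk Q (((h₁ : Γ) * τ) • b) := rfl
    rw [h2] at h1
    exact Ideal.Quotient.eq.mp h1
  have hh₂Q : (h₂ : Γ) • Q = Q := by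
    have := hh₂
    rw [MulAction.mem_stabilizer_iff] at this
    exact this
  -- step 3: `σ' = h₂⁻¹ h₁ τ` acts trivially on `Zb / Q`
  refine ⟨(h₂ : Γ)⁻¹ * (h₁ : Γ), H.mul_mem (H.inv_mem h₂.2) h₁.2, ?_⟩
  apply FA_S13_d_mem_inertia A q hq0 hq
  intro b
  have h1 : ((h₂ : Γ)⁻¹ * (h₁ : Γ) * τ) • b - b =
      (h₂ : Γ)⁻¹ • (((h₁ : Γ) * τ) • b - (h₂ : Γ) • b) := by
    rw [smul_sub, inv_smul_smul, ← mul_smul, mul_assoc]
  rw [h1]
  have h3 : ((h₁ : Γ) * τ) • b - (h₂ : Γ) • b ∈ Q := by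
    have := Q.neg_mem (hkey b)
    simpa using this
  have h4 : (h₂ : Γ)⁻¹ • (((h₁ : Γ) * τ) • b - (h₂ : Γ) • b) ∈ (h₂ : Γ)⁻¹ • Q :=
    Ideal.smul_mem_pointwise_smul _ _ _ h3
  have h5 : (h₂ : Γ)⁻¹ • Q = Q := by
    conv_lhs => rw [← hh₂Q]
    rw [inv_smul_smul]
  rw [h5] at h4
  exact h4

end Fermat.Agent.S13
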