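import Mathlib
import Fermat.Agent.S13.Interface
import Fermat.Agent.S13.MinkLift

/-!
# S13, WP-d (Minkowski bridge), part 3: conclusion

An open normal subgroup `H` of `Γ = Gal(ℚ̄/ℚ)` which contains, for every prime `q`, the inertia
subgroup of one valuation subring over `q`, is everything: its fixed field is a Galois number
field in which every prime is unramified, hence equals `ℚ` (Hermite–Minkowski).
-/

set_option autoImplicit false

open scoped Pointwise
open NumberField

namespace Fermat.Agent.S13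

local notation "Qb" => AlgebraicClosure ℚ
local notation "Γ" => (AlgebraicClosure ℚ ≃ₐ[ℚ] AlgebraicClosure ℚ)
local notation "Zb" => integralClosure ℤ (AlgebraicClosure ℚ)

attribute [local instance] Lib.FA_isAlgebraic_Qb Lib.FA_isAlgClosure_Qb Lib.FA_isInvariant_Zb
  Lib.FA_topZb Lib.FA_discZb Lib.FA_contSMul_Zb

/-- A Galois number field in which, for every prime `q`, some prime over `q` has trivial inertia
group, is `ℚ`. -/
theorem FA_S13_d_nf (K : Type) [Field K] [NumberField K] [IsGalois ℚ K]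
    (h : ∀ q : ℕ, q.Prime → ∃ P : Ideal (𝓞 K), P.IsPrime ∧ ((q : ℕ) : 𝓞 K) ∈ P ∧
      ∀ g : K ≃ₐ[ℚ] K, (∀ y : 𝓞 K, g • y - y ∈ P) → g = 1) :
    Module.finrank ℚ K = 1 := by
  by_contra hne
  have h1 : 1 < Module.finrank ℚ K := by
    have := Module.finrank_pos (R := ℚ) (M := K)
    omega
  obtain ⟨q, hq, hram⟩ := NumberField.exists_not_isUnramifiedAt_int_of_isGalois (𝒪 := 𝓞 K) h1
  obtain ⟨P₀, hP₀, hqP₀, hI⟩ := h q hq
  apply hram P₀ hP₀ hqP₀
  have hqp : Prime (q : ℤ) := Nat.prime_iff_prime_int.mp hq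
  have hp : (Ideal.span {(q : ℤ)}).IsPrime := (Ideal.span_singleton_prime hqp.ne_zero).mpr hqp
  have hpmax : (Ideal.span {(q : ℤ)}).IsMaximal :=
    PrincipalIdealRing.isMaximal_of_irreducible hqp.irreducible
  have hP₀lies : P₀.LiesOver (Ideal.span {(q : ℤ)}) := by
    refine ⟨?_⟩
    apply hpmax.eq_of_le (Ideal.comap_ne_top _ hP₀.ne_top)
    rw [Ideal.span_singleton_le_iff_mem]
    change algebraMap ℤ (𝓞 K) (q : ℤ) ∈ P₀
    simpa using hqP₀
  have hbot : Ideal.inertia (K ≃ₐ[ℚ] K) P₀ = ⊥ := by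
    rw [Subgroup.eq_bot_iff_forall]
    intro g hg
    exact hI g hg
  have hcard : Nat.card (Ideal.inertia (K ≃ₐ[ℚ] K) P₀) = 1 := by
    rw [hbot]
    exact Subgroup.card_bot
  have h4 := Ideal.card_inertia_eq_ramificationIdxIn (G := (K ≃ₐ[ℚ] K)) (Ideal.span {(q : ℤ)}) P₀
  have h5 := Ideal.ramificationIdxIn_eq_ramificationIdx (Ideal.span {(q : ℤ)}) P₀ (K ≃ₐ[ℚ] K)
  rw [← h4, hcard] at h5
  have : PerfectField (P₀.under ℤ).ResidueField := inferInstance
  exact Ideal.ramificationIdx_eq_one_iff.mp h5.symm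

/-- If the inertia subgroup of `A` lies in the closed normal subgroup `H`, then every `τ` acting
trivially on `ℤ̄^H` modulo the prime of `A` lies in `H`. -/
theorem FA_S13_d_core (H : Subgroup Γ) (hn : H.Normal) (hH : IsClosed (H : Set Γ))
    (A : ValuationSubring Qb) (q : ℕ) (hq0 : q ≠ 0) (hq : A.LiesOverPrime q)
    (hI : ∀ σ ∈ A.inertiaSubgroupIn ℚ, σ ∈ H) (τ : Γ)
    (hτ : ∀ b : Zb, (∀ h ∈ H, h • b = b) → τ • b - b ∈ FA_S13_d_primeOf A) : τ ∈ H := by
  obtain ⟨h, hh, hσ⟩ := FA_S13_d_lift H hn hH A q hq0 hq τ hτ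
  have h1 := hI _ hσ
  have h2 := H.mul_mem (H.inv_mem hh) h1
  simpa using h2

/-- **WP-d** (Minkowski bridge). -/
theorem FA_S13_d : FA_S13_Target_d := by
  intro H hn hL hI
  obtain ⟨L, hLfin, hLH⟩ := hL
  have hle : L.fixingSubgroup ≤ H := by
    intro σ hσ
    apply hLH σ
    intro x hx
    exact (IntermediateField.mem_fixingSubgroup_iff L σ).mp hσ x hx
  have hopen : IsOpen (H : Set Γ) := Subgroup.isOpen_mono hle L.fixingSubgroup_isOpen
  have hclosed : IsClosed (H : Set Γ) := Subgroup.isClosed_of_isOpen H hopen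
  -- the fixed field
  let K : IntermediateField ℚ Qb := IntermediateField.fixedField H
  have hKmem : ∀ x : Qb, x ∈ K ↔ ∀ h ∈ H, h x = x := by
    intro x
    rw [IntermediateField.mem_fixedField_iff]
  have hKL : K ≤ L := by
    intro x hx
    rw [← InfiniteGalois.fixedField_fixingSubgroup L, IntermediateField.mem_fixedField_iff]
    intro f hf
    exact (hKmem x).mp hx f (hle hf)
  have : FiniteDimensional ℚ K :=
    Module.Finite.of_injective (IntermediateField.inclusion hKL).toLinearMap
      (IntermediateField.inclusion hKL).injective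
  have : NumberField K := NumberField.of_module_finite ℚ K
  have : IsGalois ℚ K := IsGalois.of_fixedField_normal_subgroup H
  -- elements of `Zb` fixed by `H` come from `𝓞 K`
  have hint : ∀ b : Zb, (∀ h ∈ H, h • b = b) → ∃ y : 𝓞 K, ((y : K) : Qb) = (b : Qb) := by
    intro b hb
    have hbK : (b : Qb) ∈ K := by
      rw [hKmem]
      intro h hh
      exact congrArg Subtype.val (hb h hh)
    have hbint : IsIntegral ℤ (⟨(b : Qb), hbK⟩ : K) := by
      have h1 : IsIntegral ℤ (algebraMap K Qb ⟨(b : Qb), hbK⟩) := b.2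
      exact (isIntegral_algebraMap_iff (algebraMap K Qb).injective).mp h1
    exact ⟨⟨⟨(b : Qb), hbK⟩, hbint⟩, rfl⟩
  have hK1 : Module.finrank ℚ K = 1 := by
    apply FA_S13_d_nf K
    intro q hq
    obtain ⟨A, hA, hIA⟩ := hI q hq
    -- the map `𝓞 K → Zb`
    have hι : ∀ r : 𝓞 K, IsIntegral ℤ (((r : K) : Qb)) := fun r =>
      (NumberField.RingOfIntegers.isIntegral_coe r).map (IsScalarTower.toAlgHom ℤ K Qb)
    let ι : 𝓞 K →+* Zb :=
      { toFun := fun r => ⟨((r : K) : Qb), hι r⟩
        map_one' := by apply Subtype.ext; simp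
        map_mul' := fun a b => by apply Subtype.ext; simp
        map_zero' := by apply Subtype.ext; simp
        map_add' := fun a b => by apply Subtype.ext; simp }
    refine ⟨(FA_S13_d_primeOf A).comap ι, Ideal.comap_isPrime ι _, ?_, ?_⟩
    · rw [Ideal.mem_comap]
      have : ι ((q : ℕ) : 𝓞 K) = ((q : ℕ) : Zb) := by simp
      rw [this]
      exact FA_S13_d_natCast_mem_primeOf A q hA
    · intro g hg
      obtain ⟨τ, hτ⟩ := AlgEquiv.restrictNormalHom_surjective (F := ℚ) (K₁ := K) Qb g
      have hτK : ∀ x : K, τ (x : Qb) = ((g x : K) : Qb) := by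
        intro x
        rw [← hτ]
        exact (AlgEquiv.restrictNormal_commutes τ K x).symm
      have hτH : τ ∈ H := by
        apply FA_S13_d_core H hn hclosed A q hq.ne_zero hA hIA τ
        intro b hb
        obtain ⟨y, hy⟩ := hint b hb
        have h1 := hg y
        rw [Ideal.mem_comap] at h1
        have h2 : ι (g • y - y) = τ • b - b := by
          apply Subtype.ext
          change (((g • y - y : 𝓞 K) : K) : Qb) = τ • (b : Qb) - (b : Qb)
          rw [← hy]
          change _ = τ ((y : K) : Qb) - ((y : K) : Qb)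
          rw [hτK]
          rfl
        rw [h2] at h1
        exact h1
      ext x
      rw [← hτK, AlgEquiv.one_apply]
      exact (hKmem _).mp x.2 τ hτH
  have hKbot : K = ⊥ := IntermediateField.finrank_eq_one_iff.mp hK1
  -- conclusion
  intro σ
  obtain ⟨A, hA, hIA⟩ := hI 2 Nat.prime_two
  apply FA_S13_d_core H hn hclosed A 2 two_ne_zero hA hIA σ
  intro b hb
  have hbK : (b : Qb) ∈ K := by
    rw [hKmem]
    intro h hh
    exact congrArg Subtype.val (hb h hh)
  rw [hKbot, IntermediateField.mem_bot] at hbK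
  obtain ⟨r, hr⟩ := hbK
  have h1 : σ • b = b := by
    apply Subtype.ext
    change σ (b : Qb) = (b : Qb)
    rw [← hr]
    exact σ.commutes r
  rw [h1, sub_self]
  exact Ideal.zero_mem _

end Fermat.Agent.S13
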