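import Fermat.Agent.S13.TorsField
import Fermat.Agent.S13.Interface
import Fermat.Agent.S05.FreyGood

/-!
# S13 part (a): the `p`-torsion of the Frey curve is nontrivial (helper9)
-/

set_option linter.unusedSectionVars false

namespace Fermat.Agent.S13

open WeierstrassCurve Polynomial Fermat.Agent.S05
open scoped WeierstrassCurve.Affine

section general

variable {K : Type*} [Field K] [DecidableEq K]

lemma FA_S13_baseChange_self (W : WeierstrassCurve.Affine K) : (W⁄K) = W := by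
  change W.map (algebraMap K K) = W
  rw [Algebra.algebraMap_self]
  exact WeierstrassCurve.map_id W

open Classical in
/-- **Existence of torsion points**: an elliptic curve over an algebraically closed field of
characteristic `0` with two given `2`-torsion points (distinct `x`-coordinates) has a nonzero
`n`-torsion point for every odd `n > 1`. -/
theorem FA_S13_exists_torsion [IsAlgClosed K] [CharZero K] (W : WeierstrassCurve.Affine K)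
    (hΔ : W.Δ ≠ 0) {n : ℕ} (hodd : Odd n) (hn1 : 1 < n) {e₁ b₁ e₂ b₂ : K}
    (h₁ : W.Nonsingular e₁ b₁) (h₂ : W.Nonsingular e₂ b₂)
    (hb₁ : b₁ = W.negY e₁ b₁) (hb₂ : b₂ = W.negY e₂ b₂) (he : e₁ ≠ e₂) :
    ∃ P : W.Point, P ≠ 0 ∧ n • P = 0 := by
  have key : ∀ V : WeierstrassCurve.Affine K, V = (W⁄K) → V.Δ ≠ 0 →
      V.Nonsingular e₁ b₁ → V.Nonsingular e₂ b₂ → b₁ = V.negY e₁ b₁ → b₂ = V.negY e₂ b₂ →
      ∃ P : V.Point, P ≠ 0 ∧ n • P = 0 := by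
    rintro V rfl hΔ' h₁' h₂' hb₁' hb₂'
    exact FA_S13_exists_torsion_of_generic (FA_S13_generic W) hΔ' hodd hn1 h₁' h₂' hb₁' hb₂' he
  exact key W (FA_S13_baseChange_self W).symm hΔ h₁ h₂ hb₁ hb₂

end general

section frey

variable (P : FreyPackage)

lemma FA_S13_frey_Δ_ne_zero : (FA_S13_E P).Δ ≠ 0 := by
  rw [FA_S13_E, FA_S05_frey_Δ]
  refine mul_ne_zero (pow_ne_zero _ ?_) (pow_ne_zero _ (inv_ne_zero two_ne_zero))
  exact Int.cast_ne_zero.mpr P.habc0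

lemma FA_S13_frey_eq₁ : (FA_S13_E P).Equation 0 0 := by
  rw [Affine.equation_iff, FA_S13_E, FA_S05_frey_a₁, FA_S05_frey_a₃, FA_S05_frey_a₆]
  ring

lemma FA_S13_frey_eq₂ :
    (FA_S13_E P).Equation (((P.a ^ P.p : ℤ) : FA_S13_Qb) * (2 : FA_S13_Qb)⁻¹ ^ 2)
      (-((P.a ^ P.p : ℤ) : FA_S13_Qb) * (2 : FA_S13_Qb)⁻¹ ^ 3) := by
  rw [Affine.equation_iff, FA_S13_E, FA_S05_frey_a₁, FA_S05_frey_a₂, FA_S05_frey_a₃,
    FA_S05_frey_a₄, FA_S05_frey_a₆]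
  push_cast
  have h2 : (2 : FA_S13_Qb) * (2 : FA_S13_Qb)⁻¹ = 1 := mul_inv_cancel₀ two_ne_zero
  generalize (2 : FA_S13_Qb)⁻¹ = t at h2 ⊢
  linear_combination ((P.a : FA_S13_Qb) ^ P.p) ^ 2 * t ^ 5 * h2

theorem FA_S13_a : FA_S13_Target_a := by
  intro P
  have hΔ := FA_S13_frey_Δ_ne_zero P
  have h₁ := (Affine.equation_iff_nonsingular_of_Δ_ne_zero hΔ).mp (FA_S13_frey_eq₁ P)
  have h₂ := (Affine.equation_iff_nonsingular_of_Δ_ne_zero hΔ).mp (FA_S13_frey_eq₂ P)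
  have hb₁ : (0 : FA_S13_Qb) = (FA_S13_E P).negY 0 0 := by
    rw [Affine.negY, FA_S13_E, FA_S05_frey_a₁, FA_S05_frey_a₃]
    ring
  have hb₂ : (-((P.a ^ P.p : ℤ) : FA_S13_Qb) * (2 : FA_S13_Qb)⁻¹ ^ 3)
      = (FA_S13_E P).negY (((P.a ^ P.p : ℤ) : FA_S13_Qb) * (2 : FA_S13_Qb)⁻¹ ^ 2)
        (-((P.a ^ P.p : ℤ) : FA_S13_Qb) * (2 : FA_S13_Qb)⁻¹ ^ 3) := by
    rw [Affine.negY, FA_S13_E, FA_S05_frey_a₁, FA_S05_frey_a₃]
    have h2 : (2 : FA_S13_Qb) * (2 : FA_S13_Qb)⁻¹ = 1 := mul_inv_cancel₀ two_ne_zero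
    generalize (2 : FA_S13_Qb)⁻¹ = t at h2 ⊢
    linear_combination (-((P.a ^ P.p : ℤ) : FA_S13_Qb) * t ^ 2) * h2
  have he : (0 : FA_S13_Qb) ≠ ((P.a ^ P.p : ℤ) : FA_S13_Qb) * (2 : FA_S13_Qb)⁻¹ ^ 2 := by
    refine (mul_ne_zero ?_ (pow_ne_zero _ (inv_ne_zero two_ne_zero))).symm
    exact Int.cast_ne_zero.mpr (pow_ne_zero _ P.ha0)
  have hp1 : 1 < P.p := by have := P.hp5; omega
  obtain ⟨Q, hQ0, hQ⟩ := FA_S13_exists_torsion (FA_S13_E P) hΔ P.hp_odd hp1 h₁ h₂ hb₁ hb₂ he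
  have hmem : Q ∈ Submodule.torsionBy ℤ (FA_S13_E P).Point P.p := by
    rw [Submodule.mem_torsionBy_iff, natCast_zsmul]
    exact hQ
  refine ⟨⟨⟨Q, hmem⟩, 0, ?_⟩⟩
  intro h
  exact hQ0 (congrArg Subtype.val h)

end frey

end Fermat.Agent.S13
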