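import Mathlib

/-!
# S13 leaf u, part 1 (lead): algebra of three collinear points on `y² + xy = x³ + a₂x² + a₄x`

`α, β` are the roots of `t² + t - a₂`.  On the curve `(y - αx)(y - βx) = x³ + a₄x`.
For three points on a line `y = ℓx + ν`: `∏ (y_i - αx_i) = ν³ + (ℓ - α)² ν a₄`.
-/

namespace Fermat.Agent.S13

open WeierstrassCurve WeierstrassCurve.Affine Polynomial

section alg

variable {K : Type*} [Field K]

/-- The key identity for three collinear points. -/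
lemma FA_S13_u_prod_alg (α a₂ a₄ x₁ x₂ x₃ ℓ ν : K) (hα : α ^ 2 + α = a₂)
    (e₁ : x₁ + x₂ + x₃ = ℓ ^ 2 + ℓ - a₂)
    (e₂ : x₁ * x₂ + x₁ * x₃ + x₂ * x₃ = a₄ - ν - 2 * ℓ * ν)
    (e₃ : x₁ * x₂ * x₃ = ν ^ 2) :
    ((ℓ - α) * x₁ + ν) * ((ℓ - α) * x₂ + ν) * ((ℓ - α) * x₃ + ν) =
      ν ^ 3 + (ℓ - α) ^ 2 * ν * a₄ := by
  linear_combination (ℓ - α) ^ 3 * e₃ + (ℓ - α) ^ 2 * ν * e₂ + (ℓ - α) * ν ^ 2 * e₁ +
    ν ^ 2 * (ℓ - α) * hα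

variable [DecidableEq K] {W : WeierstrassCurve.Affine K}

/-- Vieta for the line through two points of the curve `y² + xy = x³ + a₂x² + a₄x`. -/
lemma FA_S13_u_vieta (ha1 : W.a₁ = 1) (ha3 : W.a₃ = 0) (ha6 : W.a₆ = 0) {x₁ x₂ y₁ y₂ : K}
    (h₁ : W.Equation x₁ y₁) (h₂ : W.Equation x₂ y₂) (hxy : ¬(x₁ = x₂ ∧ y₁ = W.negY x₂ y₂)) :
    x₁ + x₂ + W.addX x₁ x₂ (W.slope x₁ x₂ y₁ y₂) =
        (W.slope x₁ x₂ y₁ y₂) ^ 2 + W.slope x₁ x₂ y₁ y₂ - W.a₂ ∧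
      x₁ * x₂ + x₁ * W.addX x₁ x₂ (W.slope x₁ x₂ y₁ y₂) +
          x₂ * W.addX x₁ x₂ (W.slope x₁ x₂ y₁ y₂) =
        W.a₄ - (y₁ - W.slope x₁ x₂ y₁ y₂ * x₁) -
          2 * W.slope x₁ x₂ y₁ y₂ * (y₁ - W.slope x₁ x₂ y₁ y₂ * x₁) ∧
      x₁ * x₂ * W.addX x₁ x₂ (W.slope x₁ x₂ y₁ y₂) =
        (y₁ - W.slope x₁ x₂ y₁ y₂ * x₁) ^ 2 := by
  have key := addPolynomial_slope h₁ h₂ hxy
  rw [addPolynomial_eq, neg_inj, Cubic.prod_X_sub_C_eq, Cubic.toPoly_injective] at key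
  have k2 := congrArg Cubic.b key
  have k3 := congrArg Cubic.c key
  have k4 := congrArg Cubic.d key
  simp only [ha1, ha3, ha6] at k2 k3 k4
  refine ⟨?_, ?_, ?_⟩
  · rw [addX, ha1]; ring
  · linear_combination -k3
  · linear_combination k4

/-- The second point is on the line. -/
lemma FA_S13_u_line₂ {x₁ x₂ y₁ y₂ : K}
    (h₁ : W.Equation x₁ y₁) (h₂ : W.Equation x₂ y₂) (hxy : ¬(x₁ = x₂ ∧ y₁ = W.negY x₂ y₂)) :
    y₂ = W.slope x₁ x₂ y₁ y₂ * x₂ + (y₁ - W.slope x₁ x₂ y₁ y₂ * x₁) := by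
  by_cases hx : x₁ = x₂
  · have hy : y₁ ≠ W.negY x₂ y₂ := fun h => hxy ⟨hx, h⟩
    rcases hx, Y_eq_of_Y_ne h₁ h₂ hx hy with ⟨rfl, rfl⟩
    ring
  · rw [slope_of_X_ne hx]
    have : x₁ - x₂ ≠ 0 := sub_ne_zero.2 hx
    field_simp
    ring

/-- The third point is on the line. -/
lemma FA_S13_u_line₃ (x₁ x₂ y₁ ℓ : K) :
    W.negAddY x₁ x₂ y₁ ℓ = ℓ * W.addX x₁ x₂ ℓ + (y₁ - ℓ * x₁) := by
  rw [negAddY]; ring

/-- `(y - αx)(y - βx) = x³ + a₄x` on the curve. -/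
lemma FA_S13_u_factor (ha1 : W.a₁ = 1) (ha3 : W.a₃ = 0) (ha6 : W.a₆ = 0) {α β x y : K}
    (hsum : α + β = -1) (hprod : α * β = -W.a₂) (h : W.Equation x y) :
    (y - α * x) * (y - β * x) = x ^ 3 + W.a₄ * x := by
  have e := (W.equation_iff x y).1 h
  rw [ha1, ha3, ha6] at e
  linear_combination e - x * y * hsum + x ^ 2 * hprod

end alg

end Fermat.Agent.S13
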