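import Mathlib
import Fermat.Agent.S13.UAlg
import Fermat.Agent.S05.KL

/-!
# S13 leaf u, part 2 (lead): the map `u = (y - αx)/(y - βx)` modulo the maximal ideal

`A` a valuation subring of `K`, curve `y² + xy = x³ + a₂x² + a₄x` with `a₂ ∈ A`, `a₄ ∈ 𝔪`,
`α, β ∈ A` the roots of `t² + t - a₂`, `α - β` a unit.  For a point `P = (x, y)` with nonsingular
reduction `x`, `y - αx`, `y - βx` are units and `φ(P) := res(y - αx)/res(y - βx)` is a
homomorphism on every subgroup of points with nonsingular reduction.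
-/

namespace Fermat.Agent.S13

open WeierstrassCurve WeierstrassCurve.Affine Polynomial Fermat.Agent.S05

section val

variable {K : Type*} [Field K] (A : ValuationSubring K)

/-- Residue of an element of `K` (junk value `0` outside `A`). -/
noncomputable def FA_S13_u_r (x : K) : IsLocalRing.ResidueField A := by
  classical exact if h : x ∈ A then IsLocalRing.residue A ⟨x, h⟩ else 0

lemma FA_S13_u_r_coe (a : A) : FA_S13_u_r A (a : K) = IsLocalRing.residue A a := by
  rw [FA_S13_u_r, dif_pos a.2]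

lemma FA_S13_u_r_eq_zero_iff (a : A) : FA_S13_u_r A (a : K) = 0 ↔ (a : K) ∈ A.nonunits := by
  rw [FA_S13_u_r_coe, IsLocalRing.residue_eq_zero_iff, ValuationSubring.coe_mem_nonunits_iff]

lemma FA_S13_u_isUnit_iff (a : A) : IsUnit a ↔ (a : K) ∉ A.nonunits := by
  rw [ValuationSubring.coe_mem_nonunits_iff, IsLocalRing.mem_maximalIdeal, mem_nonunits_iff,
    not_not]

/-- Sum of two elements of the maximal ideal. -/
lemma FA_S13_u_nonunits_add {x y : K} (hx : x ∈ A.nonunits) (hy : y ∈ A.nonunits) :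
    x + y ∈ A.nonunits := by
  rw [A.mem_nonunits_iff] at hx hy ⊢
  exact lt_of_le_of_lt (A.valuation.map_add x y) (max_lt hx hy)

lemma FA_S13_u_nonunits_mul_left {x y : K} (hx : x ∈ A) (hy : y ∈ A.nonunits) :
    x * y ∈ A.nonunits := by
  rw [A.mem_nonunits_iff] at hy ⊢
  rw [map_mul]
  have h1 : A.valuation x ≤ 1 := (A.valuation_le_one_iff _).2 hx
  calc A.valuation x * A.valuation y ≤ 1 * A.valuation y := by gcongr
    _ < 1 := by rwa [one_mul]

lemma FA_S13_u_nonunits_neg {x : K} (hx : x ∈ A.nonunits) : -x ∈ A.nonunits := by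
  rw [A.mem_nonunits_iff] at hx ⊢
  rwa [Valuation.map_neg]

/-- If `t² + t ∈ A` then `t ∈ A`. -/
lemma FA_S13_u_mem_of_sq_add {t : K} (h : t ^ 2 + t ∈ A) : t ∈ A := by
  by_contra ht
  rw [← A.valuation_le_one_iff, not_le] at ht
  have h1 : A.valuation t < A.valuation (t ^ 2) := by
    rw [map_pow, pow_two]
    calc A.valuation t = A.valuation t * 1 := (mul_one _).symm
      _ < A.valuation t * A.valuation t := by
        exact mul_lt_mul_of_pos_left ht (lt_trans zero_lt_one ht)
  have h2 : A.valuation (t ^ 2 + t) = A.valuation (t ^ 2) :=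
    Valuation.map_add_eq_of_lt_left _ h1
  have h3 : A.valuation (t ^ 2 + t) ≤ 1 := (A.valuation_le_one_iff _).2 h
  rw [h2] at h3
  exact absurd (lt_trans ht h1) (not_lt.2 h3)

end val

end Fermat.Agent.S13
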