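import Mathlib
import Fermat.Agent.S13.UVal
import Fermat.Agent.S05.KL

/-!
# S13 leaf u, part 3 (lead): units, the three-point relation, the homomorphism `φ`
-/

namespace Fermat.Agent.S13

open WeierstrassCurve WeierstrassCurve.Affine Polynomial Fermat.Agent.S05

section main

variable {K : Type*} [Field K] [DecidableEq K] {A : ValuationSubring K}
  {W : WeierstrassCurve.Affine K} {α β : K}

/-- The data: curve `y² + xy = x³ + a₂x² + a₄x`, node at `(0,0)` with tangent slopes `α, β`. -/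
structure FA_S13_u_Data (A : ValuationSubring K) (W : WeierstrassCurve.Affine K) (α β : K) :
    Prop where
  a1 : W.a₁ = 1
  a3 : W.a₃ = 0
  a6 : W.a₆ = 0
  a2 : W.a₂ ∈ A
  a4 : W.a₄ ∈ A.nonunits
  hα : α ∈ A
  hβ : β ∈ A
  sum : α + β = -1
  prod : α * β = -W.a₂
  diff : α - β ∉ A.nonunits

/-- "Integral with nonsingular reduction", on coordinates. -/
def FA_S13_u_NSc (A : ValuationSubring K) (W : WeierstrassCurve.Affine K) (x y : K) : Prop :=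
  x ∈ A ∧ y ∈ A ∧
    (W.polynomialX.evalEval x y ∉ A.nonunits ∨ W.polynomialY.evalEval x y ∉ A.nonunits)

lemma FA_S13_u_prime {a b : K} (ha : a ∈ A) (hb : b ∈ A) (hab : a * b ∈ A.nonunits) :
    a ∈ A.nonunits ∨ b ∈ A.nonunits := by
  by_contra h
  rw [not_or] at h
  have h1 := (FA_S13_u_r_eq_zero_iff A ⟨a * b, A.mul_mem _ _ ha hb⟩).2 hab
  have h2 : FA_S13_u_r A ((⟨a * b, A.mul_mem _ _ ha hb⟩ : A) : K) =
      FA_S13_u_r A ((⟨a, ha⟩ : A) : K) * FA_S13_u_r A ((⟨b, hb⟩ : A) : K) := by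
    rw [FA_S13_u_r_coe, FA_S13_u_r_coe, FA_S13_u_r_coe, ← map_mul]
    rfl
  rw [h2, mul_eq_zero, FA_S13_u_r_eq_zero_iff, FA_S13_u_r_eq_zero_iff] at h1
  exact h1.elim h.1 h.2

lemma FA_S13_u_unit_of_mul {a b : K} (ha : a ∈ A) (hb : b ∈ A) (hab : a * b ∉ A.nonunits) :
    a ∉ A.nonunits ∧ b ∉ A.nonunits := by
  refine ⟨fun h => hab ?_, fun h => hab (FA_S13_u_nonunits_mul_left A ha h)⟩
  rw [mul_comm]
  exact FA_S13_u_nonunits_mul_left A hb h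

lemma FA_S13_u_unit_add {a m : K} (ha : a ∉ A.nonunits) (hm : m ∈ A.nonunits) :
    a + m ∉ A.nonunits := by
  intro h
  apply ha
  have := FA_S13_u_nonunits_add A h (FA_S13_u_nonunits_neg A hm)
  rwa [add_neg_cancel_right] at this

/-- For a point with nonsingular reduction, `x`, `y - αx`, `y - βx` are units. -/
theorem FA_S13_u_units (D : FA_S13_u_Data A W α β) {x y : K} (h : W.Equation x y)
    (hNS : FA_S13_u_NSc A W x y) :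
    x ∉ A.nonunits ∧ (y - α * x ∈ A ∧ y - α * x ∉ A.nonunits) ∧
      (y - β * x ∈ A ∧ y - β * x ∉ A.nonunits) := by
  obtain ⟨hx, hy, hns⟩ := hNS
  have e := (W.equation_iff x y).1 h
  rw [D.a1, D.a3, D.a6] at e
  have ha4 : W.a₄ ∈ A := ValuationSubring.nonunits_subset D.a4
  have n2 : (2 : K) ∈ A := ofNat_mem A 2
  have n3 : (3 : K) ∈ A := ofNat_mem A 3
  have hxu : x ∉ A.nonunits := by
    intro hxm
    have h1 : y * (y + x) ∈ A.nonunits := by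
      have : y * (y + x) = (x ^ 2 + W.a₂ * x + W.a₄) * x := by linear_combination e
      rw [this]
      exact FA_S13_u_nonunits_mul_left A
        (A.add_mem _ _ (A.add_mem _ _ (pow_mem hx 2) (A.mul_mem _ _ D.a2 hx)) ha4) hxm
    have hym : y ∈ A.nonunits := by
      rcases FA_S13_u_prime hy (A.add_mem _ _ hy hx) h1 with h2 | h2
      · exact h2
      · have := FA_S13_u_nonunits_add A h2 (FA_S13_u_nonunits_neg A hxm)
        rwa [add_neg_cancel_right] at this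
    rcases hns with h3 | h3
    · apply h3
      rw [evalEval_polynomialX, D.a1, one_mul]
      have : y - (3 * x ^ 2 + 2 * W.a₂ * x + W.a₄) =
          y + (-((3 * x + 2 * W.a₂) * x) + -W.a₄) := by ring
      rw [this]
      refine FA_S13_u_nonunits_add A hym (FA_S13_u_nonunits_add A (FA_S13_u_nonunits_neg A ?_)
        (FA_S13_u_nonunits_neg A D.a4))
      exact FA_S13_u_nonunits_mul_left A
        (A.add_mem _ _ (A.mul_mem _ _ n3 hx) (A.mul_mem _ _ n2 D.a2)) hxm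
    · apply h3
      rw [evalEval_polynomialY, D.a1, D.a3, add_zero, one_mul]
      exact FA_S13_u_nonunits_add A (FA_S13_u_nonunits_mul_left A n2 hym) hxm
  have hf := FA_S13_u_factor D.a1 D.a3 D.a6 D.sum D.prod h
  have hAα : y - α * x ∈ A := sub_mem hy (A.mul_mem _ _ D.hα hx)
  have hAβ : y - β * x ∈ A := sub_mem hy (A.mul_mem _ _ D.hβ hx)
  have hprod : (y - α * x) * (y - β * x) ∉ A.nonunits := by
    rw [hf]
    have : x ^ 3 + W.a₄ * x = x * (x ^ 2 + W.a₄) := by ring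
    rw [this]
    intro hm
    rcases FA_S13_u_prime hx (A.add_mem _ _ (pow_mem hx 2) ha4) hm with h4 | h4
    · exact hxu h4
    · have hx2 : x ^ 2 ∉ A.nonunits := by
        intro h5
        rw [pow_two] at h5
        exact (FA_S13_u_prime hx hx h5).elim hxu hxu
      exact FA_S13_u_unit_add hx2 D.a4 h4
  obtain ⟨h6, h7⟩ := FA_S13_u_unit_of_mul hAα hAβ hprod
  exact ⟨hxu, ⟨hAα, h6⟩, ⟨hAβ, h7⟩⟩

/-- `r` is additive on `A`. -/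
lemma FA_S13_u_r_sub_eq_zero {a b : K} (ha : a ∈ A) (hb : b ∈ A) (hab : a - b ∈ A.nonunits) :
    FA_S13_u_r A a = FA_S13_u_r A b := by
  have h1 := (FA_S13_u_r_eq_zero_iff A (⟨a, ha⟩ - ⟨b, hb⟩)).2 hab
  rw [FA_S13_u_r_coe, map_sub, sub_eq_zero] at h1
  rw [← FA_S13_u_r_coe A ⟨a, ha⟩, ← FA_S13_u_r_coe A ⟨b, hb⟩] at h1
  exact h1

lemma FA_S13_u_r_mul {a b : K} (ha : a ∈ A) (hb : b ∈ A) :
    FA_S13_u_r A (a * b) = FA_S13_u_r A a * FA_S13_u_r A b := by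
  have := map_mul (IsLocalRing.residue A) ⟨a, ha⟩ ⟨b, hb⟩
  rw [← FA_S13_u_r_coe, ← FA_S13_u_r_coe, ← FA_S13_u_r_coe] at this
  exact this

lemma FA_S13_u_r_neg {a : K} (ha : a ∈ A) : FA_S13_u_r A (-a) = -FA_S13_u_r A a := by
  have := map_neg (IsLocalRing.residue A) ⟨a, ha⟩
  rw [← FA_S13_u_r_coe, ← FA_S13_u_r_coe] at this
  exact this

lemma FA_S13_u_r_ne_zero {a : K} (ha : a ∈ A) (hu : a ∉ A.nonunits) : FA_S13_u_r A a ≠ 0 :=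
  fun h => hu ((FA_S13_u_r_eq_zero_iff A ⟨a, ha⟩).1 h)

/-- **Three collinear points**: `∏ res(y_i - αx_i) = ∏ res(y_i - βx_i)`. -/
theorem FA_S13_u_three (D : FA_S13_u_Data A W α β) {x₁ y₁ x₂ y₂ : K}
    (h₁ : W.Equation x₁ y₁) (h₂ : W.Equation x₂ y₂) (hxy : ¬(x₁ = x₂ ∧ y₁ = W.negY x₂ y₂))
    (hx₁ : x₁ ∈ A) (hy₁ : y₁ ∈ A) (hx₂ : x₂ ∈ A) (hy₂ : y₂ ∈ A)
    (hx₃ : W.addX x₁ x₂ (W.slope x₁ x₂ y₁ y₂) ∈ A)
    (hy₃ : W.negAddY x₁ x₂ y₁ (W.slope x₁ x₂ y₁ y₂) ∈ A) :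
    FA_S13_u_r A (y₁ - α * x₁) * FA_S13_u_r A (y₂ - α * x₂) *
        FA_S13_u_r A (W.negAddY x₁ x₂ y₁ (W.slope x₁ x₂ y₁ y₂) -
          α * W.addX x₁ x₂ (W.slope x₁ x₂ y₁ y₂)) =
      FA_S13_u_r A (y₁ - β * x₁) * FA_S13_u_r A (y₂ - β * x₂) *
        FA_S13_u_r A (W.negAddY x₁ x₂ y₁ (W.slope x₁ x₂ y₁ y₂) -
          β * W.addX x₁ x₂ (W.slope x₁ x₂ y₁ y₂)) := by
  obtain ⟨e₁, e₂, e₃⟩ := FA_S13_u_vieta D.a1 D.a3 D.a6 h₁ h₂ hxy
  have l₂ := FA_S13_u_line₂ h₁ h₂ hxy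
  have l₃ := FA_S13_u_line₃ (W := W) x₁ x₂ y₁ (W.slope x₁ x₂ y₁ y₂)
  set ℓ := W.slope x₁ x₂ y₁ y₂ with hℓ
  set x₃ := W.addX x₁ x₂ ℓ with hx₃def
  set y₃ := W.negAddY x₁ x₂ y₁ ℓ with hy₃def
  set ν := y₁ - ℓ * x₁ with hν
  have ha4 : W.a₄ ∈ A := ValuationSubring.nonunits_subset D.a4
  have hℓA : ℓ ∈ A := by
    apply FA_S13_u_mem_of_sq_add
    have : ℓ ^ 2 + ℓ = x₁ + x₂ + x₃ + W.a₂ := by linear_combination -e₁
    rw [this]
    exact A.add_mem _ _ (A.add_mem _ _ (A.add_mem _ _ hx₁ hx₂) hx₃) D.a2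
  have hνA : ν ∈ A := sub_mem hy₁ (A.mul_mem _ _ hℓA hx₁)
  have hαr : α ^ 2 + α = W.a₂ := by
    have h1 := D.sum
    have h2 := D.prod
    linear_combination α * h1 - h2
  have hβr : β ^ 2 + β = W.a₂ := by
    have h1 := D.sum
    have h2 := D.prod
    linear_combination β * h1 - h2
  have pα := FA_S13_u_prod_alg α W.a₂ W.a₄ x₁ x₂ x₃ ℓ ν hαr e₁ e₂ e₃
  have pβ := FA_S13_u_prod_alg β W.a₂ W.a₄ x₁ x₂ x₃ ℓ ν hβr e₁ e₂ e₃
  have q₁α : y₁ - α * x₁ = (ℓ - α) * x₁ + ν := by rw [hν]; ring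
  have q₂α : y₂ - α * x₂ = (ℓ - α) * x₂ + ν := by rw [l₂]; ring
  have q₃α : y₃ - α * x₃ = (ℓ - α) * x₃ + ν := by rw [l₃]; ring
  have q₁β : y₁ - β * x₁ = (ℓ - β) * x₁ + ν := by rw [hν]; ring
  have q₂β : y₂ - β * x₂ = (ℓ - β) * x₂ + ν := by rw [l₂]; ring
  have q₃β : y₃ - β * x₃ = (ℓ - β) * x₃ + ν := by rw [l₃]; ring
  have m₁α : y₁ - α * x₁ ∈ A := sub_mem hy₁ (A.mul_mem _ _ D.hα hx₁)
  have m₂α : y₂ - α * x₂ ∈ A := sub_mem hy₂ (A.mul_mem _ _ D.hα hx₂)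
  have m₃α : y₃ - α * x₃ ∈ A := sub_mem hy₃ (A.mul_mem _ _ D.hα hx₃)
  have m₁β : y₁ - β * x₁ ∈ A := sub_mem hy₁ (A.mul_mem _ _ D.hβ hx₁)
  have m₂β : y₂ - β * x₂ ∈ A := sub_mem hy₂ (A.mul_mem _ _ D.hβ hx₂)
  have m₃β : y₃ - β * x₃ ∈ A := sub_mem hy₃ (A.mul_mem _ _ D.hβ hx₃)
  rw [← FA_S13_u_r_mul m₁α m₂α, ← FA_S13_u_r_mul (A.mul_mem _ _ m₁α m₂α) m₃α,
    ← FA_S13_u_r_mul m₁β m₂β, ← FA_S13_u_r_mul (A.mul_mem _ _ m₁β m₂β) m₃β]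
  apply FA_S13_u_r_sub_eq_zero (A.mul_mem _ _ (A.mul_mem _ _ m₁α m₂α) m₃α)
    (A.mul_mem _ _ (A.mul_mem _ _ m₁β m₂β) m₃β)
  have hdiff : (y₁ - α * x₁) * (y₂ - α * x₂) * (y₃ - α * x₃) -
      (y₁ - β * x₁) * (y₂ - β * x₂) * (y₃ - β * x₃) =
      (((ℓ - α) ^ 2 - (ℓ - β) ^ 2) * ν) * W.a₄ := by
    rw [q₁α, q₂α, q₃α, q₁β, q₂β, q₃β, pα, pβ]
    ring
  rw [hdiff]
  refine FA_S13_u_nonunits_mul_left A (A.mul_mem _ _ (sub_mem (pow_mem (sub_mem hℓA D.hα) 2)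
    (pow_mem (sub_mem hℓA D.hβ) 2)) hνA) D.a4

end main

end Fermat.Agent.S13
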