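import Mathlib
import Fermat.Agent.S13.Interface2
import Fermat.Agent.S13.UMain
import Fermat.Agent.S05.KL

/-!
# S13 leaf u (lead): `FA_S13_u : FA_S13_Target_u`

A subgroup of `p`-torsion points with nonsingular reduction on `y² + xy = x³ + a₂x² + a₄x`
(multiplicative reduction, node at `(0,0)`, `p` a unit) has at most `p` elements: it embeds into
the `p`-th roots of unity of the residue field by `φ = res (y - αx) / res (y - βx)`.
-/

namespace Fermat.Agent.S13

open WeierstrassCurve WeierstrassCurve.Affine Polynomial Fermat.Agent.S05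

section final

variable {K : Type*} [Field K] [DecidableEq K] {A : ValuationSubring K}
  {W : WeierstrassCurve.Affine K} {α β : K}

/-- The map `φ`. -/
noncomputable def FA_S13_u_phi (A : ValuationSubring K) (α β : K) :
    W.Point → IsLocalRing.ResidueField A
  | .zero => 1
  | .some x y _ => FA_S13_u_r A (y - α * x) / FA_S13_u_r A (y - β * x)

lemma FA_S13_u_phi_zero : FA_S13_u_phi A α β (0 : W.Point) = 1 := rfl

lemma FA_S13_u_phi_some {x y : K} (h : W.Nonsingular x y) :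
    FA_S13_u_phi A α β (Point.some x y h) =
      FA_S13_u_r A (y - α * x) / FA_S13_u_r A (y - β * x) := rfl

/-- A point is "good" if it is `0` or has integral coordinates with nonsingular reduction. -/
def FA_S13_u_Good (A : ValuationSubring K) (P : W.Point) : Prop :=
  P = 0 ∨ FA_S05_NS A P

lemma FA_S13_u_Good_some {x y : K} {h : W.Nonsingular x y}
    (hG : FA_S13_u_Good A (Point.some x y h)) : FA_S13_u_NSc A W x y := by
  rcases hG with h0 | hNS
  · exact absurd h0 (Point.some_ne_zero h)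
  · exact (FA_S05_NS_some A h).1 hNS

/-- `φ` is multiplicative on good points with good sum. -/
theorem FA_S13_u_phi_add (D : FA_S13_u_Data A W α β) {P Q : W.Point}
    (hP : FA_S13_u_Good A P) (hQ : FA_S13_u_Good A Q) (hPQ : FA_S13_u_Good A (-(P + Q))) :
    FA_S13_u_phi A α β (P + Q) = FA_S13_u_phi A α β P * FA_S13_u_phi A α β Q := by
  rcases P with _ | ⟨x₁, y₁, h₁⟩
  · rw [← Point.zero_def, zero_add, FA_S13_u_phi_zero, one_mul]
  rcases Q with _ | ⟨x₂, y₂, h₂⟩
  · rw [← Point.zero_def, add_zero, FA_S13_u_phi_zero, mul_one]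
  have N₁ := FA_S13_u_Good_some hP
  have N₂ := FA_S13_u_Good_some hQ
  obtain ⟨ux₁, ⟨mα₁, uα₁⟩, ⟨mβ₁, uβ₁⟩⟩ := FA_S13_u_units D h₁.1 N₁
  obtain ⟨ux₂, ⟨mα₂, uα₂⟩, ⟨mβ₂, uβ₂⟩⟩ := FA_S13_u_units D h₂.1 N₂
  have hβα : (1 : K) + α = -β := by linear_combination D.sum
  have hαβ : (1 : K) + β = -α := by linear_combination D.sum
  by_cases hxy : x₁ = x₂ ∧ y₁ = W.negY x₂ y₂
  · -- `P + Q = 0`
    rw [Point.add_of_Y_eq hxy.1 hxy.2, FA_S13_u_phi_zero, FA_S13_u_phi_some, FA_S13_u_phi_some]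
    obtain ⟨rfl, hy⟩ := hxy
    have e1 : y₁ - α * x₁ = -(y₂ - β * x₁) := by
      rw [hy, negY, D.a1, D.a3]; linear_combination (-x₁) * hβα
    have e2 : y₁ - β * x₁ = -(y₂ - α * x₁) := by
      rw [hy, negY, D.a1, D.a3]; linear_combination (-x₁) * hαβ
    rw [e1, e2, FA_S13_u_r_neg mβ₂, FA_S13_u_r_neg mα₂]
    have n1 := FA_S13_u_r_ne_zero mα₂ uα₂
    have n2 := FA_S13_u_r_ne_zero mβ₂ uβ₂
    generalize FA_S13_u_r A (y₂ - α * x₁) = a at n1 ⊢
    generalize FA_S13_u_r A (y₂ - β * x₁) = b at n2 ⊢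
    field_simp
  · -- generic case
    have hsum : Point.some x₁ y₁ h₁ + Point.some x₂ y₂ h₂ =
        Point.some _ _ (nonsingular_add h₁ h₂ hxy) := Point.add_some hxy
    rw [hsum] at hPQ ⊢
    rw [Point.neg_some] at hPQ
    have N₃ := FA_S13_u_Good_some hPQ
    have hnn : W.negY (W.addX x₁ x₂ (W.slope x₁ x₂ y₁ y₂))
        (W.addY x₁ x₂ y₁ (W.slope x₁ x₂ y₁ y₂)) =
        W.negAddY x₁ x₂ y₁ (W.slope x₁ x₂ y₁ y₂) := by
      rw [addY, negY_negY]
    rw [hnn] at N₃
    have h₃ : W.Equation (W.addX x₁ x₂ (W.slope x₁ x₂ y₁ y₂))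
        (W.negAddY x₁ x₂ y₁ (W.slope x₁ x₂ y₁ y₂)) := equation_negAdd h₁.1 h₂.1 hxy
    obtain ⟨ux₃, ⟨mα₃, uα₃⟩, ⟨mβ₃, uβ₃⟩⟩ := FA_S13_u_units D h₃ N₃
    have key := FA_S13_u_three D h₁.1 h₂.1 hxy N₁.1 N₁.2.1 N₂.1 N₂.2.1 N₃.1 N₃.2.1
    rw [FA_S13_u_phi_some, FA_S13_u_phi_some, FA_S13_u_phi_some]
    set x₃ := W.addX x₁ x₂ (W.slope x₁ x₂ y₁ y₂) with hx₃
    set y₃ := W.negAddY x₁ x₂ y₁ (W.slope x₁ x₂ y₁ y₂) with hy₃
    have hY : W.addY x₁ x₂ y₁ (W.slope x₁ x₂ y₁ y₂) = -y₃ - x₃ := by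
      rw [addY, negY, D.a1, D.a3]; ring
    have e1 : W.addY x₁ x₂ y₁ (W.slope x₁ x₂ y₁ y₂) - α * x₃ = -(y₃ - β * x₃) := by
      rw [hY]; linear_combination (-x₃) * hβα
    have e2 : W.addY x₁ x₂ y₁ (W.slope x₁ x₂ y₁ y₂) - β * x₃ = -(y₃ - α * x₃) := by
      rw [hY]; linear_combination (-x₃) * hαβ
    rw [e1, e2, FA_S13_u_r_neg mβ₃, FA_S13_u_r_neg mα₃]
    have n1 := FA_S13_u_r_ne_zero mα₁ uα₁
    have n2 := FA_S13_u_r_ne_zero mβ₁ uβ₁
    have n3 := FA_S13_u_r_ne_zero mα₂ uα₂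
    have n4 := FA_S13_u_r_ne_zero mβ₂ uβ₂
    have n5 := FA_S13_u_r_ne_zero mα₃ uα₃
    have n6 := FA_S13_u_r_ne_zero mβ₃ uβ₃
    generalize FA_S13_u_r A (y₁ - α * x₁) = a₁ at n1 key ⊢
    generalize FA_S13_u_r A (y₁ - β * x₁) = b₁ at n2 key ⊢
    generalize FA_S13_u_r A (y₂ - α * x₂) = a₂ at n3 key ⊢
    generalize FA_S13_u_r A (y₂ - β * x₂) = b₂ at n4 key ⊢
    generalize FA_S13_u_r A (y₃ - α * x₃) = a₃ at n5 key ⊢
    generalize FA_S13_u_r A (y₃ - β * x₃) = b₃ at n6 key ⊢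
    field_simp
    linear_combination -key

/-- `φ P = 1` only for `P = 0` (among good points). -/
theorem FA_S13_u_phi_eq_one (D : FA_S13_u_Data A W α β) {P : W.Point}
    (hP : FA_S13_u_Good A P) (h1 : FA_S13_u_phi A α β P = 1) : P = 0 := by
  rcases P with _ | ⟨x, y, h⟩
  · rfl
  exfalso
  have N := FA_S13_u_Good_some hP
  obtain ⟨ux, ⟨mα, uα⟩, ⟨mβ, uβ⟩⟩ := FA_S13_u_units D h.1 N
  rw [FA_S13_u_phi_some, div_eq_one_iff_eq (FA_S13_u_r_ne_zero mβ uβ)] at h1
  -- `res (y - αx) = res (y - βx)` so `(β - α) x ∈ 𝔪`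
  have h2 : FA_S13_u_r A ((y - α * x) - (y - β * x)) = 0 := by
    have := map_sub (IsLocalRing.residue A) ⟨y - α * x, mα⟩ ⟨y - β * x, mβ⟩
    rw [← FA_S13_u_r_coe, ← FA_S13_u_r_coe, ← FA_S13_u_r_coe] at this
    rw [show ((⟨y - α * x, mα⟩ - ⟨y - β * x, mβ⟩ : A) : K) = (y - α * x) - (y - β * x) from rfl,
      h1, sub_self] at this
    exact this
  have h3 : (y - α * x) - (y - β * x) ∈ A.nonunits :=
    (FA_S13_u_r_eq_zero_iff A ⟨(y - α * x) - (y - β * x), sub_mem mα mβ⟩).1 h2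
  have h4 : (y - α * x) - (y - β * x) = -((α - β) * x) := by ring
  rw [h4] at h3
  have h5 := FA_S13_u_nonunits_neg A h3
  rw [neg_neg] at h5
  rcases FA_S13_u_prime (sub_mem D.hα D.hβ) N.1 h5 with h6 | h6
  · exact D.diff h6
  · exact ux h6

end final

/-- **WP-u**. -/
theorem FA_S13_u : FA_S13_Target_u := by
  intro K _ _ _ W A ha1 ha3 ha6 ha2 ha4 hdisc p hp hpu H hHp hH
  classical
  -- the tangent slopes at the node
  obtain ⟨α, hα⟩ : ∃ α : K, α ^ 2 + α - W.a₂ = 0 := by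
    have hdeg : (X ^ 2 + X - C W.a₂ : K[X]).degree ≠ 0 := by
      have : (X ^ 2 + X - C W.a₂ : K[X]).degree = 2 := by compute_degree!
      rw [this]; norm_num
    obtain ⟨α, hα⟩ := IsAlgClosed.exists_root _ hdeg
    refine ⟨α, ?_⟩
    simpa using hα
  have hαA : α ∈ A := by
    apply FA_S13_u_mem_of_sq_add
    have : α ^ 2 + α = W.a₂ := by linear_combination hα
    rw [this]; exact ha2
  have D : FA_S13_u_Data A W α (-1 - α) :=
    { a1 := ha1
      a3 := ha3
      a6 := ha6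
      a2 := ha2
      a4 := ha4
      hα := hαA
      hβ := sub_mem (neg_mem A.one_mem) hαA
      sum := by ring
      prod := by linear_combination -hα
      diff := by
        intro h
        apply hdisc
        have h2 : (1 : K) + 4 * W.a₂ = (α - (-1 - α)) * (α - (-1 - α)) := by
          linear_combination (-4 : K) * hα
        rw [h2]
        exact FA_S13_u_nonunits_mul_left A (ValuationSubring.nonunits_subset h) h }
  have hW : FA_S05_Integral A W :=
    ⟨by rw [ha1]; exact A.one_mem, ha2, by rw [ha3]; exact A.zero_mem,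
      ValuationSubring.nonunits_subset ha4, by rw [ha6]; exact A.zero_mem⟩
  have hGood : ∀ P ∈ H, FA_S13_u_Good A P := by
    intro P hP
    rcases hH P hP with h | h
    · exact Or.inl (FA_S05_KL A W hW p hpu P h (hHp P hP))
    · exact Or.inr h
  let f : H → IsLocalRing.ResidueField A := fun P => FA_S13_u_phi A α (-1 - α) (P : W.Point)
  have hadd : ∀ P Q : H, f (P + Q) = f P * f Q := fun P Q =>
    FA_S13_u_phi_add D (hGood _ P.2) (hGood _ Q.2) (hGood _ (H.neg_mem (H.add_mem P.2 Q.2)))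
  have hzero : f 0 = 1 := rfl
  have hnsmul : ∀ (n : ℕ) (P : H), f (n • P) = f P ^ n := by
    intro n P
    induction n with
    | zero => rw [zero_smul, pow_zero, hzero]
    | succ n ih => rw [succ_nsmul, hadd, ih, pow_succ]
  have hpow : ∀ P : H, f P ^ p = 1 := by
    intro P
    rw [← hnsmul]
    have : p • P = 0 := Subtype.ext (hHp P.1 P.2)
    rw [this, hzero]
  have hneg : ∀ P : H, f (-P) * f P = 1 := by
    intro P
    rw [← hadd, neg_add_cancel, hzero]
  have hinj : Function.Injective f := by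
    intro P Q h
    have h1 : f (P - Q) = 1 := by
      rw [sub_eq_add_neg, hadd, h, mul_comm]
      exact hneg Q
    have := FA_S13_u_phi_eq_one D (hGood _ (P - Q).2) h1
    exact sub_eq_zero.1 (Subtype.ext this)
  let g : H → (nthRootsFinset p (1 : IsLocalRing.ResidueField A)) := fun P =>
    ⟨f P, (mem_nthRootsFinset hp.pos 1).2 (hpow P)⟩
  have hg : Function.Injective g := fun P Q h => hinj (congrArg Subtype.val h)
  have : Finite H := Finite.of_injective g hg
  refine ⟨inferInstance, ?_⟩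
  calc Nat.card H ≤ Nat.card (nthRootsFinset p (1 : IsLocalRing.ResidueField A)) :=
        Nat.card_le_card_of_injective g hg
    _ = (nthRootsFinset p (1 : IsLocalRing.ResidueField A)).card := Nat.card_eq_finsetCard _
    _ ≤ p := by
        rw [nthRootsFinset_def]
        exact (Multiset.toFinset_card_le _).trans (card_nthRoots p 1)

end Fermat.Agent.S13
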