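import Fermat.Agent.S05
import Fermat.Agent.S13.TorsFrey
import Fermat.Agent.S13.C1
import Fermat.Agent.S13.C3
import Fermat.Agent.S13.MinkMain
import Fermat.Agent.S13.Place
import Fermat.Agent.S13.U
import Fermat.Agent.S13.Glue
import Fermat.Agent.S13.Card

/-!
# S13: assembly (helper9)

`FA_S13_statement_of`: the statement S13 from the three leaves at the prime `2`
(`b2`, `b3`, `lev`); everything else (`a`, `c1`, `c3`, `d`, `place`, `u`, `S05`, glue, card) is
proved.
-/

namespace Fermat.Agent.S13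

theorem FA_S13_S05 : FA_S13_Target_S05 :=
  fun P _ hq hq2 hqp => Fermat.Agent.S05.result P hq hq2 hqp

theorem FA_S13_statement_of (hb2 : FA_S13_Target_b2) (hb3 : FA_S13_Target_b3)
    (hlev : FA_S13_Target_lev) : FA_S13_Statement :=
  FA_S13_glue FA_S13_a (FA_S13_card_of FA_S13_u hlev FA_S13_place) hb2 hb3 FA_S13_c1 FA_S13_c3
    FA_S13_d FA_S13_place FA_S13_S05

end Fermat.Agent.S13
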