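import Fermat.Agent.S13.M2Type
import Fermat.Agent.S05.FreyMult

/-!
# S13: the Frey curve at the prime `2` (multiplicative reduction, node at `(0,0)`)
-/

namespace Fermat.Agent.S13

open WeierstrassCurve Fermat.Agent.S05
open scoped WeierstrassCurve.Affine

/-- `4 ∣ b^p - 1 - a^p`. -/
lemma FA_S13_frey_four_dvd (P : FreyPackage) : (4 : ℤ) ∣ P.b ^ P.p - 1 - P.a ^ P.p := by
  have hb : (2 : ℤ) ∣ P.b := (ZMod.intCast_zmod_eq_zero_iff_dvd P.b 2).mp P.hb2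
  obtain ⟨b₁, hb₁⟩ := hb
  have hp2 : 2 ≤ P.p := le_trans (by norm_num) P.hp5
  have h4b : (4 : ℤ) ∣ P.b ^ P.p := by
    obtain ⟨k, hk⟩ := Nat.exists_eq_add_of_le hp2
    refine ⟨b₁ ^ 2 * P.b ^ k, ?_⟩
    rw [hk, pow_add, hb₁]
    ring
  have h4a : (4 : ℤ) ∣ P.a ^ P.p + 1 := by
    have h5 : (((P.a ^ P.p + 1 : ℤ)) : ZMod 4) = 0 := by
      push_cast
      rw [P.ha4]
      have h3 : (3 : ZMod 4) = -1 := by decide
      rw [h3, P.hp_odd.neg_one_pow]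
      ring
    have h6 := (ZMod.intCast_zmod_eq_zero_iff_dvd (P.a ^ P.p + 1) 4).mp h5
    exact_mod_cast h6
  have : P.b ^ P.p - 1 - P.a ^ P.p = P.b ^ P.p - (P.a ^ P.p + 1) := by ring
  rw [this]
  exact dvd_sub h4b h4a

/-- `a` is odd. -/
lemma FA_S13_frey_a_odd (P : FreyPackage) : ¬ (2 : ℤ) ∣ P.a := by
  intro h
  obtain ⟨k, hk⟩ := h
  have h1 := P.ha4
  rw [hk] at h1
  push_cast at h1
  have : ∀ z : ZMod 4, (2 : ZMod 4) * z ≠ 3 := by decide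
  exact this _ h1

/-- `b = 2^t b'` with `b'` odd and `t ≥ 1`. -/
lemma FA_S13_frey_b_decomp (P : FreyPackage) :
    ∃ (t : ℕ) (b' : ℤ), 1 ≤ t ∧ ¬ (2 : ℤ) ∣ b' ∧ P.b = 2 ^ t * b' := by
  have hb0 : P.b.natAbs ≠ 0 := Int.natAbs_ne_zero.mpr P.hb0
  obtain ⟨t, m, hm, e⟩ := Nat.exists_eq_two_pow_mul_odd hb0
  have hb : (2 : ℤ) ∣ P.b := (ZMod.intCast_zmod_eq_zero_iff_dvd P.b 2).mp P.hb2
  have ht : 1 ≤ t := by
    by_contra h0
    have ht0 : t = 0 := by omega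
    rw [ht0, pow_zero, one_mul] at e
    have h2 : 2 ∣ P.b.natAbs := Int.natCast_dvd.mp (by simpa using hb)
    rw [e] at h2
    exact (Nat.not_even_iff_odd.mpr hm) (even_iff_two_dvd.mpr h2)
  have hm2 : ¬ (2 : ℤ) ∣ (m : ℤ) := by
    intro h
    have : 2 ∣ m := by exact_mod_cast h
    exact (Nat.not_even_iff_odd.mpr hm) (even_iff_two_dvd.mpr this)
  rcases Int.natAbs_eq P.b with h | h
  · refine ⟨t, m, ht, hm2, ?_⟩
    rw [h, e]
    push_cast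
    ring
  · refine ⟨t, -m, ht, ?_, ?_⟩
    · rwa [dvd_neg]
    · rw [h, e]
      push_cast
      ring

variable {K : Type*} [Field K]

/-- Odd integers are units at `2`. -/
lemma FA_S13_frey_v_odd (A : ValuationSubring K) (hA : ((2 : ℕ) : K) ∈ A.nonunits) (n : ℤ)
    (hn : ¬ (2 : ℤ) ∣ n) : A.valuation (n : K) = 1 :=
  FA_S05_m_v_int_eq_one A Nat.prime_two hA n (by exact_mod_cast hn)

lemma FA_S13_frey_v_two_lt (A : ValuationSubring K) (hA : ((2 : ℕ) : K) ∈ A.nonunits) :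
    A.valuation (2 : K) < 1 := by
  have := A.mem_nonunits_iff.mp hA
  simpa using this

lemma FA_S13_frey_v_two_ne (A : ValuationSubring K) [CharZero K] :
    A.valuation (2 : K) ≠ 0 :=
  (Valuation.ne_zero_iff _).2 two_ne_zero

variable [Algebra ℚ K]

/-- The valuation of `a₄` of the Frey curve at `2`. -/
theorem FA_S13_frey_v_a4 [CharZero K] (P : FreyPackage) (A : ValuationSubring K)
    (hA : ((2 : ℕ) : K) ∈ A.nonunits) :
    ∃ t : ℕ, 1 ≤ t ∧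
      A.valuation (P.freyCurve⁄K).a₄ = A.valuation (2 : K) ^ ((P.p : ℤ) * t - 4) := by
  obtain ⟨t, b', ht, hb', e⟩ := FA_S13_frey_b_decomp P
  refine ⟨t, ht, ?_⟩
  have h20 := FA_S13_frey_v_two_ne A
  have ha : A.valuation ((P.a : ℤ) : K) = 1 := FA_S13_frey_v_odd A hA _ (FA_S13_frey_a_odd P)
  have hb : A.valuation ((b' : ℤ) : K) = 1 := FA_S13_frey_v_odd A hA _ hb'
  have hcast : ((-(P.a ^ P.p) * (P.b ^ P.p) : ℤ) : K)
      = -(((P.a : ℤ) : K) ^ P.p) * (((2 : K) ^ t) ^ P.p * ((b' : ℤ) : K) ^ P.p) := by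
    rw [e]
    push_cast
    ring
  rw [FA_S05_frey_a₄, hcast]
  simp only [map_mul, map_pow, Valuation.map_neg, map_inv₀, ha, hb, one_pow, mul_one, one_mul]
  rw [zpow_sub₀ h20, zpow_mul, zpow_natCast, zpow_natCast, ← pow_mul, ← pow_mul, mul_comm t P.p,
    div_eq_mul_inv, inv_pow]
  norm_cast

/-- The Frey curve has multiplicative reduction at `2` with the node at `(0,0)`. -/
theorem FA_S13_frey_m2Mult [CharZero K] (P : FreyPackage) (A : ValuationSubring K)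
    (hA : ((2 : ℕ) : K) ∈ A.nonunits) :
    FA_S13_m2Mult (P.freyCurve⁄K) A.valuation := by
  have h2lt := FA_S13_frey_v_two_lt A hA
  have h20 := FA_S13_frey_v_two_ne A
  refine ⟨⟨FA_S05_frey_a₁ P, FA_S05_frey_a₃ P, FA_S05_frey_a₆ P⟩, ?_, ?_, ?_, h2lt.le, ?_⟩
  · -- a₂ ∈ A
    obtain ⟨n, hn⟩ := FA_S13_frey_four_dvd P
    rw [FA_S05_frey_a₂, hn]
    have : (((4 * n : ℤ) : K)) * (2 : K)⁻¹ ^ 2 = (n : K) := by
      push_cast
      field_simp
      ring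
    rw [this, A.valuation_le_one_iff]
    exact intCast_mem A n
  · -- v a₄ < 1
    obtain ⟨t, ht, e⟩ := FA_S13_frey_v_a4 P A hA
    rw [e]
    have hpos : (0 : ℤ) < (P.p : ℤ) * t - 4 := by
      have h5 : (5 : ℤ) ≤ P.p := by exact_mod_cast P.hp5
      have ht' : (1 : ℤ) ≤ t := by exact_mod_cast ht
      nlinarith
    obtain ⟨k, hk⟩ := Int.eq_ofNat_of_zero_le hpos.le
    rw [hk, zpow_natCast]
    exact pow_lt_one₀ zero_le h2lt (by omega)
  · -- a₄ ≠ 0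
    rw [FA_S05_frey_a₄]
    refine mul_ne_zero ?_ (pow_ne_zero _ (inv_ne_zero two_ne_zero))
    have : -(P.a ^ P.p) * P.b ^ P.p ≠ 0 :=
      mul_ne_zero (neg_ne_zero.mpr (pow_ne_zero _ P.ha0)) (pow_ne_zero _ P.hb0)
    exact_mod_cast this
  · -- v (1 + 4 a₂) = 1
    rw [FA_S05_frey_a₂]
    have : (1 : K) + 4 * (((P.b ^ P.p - 1 - P.a ^ P.p : ℤ) : K) * (2 : K)⁻¹ ^ 2)
        = ((P.b ^ P.p - P.a ^ P.p : ℤ) : K) := by
      push_cast
      field_simp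
      ring
    rw [this]
    apply FA_S13_frey_v_odd A hA
    intro h
    have hb : (2 : ℤ) ∣ P.b := (ZMod.intCast_zmod_eq_zero_iff_dvd P.b 2).mp P.hb2
    have hbp : (2 : ℤ) ∣ P.b ^ P.p := dvd_pow hb P.hp0
    have hap : (2 : ℤ) ∣ P.a ^ P.p := by
      have := dvd_sub hbp h
      simpa using this
    exact FA_S13_frey_a_odd P (Int.prime_two.dvd_of_dvd_pow hap)

end Fermat.Agent.S13
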