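import Fermat.Agent.S13.M2Gal
import Fermat.Agent.S13.M2Frey
import Fermat.Agent.S13.Interface3

/-!
# S13: WP-lev and WP-b2 (the prime `2`)

`V₀ := V ∩ E₀(A)` for a valuation subring `A` of `ℚ̄` over `2`.
* `FA_S13_lev`: `V₀` has at most `p` cosets in `V`.
* `FA_S13_b2`: inertia at `2` fixes `V₀` pointwise and `(σ - 1) V ⊆ V₀`.
-/

set_option autoImplicit false

namespace Fermat.Agent.S13

open WeierstrassCurve WeierstrassCurve.Affine WeierstrassCurve.Affine.Point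
open Fermat.Agent.S05

/-- A root of `t² + t = a` in `ℚ̄`. -/
lemma FA_S13_lev_exists_root (a : FA_S13_Qb) : ∃ α : FA_S13_Qb, α ^ 2 + α = a := by
  have hdeg : (Polynomial.X ^ 2 + Polynomial.X - Polynomial.C a : Polynomial FA_S13_Qb).natDegree
      = 2 := by
    compute_degree!
  obtain ⟨α, hα⟩ := IsAlgClosed.exists_root
    (Polynomial.X ^ 2 + Polynomial.X - Polynomial.C a : Polynomial FA_S13_Qb)
    (Polynomial.degree_ne_of_natDegree_ne (by rw [hdeg]; norm_num))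
  refine ⟨α, ?_⟩
  simp only [Polynomial.IsRoot, Polynomial.eval_sub, Polynomial.eval_add, Polynomial.eval_pow,
    Polynomial.eval_X, Polynomial.eval_C] at hα
  linear_combination hα

/-- Points of `V` are killed by `p`. -/
lemma FA_S13_lev_torsion (P : FreyPackage) (x : FA_S13_V P) :
    P.p • (x : (FA_S13_E P).Point) = 0 := by
  have h := x.2
  rw [Submodule.mem_torsionBy_iff] at h
  rw [← h]
  exact (natCast_zsmul _ P.p).symm

/-- `V₀ = V ∩ E₀(A)`. -/
noncomputable def FA_S13_V0 (P : FreyPackage) (A : ValuationSubring FA_S13_Qb)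
    (hA : A.LiesOverPrime 2) : AddSubgroup (FA_S13_V P) :=
  (FA_S13_m2E0 (FA_S13_frey_m2Mult P A hA)).comap
    (Submodule.torsionBy ℤ (FA_S13_E P).Point P.p).subtype.toAddMonoidHom

lemma FA_S13_mem_V0 (P : FreyPackage) (A : ValuationSubring FA_S13_Qb)
    (hA : A.LiesOverPrime 2) (x : FA_S13_V P) :
    x ∈ FA_S13_V0 P A hA ↔
      (x : (FA_S13_E P).Point) ∈ FA_S13_m2E0 (FA_S13_frey_m2Mult P A hA) :=
  Iff.rfl

lemma FA_S13_V0_E1_or_NS (P : FreyPackage) (A : ValuationSubring FA_S13_Qb)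
    (hA : A.LiesOverPrime 2) (x : FA_S13_V P) (hx : x ∈ FA_S13_V0 P A hA) :
    FA_S05_E1 A (x : (FA_S13_E P).Point) ∨ FA_S05_NS A (x : (FA_S13_E P).Point) :=
  FA_S13_m2_E1_or_NS (FA_S13_frey_m2Mult P A hA) _ hx

/-- **WP-lev**. -/
theorem FA_S13_lev : FA_S13_Target_lev := by
  intro P A hA
  refine ⟨FA_S13_V0 P A hA, FA_S13_V0_E1_or_NS P A hA, ?_⟩
  intro s hs
  obtain ⟨α, hα⟩ := FA_S13_lev_exists_root (FA_S13_E P).a₂
  have hinj : Function.Injective (fun x : FA_S13_V P => (x : (FA_S13_E P).Point)) :=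
    Subtype.val_injective
  rw [← Finset.card_image_of_injective s hinj]
  refine FA_S13_m2_lev (FA_S13_frey_m2Mult P A hA) P.hp_odd hα _ ?_ ?_
  · intro Q hQ
    obtain ⟨x, -, rfl⟩ := Finset.mem_image.1 hQ
    exact FA_S13_lev_torsion P x
  · intro Q hQ Q' hQ' hsub
    obtain ⟨x, hx, rfl⟩ := Finset.mem_image.1 hQ
    obtain ⟨y, hy, rfl⟩ := Finset.mem_image.1 hQ'
    have : x = y := hs x hx y hy hsub
    rw [this]

/-- **WP-b2**. -/
theorem FA_S13_b2 : FA_S13_Target_b2 := by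
  intro P A hA
  refine ⟨FA_S13_V0 P A hA, ?_⟩
  intro σ hσ
  have hW := FA_S13_frey_m2Mult P A hA
  have hpu : ((P.p : ℕ) : FA_S13_Qb) ∉ A.nonunits := by
    rw [FA_S05_natCast_mem_nonunits_iff A Nat.prime_two hA]
    intro h2
    exact (Nat.not_even_iff_odd.mpr P.hp_odd) (even_iff_two_dvd.mpr h2)
  constructor
  · intro x hx
    apply Subtype.ext
    exact FA_S05_fixed_of_E1_or_NS P.freyCurve A (FA_S13_m2_integral hW) P.p hpu σ hσ _
      (FA_S13_V0_E1_or_NS P A hA x hx) (FA_S13_lev_torsion P x)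
  · intro x
    obtain ⟨α, hα⟩ := FA_S13_lev_exists_root (FA_S13_E P).a₂
    exact FA_S13_m2_inertia_sub P.freyCurve A hW σ hσ hα P.p P.hp_odd _ (FA_S13_lev_torsion P x)

end Fermat.Agent.S13
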