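import Mathlib

/-!
# S13 card, abstract counting (helper9)
-/

namespace Fermat.Agent.S13

/-- If a subgroup `V₀` has at most `m` elements and every set of pairwise incongruent elements
modulo `V₀` has at most `n` elements, then the group has at most `n * m` elements. -/
theorem FA_S13_card_abs {V : Type*} [AddCommGroup V] (V₀ : AddSubgroup V) (n m : ℕ)
    [Finite V₀] (h₀ : Nat.card V₀ ≤ m)
    (hcos : ∀ s : Finset V, (∀ x ∈ s, ∀ y ∈ s, x - y ∈ V₀ → x = y) → s.card ≤ n) :
    Finite V ∧ Nat.card V ≤ n * m := by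
  classical
  have hQ : ∀ t : Finset (V ⧸ V₀), t.card ≤ n := by
    intro t
    have hinj : Function.Injective (Quotient.out : V ⧸ V₀ → V) := Quotient.out_injective
    have hcard : (t.image (Quotient.out : V ⧸ V₀ → V)).card = t.card :=
      Finset.card_image_of_injective t hinj
    rw [← hcard]
    apply hcos
    intro x hx y hy hxy
    obtain ⟨a, -, rfl⟩ := Finset.mem_image.mp hx
    obtain ⟨b, -, rfl⟩ := Finset.mem_image.mp hy
    have h1 : ((Quotient.out a : V) : V ⧸ V₀) = ((Quotient.out b : V) : V ⧸ V₀) := by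
      rw [QuotientAddGroup.eq]
      have : -Quotient.out a + Quotient.out b = -(Quotient.out a - Quotient.out b) := by abel
      rw [this]
      exact V₀.neg_mem hxy
    have h2 : ∀ c : V ⧸ V₀, ((Quotient.out c : V) : V ⧸ V₀) = c := fun c => Quotient.out_eq c
    rw [h2, h2] at h1
    rw [h1]
  haveI : Fintype (V ⧸ V₀) := fintypeOfFinsetCardLe n hQ
  have hQcard : Nat.card (V ⧸ V₀) ≤ n := by
    rw [Nat.card_eq_fintype_card]
    exact hQ Finset.univ
  have e := AddSubgroup.addGroupEquivQuotientProdAddSubgroup (s := V₀)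
  haveI : Finite ((V ⧸ V₀) × V₀) := inferInstance
  have hfin : Finite V := Finite.of_equiv _ e.symm
  refine ⟨hfin, ?_⟩
  rw [AddSubgroup.card_eq_card_quotient_mul_card_addSubgroup V₀]
  exact Nat.mul_le_mul hQcard h₀

end Fermat.Agent.S13
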