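import Fermat.Agent.S13.Interface3
import Fermat.Agent.S05.FreyGood

/-!
# S13: `card` from `u`, `lev` and `place` (helper7)

`|V| = |V₀| · |V / V₀| ≤ p · p`, where `V₀ = V ∩ E₀(A)` for a valuation subring `A` over `2`:
`|V₀| ≤ p` is leaf `u` applied to the Frey curve at `2`, `|V / V₀| ≤ p` is leaf `lev`.
-/

namespace Fermat.Agent.S13

open WeierstrassCurve WeierstrassCurve.Affine WeierstrassCurve.Affine.Point
open Fermat.Agent.S05

/-- A type all of whose finite subsets have at most `n` elements is finite of cardinality at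
most `n`. -/
lemma FA_S13_cardof_finite_of_finset {α : Type*} (n : ℕ)
    (h : ∀ s : Finset α, s.card ≤ n) : Finite α ∧ Nat.card α ≤ n := by
  have hfin : Finite α := by
    by_contra hinf
    rw [not_finite_iff_infinite] at hinf
    obtain ⟨s, hs⟩ := Infinite.exists_subset_card_eq α (n + 1)
    have := h s
    omega
  refine ⟨hfin, ?_⟩
  have := Fintype.ofFinite α
  rw [Nat.card_eq_fintype_card, ← Finset.card_univ]
  exact h _

/-- The quotient by a subgroup `V₀` such that every finite set of pairwise incongruent elements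
has at most `n` elements is finite of cardinality at most `n`. -/
lemma FA_S13_cardof_quotient {V : Type*} [AddCommGroup V] (V₀ : AddSubgroup V) (n : ℕ)
    (h : ∀ s : Finset V, (∀ x ∈ s, ∀ y ∈ s, x - y ∈ V₀ → x = y) → s.card ≤ n) :
    Finite (V ⧸ V₀) ∧ Nat.card (V ⧸ V₀) ≤ n := by
  classical
  apply FA_S13_cardof_finite_of_finset
  intro t
  have hinj : Function.Injective (Quotient.out : V ⧸ V₀ → V) := Quotient.out_injective
  have h1 := h (t.image Quotient.out) (by
    intro x hx y hy hxy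
    rw [Finset.mem_image] at hx hy
    obtain ⟨a, -, rfl⟩ := hx
    obtain ⟨b, -, rfl⟩ := hy
    have hab : a = b := by
      have e : ((Quotient.out a : V) : V ⧸ V₀) = ((Quotient.out b : V) : V ⧸ V₀) := by
        rw [QuotientAddGroup.eq]
        have : -(Quotient.out a : V) + Quotient.out b = -(Quotient.out a - Quotient.out b) := by
          abel
        rw [this]
        exact V₀.neg_mem hxy
      have ea : ((Quotient.out a : V) : V ⧸ V₀) = a := Quotient.out_eq a
      have eb : ((Quotient.out b : V) : V ⧸ V₀) = b := Quotient.out_eq b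
      rw [ea, eb] at e
      exact e
    rw [hab])
  rwa [Finset.card_image_of_injective _ hinj] at h1

/-- `|V| ≤ |V₀| · |V / V₀|`. -/
lemma FA_S13_cardof_mul {V : Type*} [AddCommGroup V] (V₀ : AddSubgroup V) (m n : ℕ)
    (h0 : Finite V₀ ∧ Nat.card V₀ ≤ m) (hq : Finite (V ⧸ V₀) ∧ Nat.card (V ⧸ V₀) ≤ n) :
    Finite V ∧ Nat.card V ≤ m * n := by
  have := h0.1
  have := hq.1
  have hfin : Finite V := Finite.of_equiv _ (AddSubgroup.addGroupEquivQuotientProdAddSubgroup
    (s := V₀)).symm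
  refine ⟨hfin, ?_⟩
  rw [AddSubgroup.card_eq_card_quotient_mul_card_addSubgroup V₀, mul_comm]
  exact Nat.mul_le_mul h0.2 hq.2

section frey2

variable {K : Type*} [Field K] [Algebra ℚ K]

/-- `4 ∣ bᵖ - 1 - aᵖ`. -/
lemma FA_S13_cardof_four_dvd (P : FreyPackage) : (4 : ℤ) ∣ P.b ^ P.p - 1 - P.a ^ P.p := by
  have ha : (P.a : ZMod 4) = 3 := P.ha4
  have hb : (2 : ℤ) ∣ P.b := by
    have := P.hb2
    rwa [ZMod.intCast_zmod_eq_zero_iff_dvd] at this
  have hp5 := P.hp5
  obtain ⟨k, hk⟩ := P.hp_odd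
  have hb4 : (4 : ℤ) ∣ P.b ^ P.p := by
    obtain ⟨m, hm⟩ := hb
    have : P.p = 2 + (P.p - 2) := by omega
    rw [this, pow_add, hm]
    exact Dvd.intro (m ^ 2 * (2 * m) ^ (P.p - 2)) (by ring)
  have ha4 : (4 : ℤ) ∣ 1 + P.a ^ P.p := by
    have h4 : ((4 : ℕ) : ℤ) ∣ 1 + P.a ^ P.p := by
      rw [← ZMod.intCast_zmod_eq_zero_iff_dvd]
      push_cast
      rw [ha, hk, pow_succ, pow_mul]
      have h9 : (3 : ZMod 4) ^ 2 = 1 := by decide
      rw [h9, one_pow]
      decide
    exact_mod_cast h4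
  have : P.b ^ P.p - 1 - P.a ^ P.p = P.b ^ P.p - (1 + P.a ^ P.p) := by ring
  rw [this]
  exact dvd_sub hb4 ha4

/-- `32 ∣ bᵖ`. -/
lemma FA_S13_cardof_32_dvd (P : FreyPackage) : (32 : ℤ) ∣ P.b ^ P.p := by
  have hb : (2 : ℤ) ∣ P.b := by
    have := P.hb2
    rwa [ZMod.intCast_zmod_eq_zero_iff_dvd] at this
  have hp5 := P.hp5
  obtain ⟨m, hm⟩ := hb
  have : P.p = 5 + (P.p - 5) := by omega
  rw [this, pow_add, hm]
  exact Dvd.intro (m ^ 5 * (2 * m) ^ (P.p - 5)) (by ring)

/-- `a` is odd. -/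
lemma FA_S13_cardof_a_odd (P : FreyPackage) : ¬ (2 : ℤ) ∣ P.a := by
  intro h
  obtain ⟨m, hm⟩ := h
  have ha : (P.a : ZMod 4) = 3 := P.ha4
  rw [hm] at ha
  push_cast at ha
  have : ∀ z : ZMod 4, (2 : ZMod 4) * z ≠ 3 := by decide
  exact this _ ha

/-- The shape of the Frey curve at a valuation subring over `2`. -/
theorem FA_S13_cardof_shape (P : FreyPackage) (A : ValuationSubring K)
    (hA : ((2 : ℕ) : K) ∈ A.nonunits) :
    (P.freyCurve⁄K).a₁ = 1 ∧ (P.freyCurve⁄K).a₃ = 0 ∧ (P.freyCurve⁄K).a₆ = 0 ∧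
      (P.freyCurve⁄K).a₂ ∈ A ∧ (P.freyCurve⁄K).a₄ ∈ A.nonunits ∧
      (1 + 4 * (P.freyCurve⁄K).a₂) ∉ A.nonunits ∧ ((P.p : ℕ) : K) ∉ A.nonunits := by
  have hch : CharZero K := algebraRat.charZero K
  have h2 : (2 : K) ∈ A.nonunits := by simpa using hA
  refine ⟨FA_S05_frey_a₁ P, FA_S05_frey_a₃ P, FA_S05_frey_a₆ P, ?_, ?_, ?_, ?_⟩
  · obtain ⟨m, hm⟩ := FA_S13_cardof_four_dvd P
    rw [FA_S05_frey_a₂, hm]
    have : ((4 * m : ℤ) : K) * (2 : K)⁻¹ ^ 2 = (m : K) := by
      push_cast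
      field_simp
      ring
    rw [this]
    exact intCast_mem A m
  · obtain ⟨m, hm⟩ := FA_S13_cardof_32_dvd P
    rw [FA_S05_frey_a₄]
    have : ((-(P.a ^ P.p) * (P.b ^ P.p) : ℤ) : K) * (2 : K)⁻¹ ^ 4 =
        ((-(P.a ^ P.p) * m : ℤ) : K) * 2 := by
      rw [hm]
      push_cast
      field_simp
      ring
    rw [this, A.mem_nonunits_iff, map_mul]
    rw [A.mem_nonunits_iff] at h2
    exact lt_of_le_of_lt (mul_le_of_le_one_left zero_le
      ((A.valuation_le_one_iff _).mpr (intCast_mem A _))) h2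
  · have e : 1 + 4 * (P.freyCurve⁄K).a₂ = ((P.b ^ P.p - P.a ^ P.p : ℤ) : K) := by
      rw [FA_S05_frey_a₂]
      push_cast
      field_simp
      ring
    rw [e, FA_S05_intCast_mem_nonunits_iff A Nat.prime_two hA]
    intro h
    have hb : (2 : ℤ) ∣ P.b := by
      have := P.hb2
      rwa [ZMod.intCast_zmod_eq_zero_iff_dvd] at this
    have h3 : ((2 : ℕ) : ℤ) ∣ P.a ^ P.p := by
      have h4 : ((2 : ℕ) : ℤ) ∣ P.b ^ P.p := dvd_pow (by exact_mod_cast hb) P.hp0
      have := dvd_sub h4 h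
      simpa using this
    exact FA_S13_cardof_a_odd P (by
      have := Int.Prime.dvd_pow' Nat.prime_two h3
      exact_mod_cast this)
  · rw [FA_S05_natCast_mem_nonunits_iff A Nat.prime_two hA]
    intro h
    have := (Nat.prime_dvd_prime_iff_eq Nat.prime_two P.pp).mp h
    have := P.hp5
    omega

end frey2

/-- `card` from `u`, `lev` and `place`. -/
theorem FA_S13_cardof : FA_S13_Target_card_of := by
  intro hu hlev hplace P
  obtain ⟨A, hA⟩ := hplace 2 Nat.prime_two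
  obtain ⟨V₀, hV₀, hidx⟩ := hlev P A hA
  obtain ⟨s1, s3, s6, s2, s4, sd, sp⟩ := FA_S13_cardof_shape (K := FA_S13_Qb) P A hA
  -- the image of `V₀` in the group of points
  let ι : FA_S13_V P →+ (FA_S13_E P).Point :=
    (Submodule.torsionBy ℤ (FA_S13_E P).Point P.p).subtype.toAddMonoidHom
  have hι : Function.Injective ι := Subtype.val_injective
  have hH := hu FA_S13_Qb (FA_S13_E P) A s1 s3 s6 s2 s4 sd P.p P.pp sp (V₀.map ι)
    (by
      rintro Q ⟨x, -, rfl⟩
      have hx := x.2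
      rw [Submodule.mem_torsionBy_iff] at hx
      rw [← hx]
      exact (natCast_zsmul _ P.p).symm)
    (by
      rintro Q ⟨x, hx, rfl⟩
      exact hV₀ x hx)
  have e : V₀ ≃ V₀.map ι := (AddSubgroup.equivMapOfInjective V₀ ι hι).toEquiv
  have h0 : Finite V₀ ∧ Nat.card V₀ ≤ P.p := by
    have := hH.1
    exact ⟨Finite.of_equiv _ e.symm, (Nat.card_congr e).trans_le hH.2⟩
  have hq := FA_S13_cardof_quotient V₀ P.p hidx
  have := FA_S13_cardof_mul V₀ P.p P.p h0 hq
  rwa [← pow_two] at this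

end Fermat.Agent.S13
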