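import Mathlib

/-!
# S13 glue, abstract part (helper9)

`V` a `ZMod p`-vector space with at most `p²` elements and an action of a group `G`, `N` a
`G`-stable line. If the "inertia" sets `I₂` (unipotent with respect to a subgroup `V₀`) and `Ip`
(moving `V` into a subgroup `V₁` which is contained in every nonzero stable subspace it
contains) together with the pointwise stabiliser of `V` generate `G` normally, and `G` fixes no
nonzero vector, then `G` acts trivially on `V / N`.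
-/

set_option linter.unusedSectionVars false

namespace Fermat.Agent.S13

section linalg

variable {p : ℕ} [Fact p.Prime] {V : Type*} [AddCommGroup V] [Module (ZMod p) V] [Finite V]

lemma FA_S13_glue_finrank (hcard : Nat.card V ≤ p ^ 2) (N : Submodule (ZMod p) V)
    (hN0 : N ≠ ⊥) (hN1 : N ≠ ⊤) :
    Module.finrank (ZMod p) N = 1 ∧ Module.finrank (ZMod p) V = 2 := by
  have hp : 1 < p := (Fact.out : p.Prime).one_lt
  have h1 : Nat.card V = p ^ Module.finrank (ZMod p) V := by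
    rw [Module.natCard_eq_pow_finrank (K := ZMod p) (V := V), Nat.card_zmod]
  rw [h1] at hcard
  have hd : Module.finrank (ZMod p) V ≤ 2 := (Nat.pow_le_pow_iff_right hp).mp hcard
  have hlt : Module.finrank (ZMod p) N < Module.finrank (ZMod p) V := Submodule.finrank_lt hN1
  have hpos : 0 < Module.finrank (ZMod p) N := by
    rw [Module.finrank_pos_iff (R := ZMod p)]
    exact (Submodule.nontrivial_iff_ne_bot).mpr hN0
  omega

/-- A submodule of a line is `⊥` or the line. -/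
lemma FA_S13_glue_le_line {N M : Submodule (ZMod p) V}
    (hN : Module.finrank (ZMod p) N = 1) (hle : M ≤ N) : M = ⊥ ∨ M = N := by
  have h1 : Module.finrank (ZMod p) M ≤ Module.finrank (ZMod p) N :=
    Submodule.finrank_mono hle
  rw [hN] at h1
  rcases Nat.eq_zero_or_pos (n := Module.finrank (ZMod p) M) with h0 | h0
  · left
    exact Submodule.finrank_eq_zero.mp h0
  · right
    exact Submodule.eq_of_le_of_finrank_eq hle (by omega)

/-- A submodule containing a line in a plane is the line or the plane. -/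
lemma FA_S13_glue_line_le {N M : Submodule (ZMod p) V}
    (hN : Module.finrank (ZMod p) N = 1) (hV : Module.finrank (ZMod p) V = 2) (hle : N ≤ M) :
    M = N ∨ M = ⊤ := by
  have h1 : Module.finrank (ZMod p) N ≤ Module.finrank (ZMod p) M :=
    Submodule.finrank_mono hle
  have h2 : Module.finrank (ZMod p) M ≤ Module.finrank (ZMod p) V := Submodule.finrank_le M
  rw [hN] at h1
  rw [hV] at h2
  rcases Nat.lt_or_ge (Module.finrank (ZMod p) M) 2 with h | h
  · left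
    exact (Submodule.eq_of_le_of_finrank_eq hle (by omega)).symm
  · right
    exact Submodule.eq_top_of_finrank_eq (by omega)

end linalg

section main

variable {p : ℕ} [Fact p.Prime] {G V : Type*} [Group G] [AddCommGroup V] [Module (ZMod p) V]
  [DistribMulAction G V] [Finite V]

/-- The subgroup fixing `N` pointwise. -/
def FA_S13_glue_H₁ (N : Submodule (ZMod p) V) : Subgroup G where
  carrier := {σ | ∀ x ∈ N, σ • x = x}
  one_mem' := fun x _ => one_smul G x
  mul_mem' := by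
    intro σ τ hσ hτ x hx
    have hσ' : ∀ x ∈ N, σ • x = x := hσ
    have hτ' : ∀ x ∈ N, τ • x = x := hτ
    rw [mul_smul, hτ' x hx, hσ' x hx]
  inv_mem' := by
    intro σ hσ x hx
    have hσ' : ∀ x ∈ N, σ • x = x := hσ
    calc σ⁻¹ • x = σ⁻¹ • (σ • x) := by rw [hσ' x hx]
      _ = x := inv_smul_smul σ x

/-- The subgroup acting trivially on `V / N`. -/
def FA_S13_glue_H₂ (N : Submodule (ZMod p) V) (hN : ∀ σ : G, ∀ x ∈ N, σ • x ∈ N) :
    Subgroup G where
  carrier := {σ | ∀ x : V, σ • x - x ∈ N}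
  one_mem' := fun x => by rw [one_smul, sub_self]; exact N.zero_mem
  mul_mem' := by
    intro σ τ hσ hτ x
    have hσ' : ∀ x : V, σ • x - x ∈ N := hσ
    have hτ' : ∀ x : V, τ • x - x ∈ N := hτ
    have e : (σ * τ) • x - x = (σ • (τ • x) - τ • x) + (τ • x - x) := by
      rw [mul_smul]; abel
    rw [e]
    exact N.add_mem (hσ' _) (hτ' _)
  inv_mem' := by
    intro σ hσ x
    have hσ' : ∀ x : V, σ • x - x ∈ N := hσ
    have e : σ⁻¹ • x - x = -(σ⁻¹ • (σ • x - x)) := by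
      rw [smul_sub, inv_smul_smul]; abel
    rw [e]
    exact N.neg_mem (hN _ _ (hσ' x))

lemma FA_S13_glue_H₁_normal (N : Submodule (ZMod p) V) (hN : ∀ σ : G, ∀ x ∈ N, σ • x ∈ N) :
    (FA_S13_glue_H₁ (G := G) N).Normal := by
  constructor
  intro σ hσ τ x hx
  have h1 : τ⁻¹ • x ∈ N := hN _ _ hx
  have h2 : σ • (τ⁻¹ • x) = τ⁻¹ • x := hσ _ h1
  rw [mul_smul, mul_smul, h2, smul_inv_smul]

lemma FA_S13_glue_H₂_normal (N : Submodule (ZMod p) V) (hN : ∀ σ : G, ∀ x ∈ N, σ • x ∈ N) :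
    (FA_S13_glue_H₂ N hN).Normal := by
  constructor
  intro σ hσ τ x
  have h1 : σ • (τ⁻¹ • x) - τ⁻¹ • x ∈ N := hσ _
  have e : (τ * σ * τ⁻¹) • x - x = τ • (σ • (τ⁻¹ • x) - τ⁻¹ • x) := by
    rw [smul_sub, mul_smul, mul_smul, smul_inv_smul]
  rw [e]
  exact hN _ _ h1

/-- **Abstract glue.** -/
theorem FA_S13_glue_abs (hcard : Nat.card V ≤ p ^ 2)
    (N : Submodule (ZMod p) V) (hN : ∀ σ : G, ∀ x ∈ N, σ • x ∈ N) (hN0 : N ≠ ⊥) (hN1 : N ≠ ⊤)
    (hb3 : ∀ x : V, (∀ σ : G, σ • x = x) → x = 0)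
    (I₂ Ip : Set G)
    (hd : ∀ H : Subgroup G, H.Normal → (∀ σ : G, (∀ x : V, σ • x = x) → σ ∈ H) →
      (∀ σ ∈ I₂, σ ∈ H) → (∀ σ ∈ Ip, σ ∈ H) → ∀ σ : G, σ ∈ H)
    (h2 : ∃ V₀ : AddSubgroup V, ∀ σ ∈ I₂, (∀ x ∈ V₀, σ • x = x) ∧ ∀ x : V, σ • x - x ∈ V₀)
    (hp : ∃ V₁ : AddSubgroup V, (∀ σ ∈ Ip, ∀ x : V, σ • x - x ∈ V₁) ∧
      ∀ N' : Submodule (ZMod p) V, (∀ σ : G, ∀ x ∈ N', σ • x ∈ N') → N' ≠ ⊥ →
        (∀ x ∈ N', x ∈ V₁) → ∀ x ∈ V₁, x ∈ N') :
    ∀ (σ : G) (x : V), σ • x - x ∈ N := by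
  obtain ⟨hfN, hfV⟩ := FA_S13_glue_finrank hcard N hN0 hN1
  obtain ⟨V₀, hV₀⟩ := h2
  obtain ⟨V₁, hV₁, hc3⟩ := hp
  set M₀ : Submodule (ZMod p) V := AddSubgroup.toZModSubmodule p V₀ with hM₀
  set M₁ : Submodule (ZMod p) V := AddSubgroup.toZModSubmodule p V₁ with hM₁
  -- inertia at 2 is in H₁
  have h2H₁ : ∀ σ ∈ I₂, σ ∈ FA_S13_glue_H₁ (G := G) N := by
    intro σ hσ x hx
    obtain ⟨hfix, hmove⟩ := hV₀ σ hσ
    rcases FA_S13_glue_le_line hfN (inf_le_left : N ⊓ M₀ ≤ N) with h | h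
    · have : σ • x - x ∈ N ⊓ M₀ := ⟨N.sub_mem (hN σ x hx) hx, hmove x⟩
      rw [h, Submodule.mem_bot] at this
      exact sub_eq_zero.mp this
    · have : x ∈ N ⊓ M₀ := by rw [h]; exact hx
      exact hfix x this.2
  -- inertia at 2 is in H₂
  have h2H₂ : ∀ σ ∈ I₂, σ ∈ FA_S13_glue_H₂ N hN := by
    intro σ hσ x
    obtain ⟨hfix, hmove⟩ := hV₀ σ hσ
    have hσN := h2H₁ σ hσ
    rcases FA_S13_glue_line_le hfN hfV (le_sup_left : N ≤ N ⊔ M₀) with h | h
    · have : M₀ ≤ N := by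
        rw [← h]
        exact le_sup_right
      exact this (hmove x)
    · have hx : x ∈ N ⊔ M₀ := by rw [h]; exact Submodule.mem_top
      obtain ⟨y, hy, z, hz, rfl⟩ := Submodule.mem_sup.mp hx
      rw [smul_add, hσN y hy, hfix z hz, sub_self]
      exact N.zero_mem
  by_cases hcase : ∀ x ∈ N, x ∈ V₁
  · -- case A: N ⊆ V₁, so V₁ ⊆ N and inertia at p is in H₂
    have hV₁N := hc3 N hN hN0 hcase
    have hpH₂ : ∀ σ ∈ Ip, σ ∈ FA_S13_glue_H₂ N hN := fun σ hσ x => hV₁N _ (hV₁ σ hσ x)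
    intro σ x
    exact hd (FA_S13_glue_H₂ N hN) (FA_S13_glue_H₂_normal N hN)
      (fun τ hτ y => by rw [hτ y, sub_self]; exact N.zero_mem) h2H₂ hpH₂ σ x
  · -- case B: N ∩ V₁ = 0, inertia at p is in H₁, contradiction with (b3)
    exfalso
    have hinf : N ⊓ M₁ = ⊥ := by
      rcases FA_S13_glue_le_line hfN (inf_le_left : N ⊓ M₁ ≤ N) with h | h
      · exact h
      · exfalso
        apply hcase
        intro x hx
        have : x ∈ N ⊓ M₁ := by rw [h]; exact hx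
        exact this.2
    have hpH₁ : ∀ σ ∈ Ip, σ ∈ FA_S13_glue_H₁ (G := G) N := by
      intro σ hσ x hx
      have : σ • x - x ∈ N ⊓ M₁ := ⟨N.sub_mem (hN σ x hx) hx, hV₁ σ hσ x⟩
      rw [hinf, Submodule.mem_bot] at this
      exact sub_eq_zero.mp this
    have hall := hd (FA_S13_glue_H₁ (G := G) N) (FA_S13_glue_H₁_normal N hN)
      (fun τ hτ y _ => hτ y) h2H₁ hpH₁
    apply hN0
    rw [Submodule.eq_bot_iff]
    intro x hx
    exact hb3 x (fun σ => hall σ x hx)

end main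

end Fermat.Agent.S13
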