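import Fermat.Agent.S13.M2Pair
import Fermat.Agent.S05.MultRel

/-!
# S05, multiplicative case, part C3: the class of a point, the pair rule
-/

open WeierstrassCurve WeierstrassCurve.Affine

namespace Fermat.Agent.S13

open Fermat.Agent.S05

variable {K : Type*} [Field K] {W : WeierstrassCurve.Affine K}
variable {Γ : Type*} [LinearOrderedCommGroupWithZero Γ] {v : Valuation K Γ}

/-- The class of a point: `1` for `O` and points with `1 ≤ v x`, `v a₄` for points with
`v x ≤ v a₄`, and `v x` for points of node type. -/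
noncomputable def FA_S13_m2Cls (v : Valuation K Γ) : W.Point → Γ
  | .zero => 1
  | .some x _ _ => max (v W.a₄) (min 1 (v x))

@[simp] lemma FA_S13_m2Cls_zero : FA_S13_m2Cls v (0 : W.Point) = 1 := rfl

lemma FA_S13_m2Cls_some {x y : K} (h : W.Nonsingular x y) :
    FA_S13_m2Cls v (Point.some x y h) = max (v W.a₄) (min 1 (v x)) := rfl

lemma FA_S13_m2Cls_of_one_le (hW : FA_S13_m2Mult W v) {x y : K} (h : W.Nonsingular x y)
    (hx : 1 ≤ v x) : FA_S13_m2Cls v (Point.some x y h) = 1 := by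
  rw [FA_S13_m2Cls_some, min_eq_left hx, max_eq_right hW.a4.le]

lemma FA_S13_m2Cls_of_node {x y : K} (h : W.Nonsingular x y)
    (hx : v W.a₄ < v x) (hx' : v x < 1) : FA_S13_m2Cls v (Point.some x y h) = v x := by
  rw [FA_S13_m2Cls_some, min_eq_right hx'.le, max_eq_right hx.le]

lemma FA_S13_m2Cls_of_le (hW : FA_S13_m2Mult W v) {x y : K} (h : W.Nonsingular x y)
    (hx : v x ≤ v W.a₄) : FA_S13_m2Cls v (Point.some x y h) = v W.a₄ := by
  rw [FA_S13_m2Cls_some, min_eq_right (hx.trans hW.a4.le), max_eq_left hx]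

lemma FA_S13_m2Cls_eq_one_iff (hW : FA_S13_m2Mult W v) {x y : K} (h : W.Nonsingular x y) :
    FA_S13_m2Cls v (Point.some x y h) = 1 ↔ 1 ≤ v x := by
  refine ⟨fun h1 => ?_, FA_S13_m2Cls_of_one_le hW h⟩
  by_contra hlt
  rw [not_le] at hlt
  rw [FA_S13_m2Cls_some, min_eq_right hlt.le] at h1
  rcases le_total (v W.a₄) (v x) with h' | h'
  · rw [max_eq_right h'] at h1
    exact hlt.ne h1
  · rw [max_eq_left h'] at h1
    exact hW.a4.ne h1

lemma FA_S13_m2Cls_neg (P : W.Point) : FA_S13_m2Cls v (-P) = FA_S13_m2Cls v P := by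
  cases P with
  | zero => rfl
  | some x y h => rfl

end Fermat.Agent.S13
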