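import Fermat.Agent.S13.M2Final

/-!
# S13, multiplicative case in any residue characteristic: the points of class `1` form a
subgroup `E₀`; torsion points of odd order are never of middle type.
-/

open WeierstrassCurve WeierstrassCurve.Affine

namespace Fermat.Agent.S13

open Fermat.Agent.S05

variable {K : Type*} [Field K] {W : WeierstrassCurve.Affine K}
variable {Γ : Type*} [LinearOrderedCommGroupWithZero Γ] {v : Valuation K Γ}

variable [DecidableEq K]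

/-- `E₀ + E₀ ⊆ E₀` for affine points. -/
lemma FA_S13_m2_E0_add_E0 (hW : FA_S13_m2Mult W v) {x₁ y₁ x₂ y₂ : K}
    (h₁ : W.Nonsingular x₁ y₁) (h₂ : W.Nonsingular x₂ y₂)
    (hx₁ : 1 ≤ v x₁) (hx₂ : 1 ≤ v x₂) :
    FA_S13_m2Cls v (Point.some x₁ y₁ h₁ + Point.some x₂ y₂ h₂) = 1 := by
  have hS := hW.toFA_S05_mShape
  have hX0 : v x₁ ≠ 0 := (zero_lt_one.trans_le hx₁).ne'
  have hY0 : v x₂ ≠ 0 := (zero_lt_one.trans_le hx₂).ne'
  have hx₁ne : x₁ ≠ 0 := (Valuation.ne_zero_iff v).1 hX0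
  have hx₂ne : x₂ ≠ 0 := (Valuation.ne_zero_iff v).1 hY0
  have hprod : v (x₁ * x₂) = v x₁ * v x₂ := map_mul _ _ _
  have hone : 1 ≤ v x₁ * v x₂ := one_le_mul hx₁ hx₂
  have hgt : v W.a₄ < v (x₁ * x₂) := by
    rw [hprod]
    exact hW.a4.trans_le hone
  have hsub4 : v (x₁ * x₂ - W.a₄) = v x₁ * v x₂ := by
    rw [FA_S13_m2_v_sub_a4_of_gt _ hgt, hprod]
  by_cases hSp : y₁ * x₂ + y₂ * x₁ + x₁ * x₂ = 0
  · rcases FA_S05_m_Splus_eq_zero hS h₁ h₂ hx₁ne hx₂ne hSp with h0 | ⟨_, h0⟩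
    · rw [h0]
      rfl
    · exfalso
      rw [h0] at hgt
      exact lt_irrefl _ hgt
  · obtain ⟨x₃, y₃, h₃, e, f⟩ := FA_S05_m_add_of_Splus_ne hS h₁ h₂ hSp
    rw [e, FA_S13_m2Cls_eq_one_iff hW h₃]
    have hy1 := FA_S13_m2_vy_sq_le hW h₁ hx₁
    have hy2 := FA_S13_m2_vy_sq_le hW h₂ hx₂
    have b1 : (v y₁ * v x₂) ^ 2 ≤ (v x₁ * v x₂) ^ 3 := by
      rw [mul_pow, mul_pow]
      exact mul_le_mul' hy1 (pow_le_pow_right₀ hx₂ (by norm_num))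
    have b2 : (v y₂ * v x₁) ^ 2 ≤ (v x₁ * v x₂) ^ 3 := by
      rw [mul_pow, mul_pow, mul_comm]
      exact mul_le_mul' (pow_le_pow_right₀ hx₁ (by norm_num)) hy2
    have b3 : (v x₁ * v x₂) ^ 2 ≤ (v x₁ * v x₂) ^ 3 := pow_le_pow_right₀ hone (by norm_num)
    have hSle := FA_S13_m2_sq_le_of_le_max3 (FA_S13_m2_v_Splus_le v x₁ y₁ x₂ y₂) b1 b2 b3
    have hSv0 : v (y₁ * x₂ + y₂ * x₁ + x₁ * x₂) ^ 2 ≠ 0 :=
      pow_ne_zero _ ((Valuation.ne_zero_iff v).2 hSp)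
    have hf := congrArg v f
    simp only [map_mul, map_pow, hsub4] at hf
    have hf' : v x₃ * v (y₁ * x₂ + y₂ * x₁ + x₁ * x₂) ^ 2 = (v x₁ * v x₂) ^ 3 := by
      rw [hf]
      exact (pow_succ' _ 2).symm
    by_contra hlt
    rw [not_le] at hlt
    have : v x₃ * v (y₁ * x₂ + y₂ * x₁ + x₁ * x₂) ^ 2
        < 1 * v (y₁ * x₂ + y₂ * x₁ + x₁ * x₂) ^ 2 :=
      mul_lt_mul_of_pos_right hlt (zero_lt_iff.2 hSv0)
    rw [hf', one_mul] at this
    exact absurd hSle (not_le.2 this)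

omit [DecidableEq K] in
/-- The class of `T = (0,0)` is `v a₄ ≠ 1`. -/
lemma FA_S13_m2Cls_T (hW : FA_S13_m2Mult W v) : FA_S13_m2Cls v (FA_S13_m2T hW) ≠ 1 := by
  unfold FA_S13_m2T
  rw [FA_S13_m2Cls_of_le hW _ (by rw [map_zero]; exact zero_le)]
  exact hW.a4.ne

/-- The subgroup `E₀` of points of class `1`. -/
def FA_S13_m2E0 (hW : FA_S13_m2Mult W v) : AddSubgroup W.Point where
  carrier := {P | FA_S13_m2Cls v P = 1}
  zero_mem' := rfl
  add_mem' := by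
    rintro (_ | ⟨x₁, y₁, h₁⟩) (_ | ⟨x₂, y₂, h₂⟩) hP hQ
    · rfl
    · exact hQ
    · exact hP
    · exact FA_S13_m2_E0_add_E0 hW h₁ h₂ ((FA_S13_m2Cls_eq_one_iff hW h₁).1 hP)
        ((FA_S13_m2Cls_eq_one_iff hW h₂).1 hQ)
  neg_mem' := by
    intro P hP
    show FA_S13_m2Cls v (-P) = 1
    rw [FA_S13_m2Cls_neg]
    exact hP

lemma FA_S13_mem_m2E0 (hW : FA_S13_m2Mult W v) (P : W.Point) :
    P ∈ FA_S13_m2E0 hW ↔ FA_S13_m2Cls v P = 1 := Iff.rfl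

/-- A point killed by an odd number is not of middle type. -/
theorem FA_S13_m2_not_mid (hW : FA_S13_m2Mult W v) {x y : K} (h : W.Nonsingular x y)
    (n : ℕ) (hn : Odd n) (hP : n • Point.some x y h = 0) : v W.a₄ < v x := by
  by_contra hle
  rw [not_lt] at hle
  have hTT := FA_S13_m2T_add_self hW
  have hnT : n • FA_S13_m2T hW = FA_S13_m2T hW := by
    obtain ⟨k, rfl⟩ := hn
    rw [add_smul, one_smul, mul_comm, mul_smul, two_smul, hTT, smul_zero, zero_add]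
  by_cases hx0 : x = 0
  · subst hx0
    rw [FA_S13_m2_eq_T hW h, hnT] at hP
    exact Point.some_ne_zero _ hP
  · obtain ⟨x₃, y₃, h₃, e, f⟩ := FA_S13_m2_mid_add_T hW h hle hx0
    have hmem : Point.some x y h + FA_S13_m2T hW ∈ FA_S13_m2E0 hW := by
      rw [FA_S13_mem_m2E0, e]
      exact FA_S13_m2Cls_of_one_le hW h₃ f
    have hn' := (FA_S13_m2E0 hW).nsmul_mem hmem n
    rw [smul_add, hP, zero_add, hnT, FA_S13_mem_m2E0] at hn'
    exact FA_S13_m2Cls_T hW hn'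

end Fermat.Agent.S13
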