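import Fermat.Agent.S13.M2Comp
import Fermat.Agent.S05.KL
import Fermat.Agent.S05.L3

/-!
# S13, multiplicative case in any residue characteristic: points of class `1` are in the
kernel of reduction or have nonsingular reduction
-/

open WeierstrassCurve WeierstrassCurve.Affine

namespace Fermat.Agent.S13

open Fermat.Agent.S05

variable {K : Type*} [Field K]

section local_

variable {W : WeierstrassCurve.Affine K} {A : ValuationSubring K}

lemma FA_S13_m2_integral (hW : FA_S13_m2Mult W A.valuation) : FA_S05_Integral A W :=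
  ⟨by rw [hW.a1]; exact A.one_mem, (A.valuation_le_one_iff _).1 hW.a2,
    by rw [hW.a3]; exact A.zero_mem, (A.valuation_le_one_iff _).1 hW.a4.le,
    by rw [hW.a6]; exact A.zero_mem⟩

/-- Points of class `1` are in the kernel of reduction or have nonsingular reduction. -/
lemma FA_S13_m2_E1_or_NS (hW : FA_S13_m2Mult W A.valuation) (S : W.Point)
    (hS : FA_S13_m2Cls A.valuation S = 1) : FA_S05_E1 A S ∨ FA_S05_NS A S := by
  rcases S with _ | ⟨x, y, h⟩
  · exact Or.inl (Or.inl rfl)
  · have hx1 : 1 ≤ A.valuation x := (FA_S13_m2Cls_eq_one_iff hW h).1 hS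
    by_cases hxA : x ∈ A
    · right
      have hx : A.valuation x = 1 := le_antisymm ((A.valuation_le_one_iff _).2 hxA) hx1
      have hy : A.valuation y ≤ 1 := by
        have := FA_S13_m2_vy_sq_le hW h hx1
        rw [hx, one_pow] at this
        by_contra hlt
        rw [not_le] at hlt
        exact absurd this (not_le.2 (one_lt_pow₀ hlt two_ne_zero))
      rw [FA_S05_NS_some]
      refine ⟨hxA, (A.valuation_le_one_iff _).1 hy, ?_⟩
      by_contra hcon
      rw [not_or, not_not, not_not, A.mem_nonunits_iff, A.mem_nonunits_iff,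
        evalEval_polynomialX, evalEval_polynomialY, hW.a1, hW.a3] at hcon
      obtain ⟨hX, hY⟩ := hcon
      have e := FA_S05_m_eq hW.toFA_S05_mShape h
      have h2 : A.valuation (2 : K) ≤ 1 := hW.two
      have h4 : A.valuation (4 : K) ≤ 1 := hW.four
      have h3 : A.valuation (3 : K) ≤ 1 := by
        have : (3 : K) = 2 + 1 := by norm_num
        rw [this]
        exact (A.valuation.map_add _ _).trans (max_le h2 (by rw [map_one]))
      have hP1 : A.valuation (1 + 4 * W.a₂ + 4 * x) < 1 := by
        have key : x ^ 2 * (1 + 4 * W.a₂ + 4 * x)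
            = (2 * y + 1 * x + 0) ^ 2 - 4 * (W.a₄ * x) := by
          linear_combination (-4 : K) * e
        have h5 : A.valuation (x ^ 2 * (1 + 4 * W.a₂ + 4 * x)) < 1 := by
          rw [key]
          refine Valuation.map_sub_lt _ ?_ ?_
          · rw [map_pow]
            exact pow_lt_one₀ zero_le hY two_ne_zero
          · rw [map_mul, map_mul, hx, mul_one]
            exact lt_of_le_of_lt (mul_le_of_le_one_left' h4) hW.a4
        rwa [map_mul, map_pow, hx, one_pow, one_mul] at h5
      have hP2 : A.valuation (1 + 6 * x + 4 * W.a₂) < 1 := by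
        have key : x * (1 + 6 * x + 4 * W.a₂) = (2 * y + 1 * x + 0)
            - 2 * (1 * y - (3 * x ^ 2 + 2 * W.a₂ * x + W.a₄)) - 2 * W.a₄ := by
          ring
        have h5 : A.valuation (x * (1 + 6 * x + 4 * W.a₂)) < 1 := by
          rw [key]
          refine Valuation.map_sub_lt _ (Valuation.map_sub_lt _ hY ?_) ?_
          · rw [map_mul]
            exact lt_of_le_of_lt (mul_le_of_le_one_left' h2) hX
          · rw [map_mul]
            exact lt_of_le_of_lt (mul_le_of_le_one_left' h2) hW.a4
        rwa [map_mul, hx, one_mul] at h5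
      have hd : 1 + 4 * W.a₂ = 3 * (1 + 4 * W.a₂ + 4 * x) - 2 * (1 + 6 * x + 4 * W.a₂) := by
        ring
      have h6 : A.valuation (1 + 4 * W.a₂) < 1 := by
        rw [hd]
        refine Valuation.map_sub_lt _ ?_ ?_
        · rw [map_mul]
          exact lt_of_le_of_lt (mul_le_of_le_one_left' h3) hP1
        · rw [map_mul]
          exact lt_of_le_of_lt (mul_le_of_le_one_left' h2) hP2
      rw [hW.disc] at h6
      exact lt_irrefl _ h6
    · exact Or.inl ((FA_S05_E1_some A h).2 hxA)

end local_

end Fermat.Agent.S13
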