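import Fermat.Agent.S13.M2Lev
import Fermat.Agent.S05.L3
import Fermat.Agent.S05.Good

/-!
# S13, multiplicative case in any residue characteristic: inertia is unipotent on the
`p`-torsion (`p` odd): `σ P - P ∈ E₀` for `σ` in the inertia group.
-/

set_option linter.unusedSectionVars false

open WeierstrassCurve WeierstrassCurve.Affine

namespace Fermat.Agent.S13

open Fermat.Agent.S05

section valuation

variable {F K : Type*} [Field F] [Field K] [Algebra F K]

/-- Elements of the decomposition group preserve `v a < v b`. -/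
lemma FA_S13_decomp_lt (A : ValuationSubring K) (σ : K ≃ₐ[F] K)
    (hσ : σ ∈ A.decompositionSubgroup F) {a b : K} (h : A.valuation a < A.valuation b) :
    A.valuation (σ a) < A.valuation (σ b) := by
  have hb0 : A.valuation b ≠ 0 := (zero_le.trans_lt h).ne'
  have hb : b ≠ 0 := (Valuation.ne_zero_iff _).1 hb0
  have hσb : σ b ≠ 0 := (map_ne_zero σ).2 hb
  have hσb0 : A.valuation (σ b) ≠ 0 := (Valuation.ne_zero_iff _).2 hσb
  have h1 : a / b ∈ A.nonunits := by
    rw [A.mem_nonunits_iff, map_div₀]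
    exact (div_lt_one₀ (zero_lt_iff.2 hb0)).2 h
  have h2 := (FA_S05_decomp_nonunits_iff A σ hσ).2 h1
  rw [map_div₀, A.mem_nonunits_iff, map_div₀] at h2
  exact (div_lt_one₀ (zero_lt_iff.2 hσb0)).1 h2

/-- Elements of the decomposition group preserve `v a ≤ v b`. -/
lemma FA_S13_decomp_le (A : ValuationSubring K) (σ : K ≃ₐ[F] K)
    (hσ : σ ∈ A.decompositionSubgroup F) {a b : K} (h : A.valuation a ≤ A.valuation b) :
    A.valuation (σ a) ≤ A.valuation (σ b) := by
  by_contra hlt
  rw [not_le] at hlt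
  have h1 := FA_S13_decomp_lt A σ⁻¹ (inv_mem hσ) hlt
  have e : ∀ z : K, σ⁻¹ (σ z) = z := fun z => σ.symm_apply_apply z
  rw [e, e] at h1
  exact absurd h (not_le.2 h1)

/-- Elements of the decomposition group preserve `v a = v b`. -/
lemma FA_S13_decomp_eq (A : ValuationSubring K) (σ : K ≃ₐ[F] K)
    (hσ : σ ∈ A.decompositionSubgroup F) {a b : K} (h : A.valuation a = A.valuation b) :
    A.valuation (σ a) = A.valuation (σ b) :=
  le_antisymm (FA_S13_decomp_le A σ hσ h.le) (FA_S13_decomp_le A σ hσ h.ge)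

end valuation

variable {K : Type*} [Field K]

/-- The kernel of reduction is contained in `E₀`. -/
lemma FA_S13_m2_E1_le_E0 [DecidableEq K] {W : WeierstrassCurve.Affine K}
    {A : ValuationSubring K}
    (hW : FA_S13_m2Mult W A.valuation) {P : W.Point} (hP : FA_S05_E1 A P) :
    P ∈ FA_S13_m2E0 hW := by
  rcases P with _ | ⟨x, y, h⟩
  · exact (FA_S13_m2E0 hW).zero_mem
  · rw [FA_S05_E1_some] at hP
    rw [FA_S13_mem_m2E0, FA_S13_m2Cls_eq_one_iff hW h]
    rw [← A.valuation_le_one_iff, not_le] at hP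
    exact hP.le

variable {R S : Type*} [CommRing R] [Field S] [DecidableEq K] [Algebra R S] [Algebra R K]
  [Algebra S K] [IsScalarTower R S K]

/-- Galois automorphisms fix the coefficients of a base-changed curve. -/
lemma FA_S13_smul_algebraMap (σ : K ≃ₐ[S] K) (r : R) : σ (algebraMap R K r) = algebraMap R K r := by
  rw [IsScalarTower.algebraMap_apply R S K]
  exact σ.commutes _

lemma FA_S13_smul_a₂ (W' : WeierstrassCurve.Affine R) (σ : K ≃ₐ[S] K) :
    σ (W'⁄K).a₂ = (W'⁄K).a₂ :=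
  FA_S13_smul_algebraMap σ W'.a₂

lemma FA_S13_smul_a₄ (W' : WeierstrassCurve.Affine R) (σ : K ≃ₐ[S] K) :
    σ (W'⁄K).a₄ = (W'⁄K).a₄ :=
  FA_S13_smul_algebraMap σ W'.a₄

/-- The inertia group fixes the roots of `t² + t = a₂`. -/
lemma FA_S13_m2_inertia_root (W' : WeierstrassCurve.Affine R) (A : ValuationSubring K)
    (hW : FA_S13_m2Mult (W'⁄K) A.valuation) (σ : K ≃ₐ[S] K)
    (hσ : σ ∈ A.inertiaSubgroupIn S) {α : K} (hα : α ^ 2 + α = (W'⁄K).a₂) : σ α = α := by
  have hαA : α ∈ A := (A.valuation_le_one_iff _).1 (FA_S13_m2_v_root_le hW hα)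
  have h1 : (σ α) ^ 2 + σ α = (W'⁄K).a₂ := by
    rw [← map_pow, ← map_add, hα, FA_S13_smul_a₂]
  have h2 : (σ α - α) * (σ α - (-1 - α)) = 0 := by
    linear_combination h1 - hα
  rcases mul_eq_zero.1 h2 with h | h
  · exact sub_eq_zero.1 h
  · exfalso
    have h3 : σ α = -1 - α := sub_eq_zero.1 h
    have h4 := (FA_S05_G0 A σ hσ α hαA).2
    rw [h3, A.mem_nonunits_iff, FA_S13_m2_v_root_sub hW hα] at h4
    exact lt_irrefl _ h4

/-- **Unipotence**: for `σ` in the inertia group and `P` killed by the odd number `p`,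
`σ P - P ∈ E₀`. -/
theorem FA_S13_m2_inertia_sub (W' : WeierstrassCurve.Affine R) (A : ValuationSubring K)
    (hW : FA_S13_m2Mult (W'⁄K) A.valuation) (σ : K ≃ₐ[S] K)
    (hσ : σ ∈ A.inertiaSubgroupIn S) {α : K} (hα : α ^ 2 + α = (W'⁄K).a₂)
    (p : ℕ) (hp : Odd p) (P : (W'⁄K).Point) (hP : p • P = 0) :
    σ • P - P ∈ FA_S13_m2E0 hW := by
  have hp0 : p ≠ 0 := by
    rintro rfl
    simp at hp
  have hσd := FA_S05_inertiaIn_le_decomp A σ hσ
  rcases P with _ | ⟨x, y, h⟩
  · have h0 : σ • (Point.zero : (W'⁄K).Point) - Point.zero = 0 := by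
      show σ • (0 : (W'⁄K).Point) - 0 = 0
      rw [FA_S05_smul_zero, sub_zero]
    rw [h0]
    exact (FA_S13_m2E0 hW).zero_mem
  · by_cases hx1 : 1 ≤ A.valuation x
    · have hcls : FA_S13_m2Cls A.valuation (Point.some x y h) = 1 :=
        (FA_S13_m2Cls_eq_one_iff hW h).2 hx1
      exact FA_S13_m2_E1_le_E0 hW
        (FA_S05_L3 W' A (FA_S13_m2_integral hW) σ hσ _ (FA_S13_m2_E1_or_NS hW _ hcls))
    · obtain ⟨hx, hx', hs, -, -⟩ := FA_S13_m2_node_facts hW hp h hP hx1
      obtain ⟨h', he⟩ := FA_S05_smul_some W' σ h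
      rw [he, FA_S13_mem_m2E0]
      have hB := hW.B_ne
      have ha4 : (W'⁄K).a₄ ≠ 0 := hW.a4ne
      -- `v (σ x) = v x`
      have hvx : A.valuation (σ x) = A.valuation x := by
        have h1 : A.valuation (x ^ p)
            = A.valuation ((W'⁄K).a₄ ^ (2 * FA_S13_m2_expo (W'⁄K) A.valuation p x)) := by
          rw [map_pow, map_zpow₀]
          exact hs
        have h2 := FA_S13_decomp_eq A σ hσd h1
        rw [map_pow, map_zpow₀, FA_S13_smul_a₄, map_pow, map_zpow₀, ← hs] at h2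
        exact (pow_left_inj₀ zero_le zero_le hp0).1 h2
      have hσx : A.valuation (W'⁄K).a₄ < A.valuation (σ x) := hvx ▸ hx
      have hσx' : A.valuation (σ x) < 1 := hvx ▸ hx'
      rcases FA_S13_m2_branch hW hα h hx hx' with hb | hb
      · have hσα := FA_S13_m2_inertia_root W' A hW σ hσ hα
        have hb' := FA_S13_decomp_lt A σ hσd hb
        rw [map_sub, map_mul, hσα] at hb'
        exact FA_S13_m2_sub_of_same_branch hW α h' h hσx hσx' hvx hb' hb
      · have hσα := FA_S13_m2_inertia_root W' A hW σ hσ (FA_S13_m2_other_root hα)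
        have hb' := FA_S13_decomp_lt A σ hσd hb
        rw [map_sub, map_mul, hσα] at hb'
        exact FA_S13_m2_sub_of_same_branch hW (-1 - α) h' h hσx hσx' hvx hb' hb

end Fermat.Agent.S13
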