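import Fermat.Agent.S13.M2Cls

/-!
# S05, multiplicative case, part C4: the pair rule `cls (Q ± P)` for `P` of node type
-/

open WeierstrassCurve WeierstrassCurve.Affine

namespace Fermat.Agent.S13

open Fermat.Agent.S05

variable {K : Type*} [Field K] {W : WeierstrassCurve.Affine K}
variable {Γ : Type*} [LinearOrderedCommGroupWithZero Γ] {v : Valuation K Γ}

section order

lemma FA_S13_m2_le_of_mul_le_mul {a b c : Γ} (hc : c ≠ 0) (h : a * c ≤ b * c) : a ≤ b := by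
  by_contra hlt
  rw [not_le] at hlt
  exact absurd h (not_le.2 (mul_lt_mul_of_pos_right hlt (zero_lt_iff.2 hc)))

lemma FA_S13_m2_lt_of_mul_lt_mul {a b c : Γ} (h : a * c < b * c) : a < b := by
  by_contra hlt
  rw [not_lt] at hlt
  exact absurd h (not_lt.2 (mul_le_mul_left hlt c))

lemma FA_S13_m2_mul_lt_mul {a b c d : Γ} (h1 : a < b) (h2 : c < d) : a * c < b * d := by
  have hb : b ≠ 0 := (zero_le.trans_lt h1).ne'
  have hd : d ≠ 0 := (zero_le.trans_lt h2).ne'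
  calc a * c ≤ a * d := mul_le_mul_right h2.le a
    _ < b * d := mul_lt_mul_of_pos_right h1 (zero_lt_iff.2 hd)

end order

variable [DecidableEq K]

/-- `E₀ - node = node`, with the same `v x`. -/
lemma FA_S13_m2_E0_sub_node (hW : FA_S13_m2Mult W v) {x₁ y₁ x₂ y₂ : K}
    (h₁ : W.Nonsingular x₁ y₁) (h₂ : W.Nonsingular x₂ y₂)
    (hx₁ : 1 ≤ v x₁) (hx₂ : v W.a₄ < v x₂) (hx₂' : v x₂ < 1) :
    ∃ x₃ y₃ h₃, Point.some x₁ y₁ h₁ - Point.some x₂ y₂ h₂ = Point.some x₃ y₃ h₃ ∧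
      v x₃ = v x₂ := by
  obtain ⟨h₂', e₂⟩ := FA_S05_m_neg_some hW.toFA_S05_mShape h₂
  obtain ⟨x₃, y₃, h₃, e, f⟩ := FA_S13_m2_E0_add_node hW h₁ h₂' hx₁ hx₂ hx₂'
  exact ⟨x₃, y₃, h₃, by rw [sub_eq_add_neg, e₂, e], f⟩

/-- The point `T = (0, 0)` as a point. -/
noncomputable def FA_S13_m2T (hW : FA_S13_m2Mult W v) : W.Point :=
  Point.some 0 0 (FA_S05_m_nonsingular_T hW.toFA_S05_mShape hW.a4ne)

lemma FA_S13_m2T_add_self (hW : FA_S13_m2Mult W v) : FA_S13_m2T hW + FA_S13_m2T hW = 0 := by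
  unfold FA_S13_m2T
  apply Point.add_of_Y_eq rfl
  rw [FA_S05_m_negY hW.toFA_S05_mShape]
  ring

lemma FA_S13_m2_add_T_add_T (hW : FA_S13_m2Mult W v) (Q : W.Point) :
    Q + FA_S13_m2T hW + FA_S13_m2T hW = Q := by
  rw [add_assoc, FA_S13_m2T_add_self, add_zero]

/-- `P + T` for `x(P) ≠ 0`. -/
lemma FA_S13_m2_add_mT (hW : FA_S13_m2Mult W v) {x y : K} (h : W.Nonsingular x y) (hx : x ≠ 0) :
    ∃ y₃ h₃, Point.some x y h + FA_S13_m2T hW = Point.some (W.a₄ / x) y₃ h₃ :=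
  FA_S05_m_add_T hW.toFA_S05_mShape hW.a4ne h hx

omit [DecidableEq K] in
/-- A point with `x = 0` is `T`. -/
lemma FA_S13_m2_eq_T (hW : FA_S13_m2Mult W v) {y : K} (h : W.Nonsingular 0 y) :
    Point.some 0 y h = FA_S13_m2T hW := by
  have := FA_S05_m_y_eq_zero hW.toFA_S05_mShape h
  subst this
  rfl

/-- `node + T` is of node type with `v x' = v a₄ / v x`. -/
lemma FA_S13_m2_node_add_T (hW : FA_S13_m2Mult W v) {x y : K} (h : W.Nonsingular x y)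
    (hx : v W.a₄ < v x) (hx' : v x < 1) :
    ∃ x₃ y₃ h₃, Point.some x y h + FA_S13_m2T hW = Point.some x₃ y₃ h₃ ∧
      v x₃ = v W.a₄ / v x ∧ v W.a₄ < v x₃ ∧ v x₃ < 1 := by
  have hx0 : v x ≠ 0 := (zero_le.trans_lt hx).ne'
  have hxne : x ≠ 0 := (Valuation.ne_zero_iff v).1 hx0
  obtain ⟨y₃, h₃, e⟩ := FA_S13_m2_add_mT hW h hxne
  refine ⟨_, y₃, h₃, e, map_div₀ _ _ _, ?_, ?_⟩
  · rw [map_div₀, lt_div_iff₀ (zero_lt_iff.2 hx0)]
    calc v W.a₄ * v x < v W.a₄ * 1 := by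
          rw [mul_comm, mul_comm _ 1]
          exact mul_lt_mul_of_pos_right hx' (zero_lt_iff.2 hW.B_ne)
      _ = v W.a₄ := mul_one _
  · rw [map_div₀, div_lt_iff₀ (zero_lt_iff.2 hx0), one_mul]
    exact hx

/-- `mid + T` is in `E₀`. -/
lemma FA_S13_m2_mid_add_T (hW : FA_S13_m2Mult W v) {x y : K} (h : W.Nonsingular x y)
    (hx : v x ≤ v W.a₄) (hxne : x ≠ 0) :
    ∃ x₃ y₃ h₃, Point.some x y h + FA_S13_m2T hW = Point.some x₃ y₃ h₃ ∧ 1 ≤ v x₃ := by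
  have hx0 : v x ≠ 0 := (Valuation.ne_zero_iff v).2 hxne
  obtain ⟨y₃, h₃, e⟩ := FA_S13_m2_add_mT hW h hxne
  refine ⟨_, y₃, h₃, e, ?_⟩
  rw [map_div₀, le_div_iff₀ (zero_lt_iff.2 hx0), one_mul]
  exact hx

/-- `mid + node` is of node type with `v x' = v a₄ / v x`. -/
lemma FA_S13_m2_mid_add_node (hW : FA_S13_m2Mult W v) {x₁ y₁ x₂ y₂ : K}
    (h₁ : W.Nonsingular x₁ y₁) (h₂ : W.Nonsingular x₂ y₂)
    (hx₁ : v x₁ ≤ v W.a₄) (hx₂ : v W.a₄ < v x₂) (hx₂' : v x₂ < 1) :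
    ∃ x₃ y₃ h₃, Point.some x₁ y₁ h₁ + Point.some x₂ y₂ h₂ = Point.some x₃ y₃ h₃ ∧
      v x₃ = v W.a₄ / v x₂ ∧ v W.a₄ < v x₃ ∧ v x₃ < 1 := by
  by_cases hx0 : x₁ = 0
  · subst hx0
    rw [FA_S13_m2_eq_T hW h₁, add_comm]
    exact FA_S13_m2_node_add_T hW h₂ hx₂ hx₂'
  · obtain ⟨x', y', h', e', hv'⟩ := FA_S13_m2_mid_add_T hW h₁ hx₁ hx0
    obtain ⟨x₃, y₃, h₃, e₃, hv₃⟩ := FA_S13_m2_E0_add_node hW h' h₂ hv' hx₂ hx₂'
    obtain ⟨x₄, y₄, h₄, e₄, hv₄, hv₄', hv₄''⟩ :=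
      FA_S13_m2_node_add_T hW h₃ (hv₃ ▸ hx₂) (hv₃ ▸ hx₂')
    refine ⟨x₄, y₄, h₄, ?_, hv₃ ▸ hv₄, hv₄', hv₄''⟩
    rw [← e₄, ← e₃, ← e', add_right_comm _ (FA_S13_m2T hW), FA_S13_m2_add_T_add_T]

/-- `mid - node` is of node type with `v x' = v a₄ / v x`. -/
lemma FA_S13_m2_mid_sub_node (hW : FA_S13_m2Mult W v) {x₁ y₁ x₂ y₂ : K}
    (h₁ : W.Nonsingular x₁ y₁) (h₂ : W.Nonsingular x₂ y₂)
    (hx₁ : v x₁ ≤ v W.a₄) (hx₂ : v W.a₄ < v x₂) (hx₂' : v x₂ < 1) :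
    ∃ x₃ y₃ h₃, Point.some x₁ y₁ h₁ - Point.some x₂ y₂ h₂ = Point.some x₃ y₃ h₃ ∧
      v x₃ = v W.a₄ / v x₂ ∧ v W.a₄ < v x₃ ∧ v x₃ < 1 := by
  obtain ⟨h₂', e₂⟩ := FA_S05_m_neg_some hW.toFA_S05_mShape h₂
  obtain ⟨x₃, y₃, h₃, e, f⟩ := FA_S13_m2_mid_add_node hW h₁ h₂' hx₁ hx₂ hx₂'
  exact ⟨x₃, y₃, h₃, by rw [sub_eq_add_neg, e₂, e], f⟩

/-- `node + node` when `v S₊ = v x₁ v x₂`: the class of the sum. -/
lemma FA_S13_m2_cls_node_add_node (hW : FA_S13_m2Mult W v) {x₁ y₁ x₂ y₂ : K}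
    (h₁ : W.Nonsingular x₁ y₁) (h₂ : W.Nonsingular x₂ y₂)
    (hx₁ : v W.a₄ < v x₁) (hx₁' : v x₁ < 1) (hx₂ : v W.a₄ < v x₂) (hx₂' : v x₂ < 1)
    (hS : v (y₁ * x₂ + y₂ * x₁ + x₁ * x₂) = v x₁ * v x₂) :
    FA_S05_mRel (v W.a₄) (FA_S13_m2Cls v (Point.some x₁ y₁ h₁ + Point.some x₂ y₂ h₂))
      (v x₁ * v x₂) := by
  have h10 : v x₁ ≠ 0 := (zero_le.trans_lt hx₁).ne'
  have h20 : v x₂ ≠ 0 := (zero_le.trans_lt hx₂).ne'
  have hc0 : v x₁ * v x₂ ≠ 0 := mul_ne_zero h10 h20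
  obtain ⟨x₃, y₃, h₃, e, f⟩ := FA_S13_m2_node_add_node hW h₁ h₂ h10 h20 hS
  rw [e]
  have hc1 : v x₁ * v x₂ < 1 := by
    calc v x₁ * v x₂ < 1 * 1 := FA_S13_m2_mul_lt_mul hx₁' hx₂'
      _ = 1 := one_mul 1
  have hcB : v W.a₄ ^ 2 < v x₁ * v x₂ := by
    rw [pow_two]
    exact FA_S13_m2_mul_lt_mul hx₁ hx₂
  rcases lt_trichotomy (v W.a₄) (v x₁ * v x₂) with hlt | heq | hgt
  · -- `v (x₁ x₂) > B`
    have h4 : v (x₁ * x₂ - W.a₄) = v x₁ * v x₂ := by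
      rw [FA_S13_m2_v_sub_a4_of_gt _ (by rwa [map_mul]), map_mul]
    rw [h4, pow_two] at f
    have h3 : v x₃ = v x₁ * v x₂ := mul_right_cancel₀ hc0 f
    rw [FA_S13_m2Cls_of_node h₃ (h3 ▸ hlt) (h3 ▸ hc1), h3]
    exact FA_S05_mRel.refl _ _
  · -- `v (x₁ x₂) = B`
    have h4 : v (x₁ * x₂ - W.a₄) ≤ v W.a₄ :=
      FA_S13_m2_v_sub_a4_of_eq _ (by rw [map_mul, heq])
    have h3 : v x₃ ≤ v W.a₄ := by
      apply FA_S13_m2_le_of_mul_le_mul hc0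
      rw [f, ← heq, ← pow_two]
      exact pow_le_pow_left₀ zero_le (heq ▸ h4) 2
    rw [FA_S13_m2Cls_of_le hW h₃ h3]
    exact FA_S05_mRel.of_eq heq
  · -- `v (x₁ x₂) < B`
    have h4 : v (x₁ * x₂ - W.a₄) = v W.a₄ :=
      FA_S13_m2_v_sub_a4_of_lt _ (by rwa [map_mul])
    rw [h4] at f
    have h3a : v W.a₄ < v x₃ := by
      by_contra hcon
      rw [not_lt] at hcon
      have : v x₃ * (v x₁ * v x₂) < v W.a₄ ^ 2 := by
        rw [pow_two]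
        calc v x₃ * (v x₁ * v x₂) ≤ v W.a₄ * (v x₁ * v x₂) := mul_le_mul_left hcon _
          _ < v W.a₄ * v W.a₄ := by
            rw [mul_comm, mul_comm (v W.a₄)]
            exact mul_lt_mul_of_pos_right hgt (zero_lt_iff.2 hW.B_ne)
      exact this.ne f
    have h3b : v x₃ < 1 := by
      by_contra hcon
      rw [not_lt] at hcon
      have : v W.a₄ ^ 2 < v x₃ * (v x₁ * v x₂) :=
        hcB.trans_le (le_mul_of_one_le_left' hcon)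
      exact this.ne' f
    rw [FA_S13_m2Cls_of_node h₃ h3a h3b]
    exact FA_S05_mRel.of_mul_eq_sq f

/-- `node - node` when `v S₊ = v x₁ v x₂`: the class of the difference. -/
lemma FA_S13_m2_cls_node_sub_node (hW : FA_S13_m2Mult W v) {x₁ y₁ x₂ y₂ : K}
    (h₁ : W.Nonsingular x₁ y₁) (h₂ : W.Nonsingular x₂ y₂)
    (hx₁ : v W.a₄ < v x₁) (hx₁' : v x₁ < 1) (hx₂ : v W.a₄ < v x₂) (hx₂' : v x₂ < 1)
    (hS : v (y₁ * x₂ + y₂ * x₁ + x₁ * x₂) = v x₁ * v x₂) :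
    FA_S05_mRel (v W.a₄) (FA_S13_m2Cls v (Point.some x₁ y₁ h₁ - Point.some x₂ y₂ h₂))
      (v x₁ / v x₂) ∧
    (v x₁ = v x₂ → FA_S13_m2Cls v (Point.some x₁ y₁ h₁ - Point.some x₂ y₂ h₂) = 1) := by
  have hS' := hW.toFA_S05_mShape
  have h10 : v x₁ ≠ 0 := (zero_le.trans_lt hx₁).ne'
  have h20 : v x₂ ≠ 0 := (zero_le.trans_lt hx₂).ne'
  have hc0 : v x₁ * v x₂ ≠ 0 := mul_ne_zero h10 h20
  by_cases hx : x₁ = x₂
  · -- then `P₁ = P₂`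
    subst hx
    have hSne : y₁ * x₁ + y₂ * x₁ + x₁ * x₁ ≠ 0 := by
      intro h0
      rw [h0, map_zero] at hS
      exact hc0 hS.symm
    have hy' : y₁ ≠ W.negY x₁ y₂ := by
      rw [FA_S05_m_negY hS']
      intro h'
      apply hSne
      rw [h']
      ring
    have hy : y₁ = y₂ := Y_eq_of_Y_ne h₁.1 h₂.1 rfl hy'
    subst hy
    rw [sub_self, FA_S13_m2Cls_zero, div_self h10]
    exact ⟨FA_S05_mRel.refl _ _, fun _ => rfl⟩
  · obtain ⟨x₃, y₃, h₃, e, f⟩ := FA_S13_m2_node_sub_node hW h₁ h₂ h10 h20 hx hS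
    rw [e]
    rcases lt_trichotomy (v x₁) (v x₂) with hlt | heq | hgt
    · have hd : v (x₁ - x₂) = v x₂ := v.map_sub_eq_of_lt_right hlt
      rw [hd] at f
      have h3 : v x₃ = v x₁ / v x₂ := by
        field_simp
        apply mul_right_cancel₀ h20
        rw [mul_assoc, ← pow_two, f]
      have h3a : v W.a₄ < v x₃ := by
        rw [h3, lt_div_iff₀ (zero_lt_iff.2 h20)]
        calc v W.a₄ * v x₂ ≤ v W.a₄ * 1 := mul_le_mul_right hx₂'.le _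
          _ = v W.a₄ := mul_one _
          _ < v x₁ := hx₁
      have h3b : v x₃ < 1 := by
        rw [h3, div_lt_iff₀ (zero_lt_iff.2 h20), one_mul]
        exact hlt
      rw [FA_S13_m2Cls_of_node h₃ h3a h3b]
      exact ⟨FA_S05_mRel.of_eq h3, fun h => absurd h hlt.ne⟩
    · have hd : v (x₁ - x₂) ≤ v x₁ := (v.map_sub _ _).trans (max_le le_rfl heq.ge)
      have h3 : 1 ≤ v x₃ := by
        apply FA_S13_m2_le_of_mul_le_mul (pow_ne_zero 2 h10)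
        rw [one_mul]
        calc v x₁ ^ 2 = v x₁ * v x₂ := by rw [pow_two, heq]
          _ = v x₃ * v (x₁ - x₂) ^ 2 := f.symm
          _ ≤ v x₃ * v x₁ ^ 2 := mul_le_mul_right (pow_le_pow_left₀ zero_le hd 2) _
      rw [FA_S13_m2Cls_of_one_le hW h₃ h3, heq, div_self h20]
      exact ⟨FA_S05_mRel.refl _ _, fun _ => rfl⟩
    · have hd : v (x₁ - x₂) = v x₁ := v.map_sub_eq_of_lt_left hgt
      rw [hd] at f
      have h3 : v x₃ = v x₂ / v x₁ := by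
        field_simp
        apply mul_right_cancel₀ h10
        rw [mul_assoc, ← pow_two, f, mul_comm]
      have h3a : v W.a₄ < v x₃ := by
        rw [h3, lt_div_iff₀ (zero_lt_iff.2 h10)]
        calc v W.a₄ * v x₁ ≤ v W.a₄ * 1 := mul_le_mul_right hx₁'.le _
          _ = v W.a₄ := mul_one _
          _ < v x₂ := hx₂
      have h3b : v x₃ < 1 := by
        rw [h3, div_lt_iff₀ (zero_lt_iff.2 h10), one_mul]
        exact hgt
      rw [FA_S13_m2Cls_of_node h₃ h3a h3b]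
      refine ⟨FA_S05_mRel.of_mul_eq_one ?_, fun h => absurd h hgt.ne'⟩
      rw [h3]
      field_simp

end Fermat.Agent.S13
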