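import Fermat.Agent.S13.M2E0

/-!
# S13, multiplicative case in any residue characteristic: the two branches at the node

`α` is a root of `t² + t = a₂`, `β = -1 - α` the other one.  A point of node type
(`v a₄ < v x < 1`) lies on exactly one branch: `v (y - αx) < v x` or `v (y - βx) < v x`.
Two points of node type with the same `v x` on the same branch differ by an element of `E₀`.
-/

open WeierstrassCurve WeierstrassCurve.Affine

namespace Fermat.Agent.S13

open Fermat.Agent.S05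

variable {K : Type*} [Field K] {W : WeierstrassCurve.Affine K}
variable {Γ : Type*} [LinearOrderedCommGroupWithZero Γ] {v : Valuation K Γ}

/-- `v α ≤ 1` for a root of `t² + t = a₂`. -/
lemma FA_S13_m2_v_root_le (hW : FA_S13_m2Mult W v) {α : K} (hα : α ^ 2 + α = W.a₂) :
    v α ≤ 1 := by
  by_contra hlt
  rw [not_le] at hlt
  have h1 : v α < v (α ^ 2) := by
    rw [map_pow, pow_two]
    calc v α = 1 * v α := (one_mul _).symm
      _ < v α * v α := mul_lt_mul_of_pos_right hlt (zero_lt_one.trans hlt)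
  have h2 : v (α ^ 2 + α) = v (α ^ 2) := v.map_add_eq_of_lt_left h1
  rw [hα] at h2
  have h3 : (1 : Γ) < v (α ^ 2) := hlt.trans h1
  rw [← h2] at h3
  exact absurd hW.a2 (not_le.2 h3)

/-- The other root. -/
lemma FA_S13_m2_other_root {α : K} (hα : α ^ 2 + α = W.a₂) :
    (-1 - α) ^ 2 + (-1 - α) = W.a₂ := by
  rw [← hα]
  ring

/-- `v (β - α) = 1`. -/
lemma FA_S13_m2_v_root_sub (hW : FA_S13_m2Mult W v) {α : K} (hα : α ^ 2 + α = W.a₂) :
    v ((-1 - α) - α) = 1 := by
  have h1 : ((-1 - α) - α) ^ 2 = 1 + 4 * W.a₂ := by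
    rw [← hα]
    ring
  have h2 := congrArg v h1
  rw [map_pow, hW.disc] at h2
  exact (pow_eq_one_iff_of_nonneg zero_le two_ne_zero).1 h2

/-- The product of the two branch functions is small. -/
lemma FA_S13_m2_branch_mul (hW : FA_S13_m2Mult W v) {α : K} (hα : α ^ 2 + α = W.a₂)
    {x y : K} (h : W.Nonsingular x y) (hx : v W.a₄ < v x) (hx' : v x < 1) :
    v (y - α * x) * v (y - (-1 - α) * x) < v x ^ 2 := by
  have e := FA_S05_m_eq hW.toFA_S05_mShape h
  have hx0 : v x ≠ 0 := (zero_le.trans_lt hx).ne'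
  have hpos : (0 : Γ) < v x := zero_lt_iff.2 hx0
  have key : (y - α * x) * (y - (-1 - α) * x) = x ^ 3 + W.a₄ * x := by
    rw [← hα] at e
    linear_combination e
  rw [← map_mul, key]
  refine Valuation.map_add_lt _ ?_ ?_
  · rw [map_pow, pow_succ]
    calc v x ^ 2 * v x < v x ^ 2 * 1 := by
          rw [mul_one]
          exact mul_lt_of_lt_one_right (pow_pos hpos 2) hx'
      _ = v x ^ 2 := mul_one _
  · rw [map_mul, pow_two]
    exact mul_lt_mul_of_pos_right hx hpos

/-- A point of node type lies on one of the two branches. -/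
theorem FA_S13_m2_branch (hW : FA_S13_m2Mult W v) {α : K} (hα : α ^ 2 + α = W.a₂)
    {x y : K} (h : W.Nonsingular x y) (hx : v W.a₄ < v x) (hx' : v x < 1) :
    v (y - α * x) < v x ∨ v (y - (-1 - α) * x) < v x := by
  by_contra hcon
  rw [not_or, not_lt, not_lt] at hcon
  have h1 := FA_S13_m2_branch_mul hW hα h hx hx'
  have h2 : v x ^ 2 ≤ v (y - α * x) * v (y - (-1 - α) * x) := by
    rw [pow_two]
    exact mul_le_mul' hcon.1 hcon.2
  exact absurd h2 (not_le.2 h1)

variable [DecidableEq K]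

/-- Two points of node type with the same `v x` on the same branch (any `α`) differ by an
element of `E₀`. -/
theorem FA_S13_m2_sub_of_same_branch (hW : FA_S13_m2Mult W v) (α : K) {x₁ y₁ x₂ y₂ : K}
    (h₁ : W.Nonsingular x₁ y₁) (h₂ : W.Nonsingular x₂ y₂)
    (hx₁ : v W.a₄ < v x₁) (hx₁' : v x₁ < 1) (hx : v x₁ = v x₂)
    (ht₁ : v (y₁ - α * x₁) < v x₁) (ht₂ : v (y₂ - α * x₂) < v x₂) :
    FA_S13_m2Cls v (Point.some x₁ y₁ h₁ - Point.some x₂ y₂ h₂) = 1 := by
  have hx₂ : v W.a₄ < v x₂ := hx ▸ hx₁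
  have hx₂' : v x₂ < 1 := hx ▸ hx₁'
  have h10 : v x₁ ≠ 0 := (zero_le.trans_lt hx₁).ne'
  have h20 : v x₂ ≠ 0 := (zero_le.trans_lt hx₂).ne'
  have hSm : v (y₁ * x₂ - y₂ * x₁) < v x₁ * v x₂ := by
    have key : y₁ * x₂ - y₂ * x₁ = (y₁ - α * x₁) * x₂ - (y₂ - α * x₂) * x₁ := by ring
    rw [key]
    refine Valuation.map_sub_lt _ ?_ ?_
    · rw [map_mul]
      exact mul_lt_mul_of_pos_right ht₁ (zero_lt_iff.2 h20)
    · rw [map_mul, mul_comm (v x₁)]
      exact mul_lt_mul_of_pos_right ht₂ (zero_lt_iff.2 h10)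
  rcases FA_S13_m2_node_node_S hW h₁ h₂ hx₁ hx₁' hx₂ hx₂' with hS | hS
  · exact (FA_S13_m2_cls_node_sub_node hW h₁ h₂ hx₁ hx₁' hx₂ hx₂' hS).2 hx
  · exact absurd hS hSm.ne

end Fermat.Agent.S13
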