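import Fermat.Agent.S13.TorsSpec

/-!
# S13 part (a): auxiliary valuation lemmas (helper9)
-/

namespace Fermat.Agent.S13

open WeierstrassCurve Polynomial Fermat.Agent.S05
open scoped WeierstrassCurve.Affine

section xclose

variable {F : Type*} [Field F] {Γ₀ : Type*} [LinearOrderedCommGroupWithZero Γ₀]
  {v : Valuation F Γ₀} [DecidableEq F]

/-- Converse of closeness (for the `x`-coordinate): if the difference of two integral points
is in the kernel of reduction, their `x`-coordinates are congruent. -/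
lemma FA_S13_x_close_of_sub_E1 {W : WeierstrassCurve.Affine F} (hW : FA_S05_VInt v W)
    {x₁ y₁ x₂ y₂ : F} (h₁ : W.Nonsingular x₁ y₁) (h₂ : W.Nonsingular x₂ y₂)
    (hx₁ : v x₁ ≤ 1) (hx₂ : v x₂ ≤ 1)
    (hE : FA_S05_E1v v (Affine.Point.some x₁ y₁ h₁ - Affine.Point.some x₂ y₂ h₂)) :
    v (x₁ - x₂) < 1 := by
  by_cases hx : x₁ = x₂
  · rw [hx, sub_self, map_zero]; exact zero_lt_one
  have hxy : ¬(x₁ = x₂ ∧ y₁ = W.negY x₂ (W.negY x₂ y₂)) := fun h => hx h.1
  rw [sub_eq_add_neg, Affine.Point.neg_some, Affine.Point.add_some hxy, FA_S05_E1v_some] at hE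
  rw [Affine.slope_of_X_ne hx] at hE
  by_contra hcon
  rw [not_lt] at hcon
  have hy₁ : v y₁ ≤ 1 := FA_S05_y_int hW h₁.1 hx₁
  have hy₂ : v y₂ ≤ 1 := FA_S05_y_int hW h₂.1 hx₂
  obtain ⟨h1, h2, h3, h4, h6⟩ := hW
  have hneg : v (W.negY x₂ y₂) ≤ 1 := by
    rw [Affine.negY]
    exact v.map_sub_le (v.map_sub_le (by rw [v.map_neg]; exact hy₂)
      (FA_S05_v_mul_left v h1 hx₂)) h3
  have hl : v ((y₁ - W.negY x₂ y₂) / (x₁ - x₂)) ≤ 1 := by
    rw [map_div₀]
    have hpos : (0 : Γ₀) < v (x₁ - x₂) := lt_of_lt_of_le zero_lt_one hcon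
    rw [div_le_iff₀ hpos, one_mul]
    exact le_trans (v.map_sub_le hy₁ hneg) hcon
  have : v (W.addX x₁ x₂ ((y₁ - W.negY x₂ y₂) / (x₁ - x₂))) ≤ 1 := by
    rw [Affine.addX]
    refine v.map_sub_le (v.map_sub_le (v.map_sub_le (v.map_add_le ?_ ?_) h2) hx₁) hx₂
    · rw [map_pow]; exact pow_le_one' hl 2
    · exact FA_S05_v_mul_left v h1 hl
  exact absurd hE (not_lt.mpr this)

end xclose

section aeval

variable {K F : Type*} [Field K] [Field F] [Algebra K F]

/-- Valuation of a polynomial expression at a place where `x` has a pole. -/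
lemma FA_S13_val_aeval {A : ValuationSubring F} (hA : ∀ c : K, algebraMap K F c ∈ A)
    {x : F} (hx : x ∉ A) {f : K[X]} (hf : f ≠ 0) :
    A.valuation (aeval x f) = A.valuation x ^ f.natDegree := by
  have hx1 : 1 < A.valuation x := (FA_S05_not_mem_iff A x).mp hx
  have hx0 : (0 : A.ValueGroup) < A.valuation x := lt_trans zero_lt_one hx1
  rw [aeval_eq_sum_range, Finset.sum_range_succ]
  have hlead : A.valuation (f.coeff f.natDegree • x ^ f.natDegree)
      = A.valuation x ^ f.natDegree := by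
    have hc : f.coeff f.natDegree ≠ 0 := Polynomial.leadingCoeff_ne_zero.mpr hf
    rw [Algebra.smul_def, map_mul, map_pow, FA_S13_const_val hA hc, one_mul]
  have hlow : A.valuation (∑ i ∈ Finset.range f.natDegree, f.coeff i • x ^ i)
      < A.valuation x ^ f.natDegree := by
    refine Valuation.map_sum_lt _ (pow_ne_zero _ (ne_of_gt hx0)) ?_
    intro i hi
    rw [Finset.mem_range] at hi
    rw [Algebra.smul_def, map_mul, map_pow]
    have hc : A.valuation (algebraMap K F (f.coeff i)) ≤ 1 :=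
      (A.valuation_le_one_iff _).mpr (hA _)
    calc A.valuation (algebraMap K F (f.coeff i)) * A.valuation x ^ i
        ≤ 1 * A.valuation x ^ i := mul_le_mul' hc le_rfl
      _ = A.valuation x ^ i := one_mul _
      _ < A.valuation x ^ f.natDegree := pow_lt_pow_right₀ hx1 hi
  rw [Valuation.map_add_eq_of_lt_right _ (by rw [hlead]; exact hlow), hlead]

end aeval

end Fermat.Agent.S13
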