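import Fermat.Agent.S13.TorsReg

/-!
# S13 part (a): `x (n • η)` is even, hence in `K(x)`, hence a polynomial in `x` (helper9)
-/

set_option linter.unusedSectionVars false

namespace Fermat.Agent.S13

open WeierstrassCurve Polynomial Fermat.Agent.S05
open scoped WeierstrassCurve.Affine

variable {R K F : Type*} [CommRing R] [Field K] [Field F] [Algebra R K] [Algebra R F]
  [Algebra K F] [IsScalarTower R K F]

section generic

variable {W' : WeierstrassCurve.Affine R} (D : FA_S13_Generic W' K F)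

lemma FA_S13_ι_aeval (u : K[X]) : D.ι (aeval D.x u) = aeval D.x u := by
  rw [← Polynomial.aeval_algHom_apply, D.ιx]

/-- `2y + a₁x + a₃ ≠ 0` for the generic point. -/
lemma FA_S13_two_y_ne_zero [CharZero K] :
    D.y - (W'⁄F).negY D.x D.y ≠ 0 := by
  intro h
  have hgen := FA_S13_generic_eq D
  set a₁ := (W'⁄K).a₁
  set a₂ := (W'⁄K).a₂
  set a₃ := (W'⁄K).a₃
  set a₄ := (W'⁄K).a₄
  set a₆ := (W'⁄K).a₆
  have hs : 2 * D.y + algebraMap K F a₁ * D.x + algebraMap K F a₃ = 0 := by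
    rw [Affine.negY, FA_S13_a₁ (K := K), FA_S13_a₃ (K := K)] at h
    linear_combination h
  let g : K[X] := C 4 * X ^ 3 + C (a₁ ^ 2 + 4 * a₂) * X ^ 2 + C (4 * a₄ + 2 * a₁ * a₃) * X
    + C (a₃ ^ 2 + 4 * a₆)
  have hg : g ≠ 0 := by
    intro h0
    have h3 : g.coeff 3 = 4 := by
      simp only [g, coeff_add, coeff_C_mul, coeff_X_pow, coeff_X, coeff_C]
      norm_num
    rw [h0, coeff_zero] at h3
    exact (by norm_num : (4 : K) ≠ 0) h3.symm
  apply D.transc
  refine ⟨g, hg, ?_⟩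
  simp only [g, map_add, map_mul, map_pow, aeval_C, aeval_X, map_ofNat]
  linear_combination (2 * D.y + algebraMap K F a₁ * D.x + algebraMap K F a₃) * hs - 4 * hgen

/-- **Step 4**: an `ι`-invariant element is a rational function of `x`. -/
lemma FA_S13_even_rational [CharZero K] {t : F} (ht : D.ι t = t) :
    ∃ u₁ u₂ : K[X], u₂ ≠ 0 ∧ t = aeval D.x u₁ / aeval D.x u₂ := by
  obtain ⟨u₁, u₂, v₁, v₂, hu₂, hv₂, e⟩ := D.span t
  refine ⟨u₁, u₂, hu₂, ?_⟩
  have h1 : D.ι t = aeval D.x u₁ / aeval D.x u₂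
      + aeval D.x v₁ / aeval D.x v₂ * (W'⁄F).negY D.x D.y := by
    rw [e, map_add, map_mul, map_div₀, map_div₀, FA_S13_ι_aeval, FA_S13_ι_aeval,
      FA_S13_ι_aeval, FA_S13_ι_aeval, D.ιy]
  rw [ht] at h1
  have h2 : aeval D.x v₁ / aeval D.x v₂ * (D.y - (W'⁄F).negY D.x D.y) = 0 := by
    rw [mul_sub]
    nth_rewrite 1 [e] at h1
    linear_combination h1
  rcases mul_eq_zero.mp h2 with h3 | h3
  · rw [e, h3, zero_mul, add_zero]
  · exact absurd h3 (FA_S13_two_y_ne_zero D)

/-- **Step 5**: a rational function of `x` that is integral at all finite places is a polynomial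
in `x`. -/
lemma FA_S13_poly_of_regular [IsAlgClosed K] :
    ∀ g : K[X], g ≠ 0 → ∀ u : K[X],
      (∀ A : ValuationSubring F, (∀ c : K, algebraMap K F c ∈ A) → D.x ∈ A →
        aeval D.x u / aeval D.x g ∈ A) →
      ∃ f : K[X], aeval D.x u / aeval D.x g = aeval D.x f := by
  refine FA_S13_poly_induction ?_ ?_
  · intro c hc u _
    refine ⟨C c⁻¹ * u, ?_⟩
    rw [map_mul, aeval_C, aeval_C, map_inv₀, div_eq_inv_mul]
  · intro a g hg ih u hreg
    have hxa := FA_S13_x_sub_ne_zero D a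
    have hgx := FA_S13_aeval_ne_zero D hg
    by_cases hua : u.eval a = 0
    · obtain ⟨u', hu'⟩ := Polynomial.dvd_iff_isRoot.mpr hua
      have e : aeval D.x u / aeval D.x ((X - C a) * g) = aeval D.x u' / aeval D.x g := by
        rw [hu', map_mul, map_mul, map_sub, aeval_X, aeval_C]
        field_simp
      rw [e]
      refine ih u' ?_
      intro A hA hx
      rw [← e]
      exact hreg A hA hx
    · exfalso
      obtain ⟨A, hA, hxaA⟩ := FA_S13_place_at D a
      have hx := FA_S13_x_mem_of_place_at D hA hxaA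
      have ht := hreg A hA hx
      rw [← A.valuation_le_one_iff] at ht
      have hu1 : A.valuation (aeval D.x u) = 1 := by
        have h1 := FA_S13_aeval_sub_mem_nonunits hA hxaA u
        rw [A.mem_nonunits_iff] at h1
        have h2 : A.valuation (algebraMap K F (u.eval a)) = 1 := FA_S13_const_val hA hua
        have h3 := Valuation.map_add_eq_of_lt_right A.valuation
          (x := aeval D.x u - algebraMap K F (u.eval a)) (y := algebraMap K F (u.eval a))
          (by rw [h2]; exact h1)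
        rw [sub_add_cancel, h2] at h3
        exact h3
      have hg1 : A.valuation (aeval D.x g) ≤ 1 :=
        (A.valuation_le_one_iff _).mpr (FA_S13_aeval_mem hA hx g)
      rw [A.mem_nonunits_iff] at hxaA
      have hden : A.valuation (aeval D.x ((X - C a) * g)) < 1 := by
        rw [map_mul, map_mul, map_sub, aeval_X, aeval_C]
        exact lt_of_le_of_lt (FA_S05_v_mul_right _ le_rfl hg1) hxaA
      have hden0 : A.valuation (aeval D.x ((X - C a) * g)) ≠ 0 := by
        rw [Valuation.ne_zero_iff]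
        exact FA_S13_aeval_ne_zero D (mul_ne_zero (X_sub_C_ne_zero a) hg)
      rw [map_div₀, hu1, div_le_iff₀ (zero_lt_iff.mpr hden0), one_mul] at ht
      exact absurd hden (not_lt.mpr ht)

variable [DecidableEq K] [DecidableEq F]

lemma FA_S13_xc_map {W' : WeierstrassCurve.Affine R} (f : F →ₐ[K] F) (Q : (W'⁄F).Point) :
    FA_S13_xc (Affine.Point.map (W' := W') f Q) = f (FA_S13_xc Q) := by
  rcases Q with _ | ⟨x, y, h⟩
  · exact (map_zero f).symm
  · rfl

lemma FA_S13_xc_neg {W : WeierstrassCurve.Affine F} (Q : W.Point) :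
    FA_S13_xc (-Q) = FA_S13_xc Q := by
  rcases Q with _ | ⟨x, y, h⟩
  · rfl
  · rfl

lemma FA_S13_ι_η (hΔ : (W'⁄K).Δ ≠ 0) :
    Affine.Point.map (W' := W') D.ι (FA_S13_η D hΔ) = -FA_S13_η D hΔ := by
  simp only [FA_S13_η, Affine.Point.map_some, Affine.Point.neg_some, D.ιx, D.ιy]

/-- **Step 3**: `x (n • η)` is `ι`-invariant. -/
lemma FA_S13_ι_xn (hΔ : (W'⁄K).Δ ≠ 0) (n : ℕ) :
    D.ι (FA_S13_xc (n • FA_S13_η D hΔ)) = FA_S13_xc (n • FA_S13_η D hΔ) := by
  rw [← FA_S13_xc_map, map_nsmul, FA_S13_ι_η, smul_neg, FA_S13_xc_neg]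

/-- **Steps 2–5**: if there is no nonzero `n`-torsion point over `K`, then `x (n • η)` is a
polynomial in `x`. -/
lemma FA_S13_xn_poly [IsAlgClosed K] [CharZero K] (hΔ : (W'⁄K).Δ ≠ 0) {n : ℕ}
    (hno : ∀ P : (W'⁄K).Point, n • P = 0 → P = 0) :
    ∃ f : K[X], FA_S13_xc (n • FA_S13_η D hΔ) = aeval D.x f := by
  obtain ⟨u₁, u₂, hu₂, e⟩ := FA_S13_even_rational D (FA_S13_ι_xn D hΔ n)
  rw [e]
  refine FA_S13_poly_of_regular D u₂ hu₂ u₁ ?_
  intro A hA hx
  rw [← e]
  exact FA_S13_xn_mem D hΔ hno hA hx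

end generic

end Fermat.Agent.S13
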