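import Fermat.Agent.S13.TorsFinal

/-!
# S13 part (a): the function field of a Weierstrass curve with its generic point (helper9)

`F = K(x)[y]/(y² + (a₁x + a₃)y − (x³ + a₂x² + a₄x + a₆))`, as `AdjoinRoot` over `RatFunc K`.
-/

set_option linter.unusedSectionVars false

namespace Fermat.Agent.S13

open WeierstrassCurve Polynomial
open scoped WeierstrassCurve.Affine

variable {K : Type*} [Field K] (W : WeierstrassCurve.Affine K)

/-- The defining polynomial of the curve over `K(x)`. -/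
noncomputable def FA_S13_fpoly : (RatFunc K)[X] :=
  W.polynomial.map (algebraMap K[X] (RatFunc K))

lemma FA_S13_fpoly_monic : (FA_S13_fpoly W).Monic :=
  (Affine.monic_polynomial).map _

lemma FA_S13_fpoly_irreducible : Irreducible (FA_S13_fpoly W) :=
  (Polynomial.Monic.irreducible_iff_irreducible_map_fraction_map
    (Affine.monic_polynomial (W := W))).mp Affine.irreducible_polynomial

instance FA_S13_fact_irr : Fact (Irreducible (FA_S13_fpoly W)) :=
  ⟨FA_S13_fpoly_irreducible W⟩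

/-- The function field of the curve. -/
abbrev FA_S13_FF : Type _ := AdjoinRoot (FA_S13_fpoly W)

/-- The generic `x`. -/
noncomputable def FA_S13_gx : FA_S13_FF W := algebraMap (RatFunc K) (FA_S13_FF W) RatFunc.X

/-- The generic `y`. -/
noncomputable def FA_S13_gy : FA_S13_FF W := AdjoinRoot.root (FA_S13_fpoly W)

lemma FA_S13_aeval_gx (g : K[X]) :
    aeval (FA_S13_gx W) g
      = algebraMap (RatFunc K) (FA_S13_FF W) (algebraMap K[X] (RatFunc K) g) := by
  rw [FA_S13_gx, Polynomial.aeval_algebraMap_apply]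
  congr 1
  exact RatFunc.aeval_X_left_eq_algebraMap g

lemma FA_S13_gx_transc : Transcendental K (FA_S13_gx W) := by
  rintro ⟨g, hg, h⟩
  rw [FA_S13_aeval_gx] at h
  have h1 := (algebraMap (RatFunc K) (FA_S13_FF W)).injective
    (h.trans (map_zero _).symm)
  exact hg (IsFractionRing.injective K[X] (RatFunc K) (h1.trans (map_zero _).symm))

lemma FA_S13_fpoly_eval₂ {S : Type*} [CommRing S] (φ : RatFunc K →+* S) (r : S) :
    eval₂ φ r (FA_S13_fpoly W)
      = r ^ 2 + (φ (algebraMap K (RatFunc K) W.a₁) * φ RatFunc.X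
          + φ (algebraMap K (RatFunc K) W.a₃)) * r
        - (φ RatFunc.X ^ 3 + φ (algebraMap K (RatFunc K) W.a₂) * φ RatFunc.X ^ 2
          + φ (algebraMap K (RatFunc K) W.a₄) * φ RatFunc.X
          + φ (algebraMap K (RatFunc K) W.a₆)) := by
  have e1 : ∀ c : K, (algebraMap K[X] (RatFunc K)) (C c) = algebraMap K (RatFunc K) c := by
    intro c
    rfl
  rw [FA_S13_fpoly, Polynomial.eval₂_map, Affine.polynomial]
  simp only [eval₂_sub, eval₂_add, eval₂_mul, eval₂_pow, eval₂_X, eval₂_C, RingHom.comp_apply,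
    map_add, map_mul, map_pow, e1, RatFunc.algebraMap_X]

/-- The relation satisfied by the generic point. -/
lemma FA_S13_g_rel :
    FA_S13_gy W ^ 2 + (algebraMap K (FA_S13_FF W) W.a₁ * FA_S13_gx W
        + algebraMap K (FA_S13_FF W) W.a₃) * FA_S13_gy W
      = FA_S13_gx W ^ 3 + algebraMap K (FA_S13_FF W) W.a₂ * FA_S13_gx W ^ 2
        + algebraMap K (FA_S13_FF W) W.a₄ * FA_S13_gx W + algebraMap K (FA_S13_FF W) W.a₆ := by
  have h := AdjoinRoot.eval₂_root (FA_S13_fpoly W)
  rw [FA_S13_fpoly_eval₂] at h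
  have e1 : ∀ c : K, (AdjoinRoot.of (FA_S13_fpoly W)) (algebraMap K (RatFunc K) c)
      = algebraMap K (FA_S13_FF W) c := by
    intro c
    rfl
  have e2 : (AdjoinRoot.of (FA_S13_fpoly W)) RatFunc.X = FA_S13_gx W := rfl
  have e3 : AdjoinRoot.root (FA_S13_fpoly W) = FA_S13_gy W := rfl
  rw [e1, e1, e1, e1, e1, e2, e3] at h
  linear_combination h

lemma FA_S13_of_ratFunc (c : RatFunc K) :
    algebraMap (RatFunc K) (FA_S13_FF W) c
      = aeval (FA_S13_gx W) c.num / aeval (FA_S13_gx W) c.denom := by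
  rw [FA_S13_aeval_gx, FA_S13_aeval_gx, ← map_div₀, RatFunc.num_div_denom]

/-- Every element of the function field is `u + v y` with `u, v ∈ K(x)`. -/
lemma FA_S13_g_span (t : FA_S13_FF W) : ∃ u₁ u₂ v₁ v₂ : K[X], u₂ ≠ 0 ∧ v₂ ≠ 0 ∧
    t = aeval (FA_S13_gx W) u₁ / aeval (FA_S13_gx W) u₂
      + aeval (FA_S13_gx W) v₁ / aeval (FA_S13_gx W) v₂ * FA_S13_gy W := by
  obtain ⟨g, rfl⟩ := AdjoinRoot.mk_surjective (g := FA_S13_fpoly W) t
  have hm := FA_S13_fpoly_monic W
  have h1 : AdjoinRoot.mk (FA_S13_fpoly W) g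
      = AdjoinRoot.mk (FA_S13_fpoly W) (g %ₘ FA_S13_fpoly W) := by
    rw [AdjoinRoot.mk_eq_mk, Polynomial.modByMonic_eq_sub_mul_div g (FA_S13_fpoly W),
      sub_sub_cancel]
    exact dvd_mul_right _ _
  have hdeg : (g %ₘ FA_S13_fpoly W).natDegree ≤ 1 := by
    have h2 := Polynomial.natDegree_modByMonic_lt g hm (by
      intro h
      have := FA_S13_fpoly_irreducible W
      rw [h] at this
      exact not_irreducible_one this)
    have h3 : (FA_S13_fpoly W).natDegree = 2 := by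
      rw [FA_S13_fpoly, (Affine.monic_polynomial (W := W)).natDegree_map]
      exact Affine.natDegree_polynomial
    omega
  obtain ⟨c₁, c₀, hc⟩ := Polynomial.exists_eq_X_add_C_of_natDegree_le_one hdeg
  refine ⟨c₀.num, c₀.denom, c₁.num, c₁.denom, RatFunc.denom_ne_zero _,
    RatFunc.denom_ne_zero _, ?_⟩
  rw [h1, hc, map_add, map_mul, AdjoinRoot.mk_C, AdjoinRoot.mk_C, AdjoinRoot.mk_X,
    ← FA_S13_of_ratFunc, ← FA_S13_of_ratFunc, FA_S13_gy, add_comm]
  rfl

/-- The conjugate of the generic `y`. -/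
noncomputable def FA_S13_gy' : FA_S13_FF W :=
  -FA_S13_gy W - algebraMap K (FA_S13_FF W) W.a₁ * FA_S13_gx W - algebraMap K (FA_S13_FF W) W.a₃

lemma FA_S13_gy'_root :
    eval₂ (IsScalarTower.toAlgHom K (RatFunc K) (FA_S13_FF W)) (FA_S13_gy' W) (FA_S13_fpoly W)
      = 0 := by
  have h := FA_S13_g_rel W
  have e := FA_S13_fpoly_eval₂ W
    ((IsScalarTower.toAlgHom K (RatFunc K) (FA_S13_FF W) : RatFunc K →+* FA_S13_FF W))
    (FA_S13_gy' W)
  have e1 : ∀ c : K, (IsScalarTower.toAlgHom K (RatFunc K) (FA_S13_FF W) :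
      RatFunc K →+* FA_S13_FF W) (algebraMap K (RatFunc K) c)
      = algebraMap K (FA_S13_FF W) c := by
    intro c
    rfl
  have e2 : (IsScalarTower.toAlgHom K (RatFunc K) (FA_S13_FF W) :
      RatFunc K →+* FA_S13_FF W) RatFunc.X = FA_S13_gx W := rfl
  rw [e1, e1, e1, e1, e1, e2] at e
  refine e.trans ?_
  rw [FA_S13_gy']
  linear_combination h

/-- The conjugation of the function field. -/
noncomputable def FA_S13_gι : FA_S13_FF W →ₐ[K] FA_S13_FF W :=
  AdjoinRoot.liftAlgHom (FA_S13_fpoly W) (IsScalarTower.toAlgHom K (RatFunc K) (FA_S13_FF W))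
    (FA_S13_gy' W) (FA_S13_gy'_root W)

lemma FA_S13_gι_x : FA_S13_gι W (FA_S13_gx W) = FA_S13_gx W := by
  rw [FA_S13_gι]
  exact AdjoinRoot.liftAlgHom_of _ _ _ _ _

lemma FA_S13_gι_y : FA_S13_gι W (FA_S13_gy W) = FA_S13_gy' W := by
  rw [FA_S13_gι, FA_S13_gy]
  exact AdjoinRoot.liftAlgHom_root _ _ _ _

/-- The function field with its generic point. -/
noncomputable def FA_S13_generic : FA_S13_Generic W K (FA_S13_FF W) where
  x := FA_S13_gx W
  y := FA_S13_gy W
  ι := FA_S13_gι W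
  eq := by
    rw [Affine.equation_iff, FA_S13_a₁ (K := K), FA_S13_a₂ (K := K), FA_S13_a₃ (K := K),
      FA_S13_a₄ (K := K), FA_S13_a₆ (K := K)]
    have h := FA_S13_g_rel W
    have e : ∀ c : K, algebraMap K K c = c := fun c => rfl
    simp only [Affine.baseChange, WeierstrassCurve.baseChange, WeierstrassCurve.map_a₁,
      WeierstrassCurve.map_a₂, WeierstrassCurve.map_a₃, WeierstrassCurve.map_a₄,
      WeierstrassCurve.map_a₆, e]
    linear_combination h
  ιx := FA_S13_gι_x W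
  ιy := by
    rw [FA_S13_gι_y, FA_S13_gy', Affine.negY, FA_S13_a₁ (K := K), FA_S13_a₃ (K := K)]
    rfl
  transc := FA_S13_gx_transc W
  span := FA_S13_g_span W

end Fermat.Agent.S13
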