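import Fermat.Agent.S13.TorsEven

/-!
# S13 part (a): existence of `n`-torsion points via the generic point (helper9)

Main theorem `FA_S13_exists_torsion_of_generic`.
-/

set_option linter.unusedSectionVars false

namespace Fermat.Agent.S13

open WeierstrassCurve Polynomial Fermat.Agent.S05
open scoped WeierstrassCurve.Affine

variable {R K F : Type*} [CommRing R] [Field K] [Field F] [Algebra R K] [Algebra R F]
  [Algebra K F] [IsScalarTower R K F]

section generic

variable {W' : WeierstrassCurve.Affine R} (D : FA_S13_Generic W' K F)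

variable [DecidableEq K] [DecidableEq F]

/-- **Step 6**: the polynomial has degree `1`. -/
lemma FA_S13_deg_one [CharZero K] (hΔ : (W'⁄K).Δ ≠ 0) {n : ℕ} (hn : n ≠ 0) {f : K[X]}
    (hf : FA_S13_xc (n • FA_S13_η D hΔ) = aeval D.x f) : f.natDegree = 1 := by
  obtain ⟨A, hA, hx⟩ := FA_S13_place_inf D
  have hv := FA_S13_val_xc_nsmul D hΔ hA hx hn
  have hx1 : 1 < A.valuation D.x := (FA_S05_not_mem_iff A _).mp hx
  have hf0 : f ≠ 0 := by
    rintro rfl
    rw [hf, map_zero, map_zero] at hv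
    exact absurd hv.symm (ne_of_gt (lt_trans zero_lt_one hx1))
  rw [hf, FA_S13_val_aeval hA hx hf0] at hv
  rcases lt_trichotomy f.natDegree 1 with h | h | h
  · have := pow_lt_pow_right₀ hx1 h
    rw [hv, pow_one] at this
    exact absurd this (lt_irrefl _)
  · exact h
  · have := pow_lt_pow_right₀ hx1 h
    rw [hv, pow_one] at this
    exact absurd this (lt_irrefl _)

/-- **Step 7**: the polynomial fixes the `x`-coordinates of the points `T` with `n • T = T`
and `T = -T`. -/
lemma FA_S13_f_fix [IsAlgClosed K] [CharZero K] (hΔ : (W'⁄K).Δ ≠ 0) {n : ℕ} (hn : n ≠ 0)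
    (hno : ∀ P : (W'⁄K).Point, n • P = 0 → P = 0) {f : K[X]}
    (hf : FA_S13_xc (n • FA_S13_η D hΔ) = aeval D.x f) {e b : K}
    (h : (W'⁄K).Nonsingular e b)
    (hT : n • (Affine.Point.some e b h : (W'⁄K).Point) = Affine.Point.some e b h)
    (hb : b = (W'⁄K).negY e b) : f.eval e = e := by
  obtain ⟨A, hA, hxa⟩ := FA_S13_place_at D e
  obtain ⟨b', hns', hyb'⟩ := FA_S13_center D hΔ hA hxa
  have hbb : b' = b := by
    rcases Affine.Y_eq_of_X_eq hns'.1 h.1 rfl with h1 | h1
    · exact h1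
    · rw [h1, ← hb]
  subst hbb
  have hW := FA_S13_integral (K := K) W' hA
  have hx := FA_S13_x_mem_of_place_at D hA hxa
  have hxn := FA_S13_xn_mem D hΔ hno hA hx
  have hclose := FA_S13_E1_nsmul A hW (FA_S13_generic_close D hΔ hA h hxa hyb') n
  rw [smul_sub, ← map_nsmul, hT] at hclose
  obtain ⟨h'', ebc⟩ := FA_S13_bc_some (F := F) W' h
  rw [ebc] at hclose
  have hne := FA_S13_η_nsmul_ne_zero D hΔ hn
  rcases hQ : n • FA_S13_η D hΔ with _ | ⟨xn, yn, hnn⟩
  · exact absurd hQ hne
  · rw [hQ] at hclose hf hxn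
    rw [FA_S13_xc_some] at hf hxn
    rw [FA_S05_E1_iff_E1v] at hclose
    have h1 := FA_S13_x_close_of_sub_E1 (FA_S05_VInt_of_Integral hW) hnn h''
      ((A.valuation_le_one_iff _).mpr hxn) ((A.valuation_le_one_iff _).mpr (hA e)) hclose
    have h2 := FA_S13_aeval_sub_mem_nonunits hA hxa f
    rw [A.mem_nonunits_iff] at h2
    have h3 : A.valuation (algebraMap K F (f.eval e - e)) < 1 := by
      have e1 : algebraMap K F (f.eval e - e)
          = (xn - algebraMap K F e) - (aeval D.x f - algebraMap K F (f.eval e)) := by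
        rw [hf, map_sub]; ring
      rw [e1]
      exact lt_of_le_of_lt (Valuation.map_sub _ _ _) (max_lt h1 h2)
    have h4 := FA_S13_const_eq_zero_of_mem_nonunits hA ((A.mem_nonunits_iff).mpr h3)
    exact sub_eq_zero.mp h4

lemma FA_S13_two_torsion_nsmul {W : WeierstrassCurve.Affine K} {e b : K}
    (h : W.Nonsingular e b) (hb : b = W.negY e b) {n : ℕ} (hodd : Odd n) :
    n • (Affine.Point.some e b h : W.Point) = Affine.Point.some e b h := by
  have hneg : -(Affine.Point.some e b h : W.Point) = Affine.Point.some e b h := by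
    rw [Affine.Point.neg_some]
    congr 1
    exact hb.symm
  have h2 : (2 : ℕ) • (Affine.Point.some e b h : W.Point) = 0 := by
    rw [two_nsmul]
    nth_rewrite 1 [← hneg]
    exact neg_add_cancel _
  obtain ⟨k, rfl⟩ := hodd
  rw [add_smul, mul_comm, mul_smul, h2, smul_zero, zero_add, one_smul]

include D in
/-- **Existence of torsion points** (Route A1): a Weierstrass curve with `Δ ≠ 0` over an
algebraically closed field `K` of characteristic `0`, admitting a function field with generic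
point and two `2`-torsion points with distinct `x`-coordinates, has a nonzero `n`-torsion point
for every odd `n > 1`. -/
theorem FA_S13_exists_torsion_of_generic [IsAlgClosed K] [CharZero K] (hΔ : (W'⁄K).Δ ≠ 0)
    {n : ℕ} (hodd : Odd n) (hn1 : 1 < n) {e₁ b₁ e₂ b₂ : K}
    (h₁ : (W'⁄K).Nonsingular e₁ b₁) (h₂ : (W'⁄K).Nonsingular e₂ b₂)
    (hb₁ : b₁ = (W'⁄K).negY e₁ b₁) (hb₂ : b₂ = (W'⁄K).negY e₂ b₂) (he : e₁ ≠ e₂) :
    ∃ P : (W'⁄K).Point, P ≠ 0 ∧ n • P = 0 := by
  by_contra hcon
  have hno : ∀ P : (W'⁄K).Point, n • P = 0 → P = 0 := by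
    intro P hP
    by_contra hP0
    exact hcon ⟨P, hP0, hP⟩
  have hn0 : n ≠ 0 := by omega
  obtain ⟨f, hf⟩ := FA_S13_xn_poly D hΔ hno
  have hdeg := FA_S13_deg_one D hΔ hn0 hf
  have hf₁ := FA_S13_f_fix D hΔ hn0 hno hf h₁ (FA_S13_two_torsion_nsmul h₁ hb₁ hodd) hb₁
  have hf₂ := FA_S13_f_fix D hΔ hn0 hno hf h₂ (FA_S13_two_torsion_nsmul h₂ hb₂ hodd) hb₂
  -- f = X
  obtain ⟨α, β, hαβ⟩ := Polynomial.exists_eq_X_add_C_of_natDegree_le_one (le_of_eq hdeg)
  rw [hαβ] at hf₁ hf₂ hf
  simp only [eval_add, eval_mul, eval_C, eval_X] at hf₁ hf₂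
  have hα : α = 1 := by
    have : (α - 1) * (e₁ - e₂) = 0 := by linear_combination hf₁ - hf₂
    rcases mul_eq_zero.mp this with h | h
    · exact sub_eq_zero.mp h
    · exact absurd (sub_eq_zero.mp h) he
  have hβ : β = 0 := by
    rw [hα] at hf₁
    linear_combination hf₁
  rw [hα, hβ] at hf
  simp only [map_one, one_mul, map_zero, add_zero, aeval_X] at hf
  -- n • η = ± η
  have hne := FA_S13_η_nsmul_ne_zero D hΔ hn0
  rcases hQ : n • FA_S13_η D hΔ with _ | ⟨xn, yn, hnn⟩
  · exact absurd hQ hne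
  · rw [hQ, FA_S13_xc_some] at hf
    subst hf
    rcases Affine.Y_eq_of_X_eq hnn.1 D.eq rfl with hy | hy
    · subst hy
      have e1 : n • FA_S13_η D hΔ = FA_S13_η D hΔ := hQ
      have e2 : (n - 1) • FA_S13_η D hΔ = 0 := by
        have : n • FA_S13_η D hΔ = (n - 1) • FA_S13_η D hΔ + FA_S13_η D hΔ := by
          rw [← succ_nsmul]; congr 1; omega
        rw [this] at e1
        exact add_eq_right.mp e1
      exact FA_S13_η_nsmul_ne_zero D hΔ (by omega) e2
    · subst hy
      have e1 : n • FA_S13_η D hΔ = -FA_S13_η D hΔ := by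
        rw [hQ, FA_S13_η, Affine.Point.neg_some]
      have e2 : (n + 1) • FA_S13_η D hΔ = 0 := by
        rw [succ_nsmul, e1, neg_add_cancel]
      exact FA_S13_η_nsmul_ne_zero D hΔ (by omega) e2

end generic

end Fermat.Agent.S13
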