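import Fermat.Agent.S13.TorsAux

/-!
# S13 part (a): existence of `n`-torsion points via the generic point (helper9)

Main theorem `FA_S13_exists_torsion_of_generic`: for a Weierstrass curve with `Δ ≠ 0` over an
algebraically closed field `K` of characteristic `0`, admitting a "function field with generic
point" `D : FA_S13_Generic W' K F` and two `2`-torsion points with distinct `x`-coordinates, for
every odd `n > 1` there is a nonzero `n`-torsion point.
-/

namespace Fermat.Agent.S13

open WeierstrassCurve Polynomial Fermat.Agent.S05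
open scoped WeierstrassCurve.Affine

variable {R K F : Type*} [CommRing R] [Field K] [Field F] [Algebra R K] [Algebra R F]
  [Algebra K F] [IsScalarTower R K F]

/-- Induction on polynomials over an algebraically closed field, by splitting off roots. -/
lemma FA_S13_poly_induction [IsAlgClosed K] {P : K[X] → Prop}
    (h0 : ∀ c : K, c ≠ 0 → P (C c))
    (hstep : ∀ (a : K) (g : K[X]), g ≠ 0 → P g → P ((X - C a) * g)) :
    ∀ g : K[X], g ≠ 0 → P g := by
  intro g
  induction hd : g.natDegree using Nat.strong_induction_on generalizing g with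
  | _ d ih =>
    intro hg
    by_cases hdeg : g.degree = 0
    · have := Polynomial.eq_C_of_degree_eq_zero hdeg
      rw [this]
      refine h0 _ ?_
      intro h0'
      rw [h0', C_0] at this
      exact hg this
    · obtain ⟨a, ha⟩ := IsAlgClosed.exists_root g hdeg
      obtain ⟨g', hg'⟩ := Polynomial.dvd_iff_isRoot.mpr ha
      have hg'0 : g' ≠ 0 := by
        rintro rfl
        rw [mul_zero] at hg'
        exact hg hg'
      have hdeg' : g'.natDegree < d := by
        rw [← hd, hg', Polynomial.natDegree_mul (Polynomial.X_sub_C_ne_zero a) hg'0,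
          Polynomial.natDegree_X_sub_C]
        omega
      rw [hg']
      exact hstep a g' hg'0 (ih _ hdeg' g' rfl hg'0)

section generic

variable {W' : WeierstrassCurve.Affine R} (D : FA_S13_Generic W' K F)

lemma FA_S13_x_sub_ne_zero (a : K) : D.x - algebraMap K F a ≠ 0 := by
  intro h
  have hx : D.x = algebraMap K F a := sub_eq_zero.mp h
  exact D.transc (hx ▸ isAlgebraic_algebraMap a)

lemma FA_S13_aeval_ne_zero {g : K[X]} (hg : g ≠ 0) : aeval D.x g ≠ 0 := by
  intro h
  exact D.transc ⟨g, hg, h⟩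

/-- The place at infinity. -/
lemma FA_S13_place_inf :
    ∃ A : ValuationSubring F, (∀ c : K, algebraMap K F c ∈ A) ∧ D.x ∉ A :=
  FA_S13_exists_place D.transc

/-- A place centered at `x = a`. -/
lemma FA_S13_place_at (a : K) :
    ∃ A : ValuationSubring F, (∀ c : K, algebraMap K F c ∈ A) ∧
      D.x - algebraMap K F a ∈ A.nonunits := by
  have ht : Transcendental K (D.x - algebraMap K F a)⁻¹ := by
    intro h
    apply D.transc
    have h1 : IsAlgebraic K (D.x - algebraMap K F a) := by
      have := h.inv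
      rwa [inv_inv] at this
    have h2 := h1.add (isAlgebraic_algebraMap (R := K) (A := F) a)
    rwa [sub_add_cancel] at h2
  obtain ⟨A, hA, hnot⟩ := FA_S13_exists_place ht
  refine ⟨A, hA, ?_⟩
  rw [A.mem_nonunits_iff_or]
  exact Or.inr hnot

lemma FA_S13_x_mem_of_place_at {A : ValuationSubring F}
    (hA : ∀ c : K, algebraMap K F c ∈ A) {a : K}
    (hxa : D.x - algebraMap K F a ∈ A.nonunits) : D.x ∈ A := by
  have h1 : D.x - algebraMap K F a ∈ A := A.nonunits_le hxa
  have : D.x = (D.x - algebraMap K F a) + algebraMap K F a := by ring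
  rw [this]
  exact add_mem h1 (hA a)

variable [DecidableEq K] [DecidableEq F]

/-- The generic point is in the kernel of reduction at infinity. -/
lemma FA_S13_η_E1 (hΔ : (W'⁄K).Δ ≠ 0) {A : ValuationSubring F} (hx : D.x ∉ A) :
    FA_S05_E1 A (FA_S13_η D hΔ) :=
  (FA_S05_E1_some A _).mpr hx

/-- **The generic point is not a torsion point.** -/
lemma FA_S13_η_nsmul_ne_zero [CharZero K] (hΔ : (W'⁄K).Δ ≠ 0) {m : ℕ} (hm : m ≠ 0) :
    m • FA_S13_η D hΔ ≠ 0 := by
  intro h
  obtain ⟨A, hA, hx⟩ := FA_S13_place_inf D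
  have := FA_S05_KL A (W'⁄F) (FA_S13_integral (K := K) W' hA) m
    (FA_S13_natCast_unit hA hm) _ (FA_S13_η_E1 D hΔ hx) h
  exact Affine.Point.some_ne_zero _ this

/-- **Pole order at infinity**: `x (m • η)` has the same valuation as `x` at infinity. -/
lemma FA_S13_val_xc_nsmul [CharZero K] (hΔ : (W'⁄K).Δ ≠ 0) {A : ValuationSubring F}
    (hA : ∀ c : K, algebraMap K F c ∈ A) (hx : D.x ∉ A) {m : ℕ} (hm : m ≠ 0) :
    A.valuation (FA_S13_xc (m • FA_S13_η D hΔ)) = A.valuation D.x := by
  have hW := FA_S05_VInt_of_Integral (FA_S13_integral (K := K) W' hA)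
  have hη : FA_S05_E1v A.valuation (FA_S13_η D hΔ) :=
    (FA_S05_E1_iff_E1v A _).mp (FA_S13_η_E1 D hΔ hx)
  obtain ⟨h1, h2⟩ := FA_S05_E1v_nsmul_est hW hη m
  have hne := FA_S13_η_nsmul_ne_zero D hΔ hm
  have hx1 : 1 < A.valuation D.x := (FA_S05_not_mem_iff A _).mp hx
  obtain ⟨-, -, hzlt, -, hzne, -, hxz⟩ := FA_S05_E1_coords hW D.eq hx1
  have hm1 : A.valuation ((m : F)) = 1 := by
    have h3 := FA_S13_natCast_unit (K := K) hA hm
    rw [A.mem_nonunits_iff, not_lt] at h3
    exact le_antisymm ((A.valuation_le_one_iff _).mpr (natCast_mem A m)) h3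
  have hzη : FA_S05_zc (FA_S13_η D hΔ) = D.x / D.y := rfl
  rw [hzη] at h2
  have hzpos : (0 : A.ValueGroup) < A.valuation (D.x / D.y) := zero_lt_iff.mpr hzne
  have hlt : A.valuation (D.x / D.y) ^ 2 < A.valuation (D.x / D.y) := by
    calc A.valuation (D.x / D.y) ^ 2 = A.valuation (D.x / D.y) * A.valuation (D.x / D.y) :=
          pow_two _
      _ < A.valuation (D.x / D.y) * 1 := mul_lt_mul_of_pos_left hzlt hzpos
      _ = A.valuation (D.x / D.y) := mul_one _
  -- valuation of z (m • η)
  have hzm : A.valuation (FA_S05_zc (m • FA_S13_η D hΔ)) = A.valuation (D.x / D.y) := by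
    have e : FA_S05_zc (m • FA_S13_η D hΔ)
        = (FA_S05_zc (m • FA_S13_η D hΔ) - (m : F) * (D.x / D.y)) + (m : F) * (D.x / D.y) := by
      ring
    rw [e]
    have hv : A.valuation ((m : F) * (D.x / D.y)) = A.valuation (D.x / D.y) := by
      rw [map_mul, hm1, one_mul]
    rw [Valuation.map_add_eq_of_lt_right _ (by rw [hv]; exact lt_of_le_of_lt h2 hlt), hv]
  -- now the point m • η
  rcases hQ : m • FA_S13_η D hΔ with _ | ⟨xm, ym, hmns⟩
  · exact absurd hQ hne
  · rw [hQ] at h1 hzm
    rw [FA_S13_xc_some]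
    rw [FA_S05_E1v_some] at h1
    obtain ⟨-, -, -, -, -, -, hxz'⟩ := FA_S05_E1_coords hW hmns.1 h1
    rw [FA_S05_zc_some] at hzm
    rw [hzm] at hxz'
    have hpos2 : A.valuation (D.x / D.y) ^ 2 ≠ 0 := pow_ne_zero 2 hzne
    exact mul_right_cancel₀ hpos2 (hxz'.trans hxz.symm)

end generic

end Fermat.Agent.S13
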