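import Mathlib
import Fermat.Agent.S05.Good

/-!
# S13 part (a): places of a field `F` over a subfield `K` (helper9)

Valuation subrings of `F` containing `K`, produced by Chevalley's theorem
(`Subring.exists_le_valuationSubring_of_isIntegrallyClosedIn`).
-/

namespace Fermat.Agent.S13

open Fermat.Agent.S05

variable {K F : Type*} [Field K] [Field F] [Algebra K F]

/-- For `t` transcendental over `K` there is a valuation subring of `F` containing `K` and not
containing `t`. -/
theorem FA_S13_exists_place {t : F} (ht : Transcendental K t) :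
    ∃ A : ValuationSubring F, (∀ c : K, algebraMap K F c ∈ A) ∧ t ∉ A := by
  have hnot : t ∉ (integralClosure K F).toSubring := by
    intro h
    have h' : IsIntegral K t := h
    exact ht h'.isAlgebraic
  obtain ⟨V, hV, htV⟩ :=
    Subring.exists_le_valuationSubring_of_isIntegrallyClosedIn hnot
  refine ⟨V, fun c => hV ?_, htV⟩
  exact (integralClosure K F).algebraMap_mem c

/-- Nonzero constants are units of a valuation subring containing `K`. -/
lemma FA_S13_const_not_mem_nonunits {A : ValuationSubring F}
    (hA : ∀ c : K, algebraMap K F c ∈ A) {c : K} (hc : c ≠ 0) :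
    algebraMap K F c ∉ A.nonunits := by
  intro h
  rw [A.mem_nonunits_iff] at h
  have h1 : A.valuation (algebraMap K F c⁻¹) ≤ 1 := (A.valuation_le_one_iff _).mpr (hA c⁻¹)
  have h2 : algebraMap K F c * algebraMap K F c⁻¹ = 1 := by
    rw [← map_mul, mul_inv_cancel₀ hc, map_one]
  have h3 := congrArg A.valuation h2
  rw [map_mul, map_one] at h3
  have : A.valuation (algebraMap K F c) * A.valuation (algebraMap K F c⁻¹) < 1 := by
    calc A.valuation (algebraMap K F c) * A.valuation (algebraMap K F c⁻¹)
        ≤ A.valuation (algebraMap K F c) * 1 := mul_le_mul' le_rfl h1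
      _ = A.valuation (algebraMap K F c) := mul_one _
      _ < 1 := h
  rw [h3] at this
  exact lt_irrefl _ this

lemma FA_S13_const_val {A : ValuationSubring F}
    (hA : ∀ c : K, algebraMap K F c ∈ A) {c : K} (hc : c ≠ 0) :
    A.valuation (algebraMap K F c) = 1 := by
  have h1 : A.valuation (algebraMap K F c) ≤ 1 := (A.valuation_le_one_iff _).mpr (hA c)
  have h2 := FA_S13_const_not_mem_nonunits hA hc
  rw [A.mem_nonunits_iff, not_lt] at h2
  exact le_antisymm h1 h2

/-- A constant in the maximal ideal is zero. -/
lemma FA_S13_const_eq_zero_of_mem_nonunits {A : ValuationSubring F}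
    (hA : ∀ c : K, algebraMap K F c ∈ A) {c : K} (h : algebraMap K F c ∈ A.nonunits) :
    c = 0 := by
  by_contra hc
  exact FA_S13_const_not_mem_nonunits hA hc h

open Polynomial in
/-- Polynomials in an element of `A` with constant coefficients are in `A`. -/
lemma FA_S13_aeval_mem {A : ValuationSubring F}
    (hA : ∀ c : K, algebraMap K F c ∈ A) {x : F} (hx : x ∈ A) (f : K[X]) :
    aeval x f ∈ A := by
  induction f using Polynomial.induction_on' with
  | add p q hp hq => rw [map_add]; exact add_mem hp hq
  | monomial n c =>
    rw [aeval_monomial]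
    exact mul_mem (hA c) (pow_mem hx n)

open Polynomial in
/-- If `x - a` is in the maximal ideal, then `f(x) - f(a)` is in the maximal ideal. -/
lemma FA_S13_aeval_sub_mem_nonunits {A : ValuationSubring F}
    (hA : ∀ c : K, algebraMap K F c ∈ A) {x : F} {a : K}
    (hxa : x - algebraMap K F a ∈ A.nonunits) (f : K[X]) :
    aeval x f - algebraMap K F (f.eval a) ∈ A.nonunits := by
  have hx : x ∈ A := by
    have h1 : x - algebraMap K F a ∈ A := A.nonunits_le hxa
    have : x = (x - algebraMap K F a) + algebraMap K F a := by ring
    rw [this]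
    exact add_mem h1 (hA a)
  -- f = (X - a) * q + f(a)
  obtain ⟨q, hq⟩ : ∃ q : K[X], f = (X - C a) * q + C (f.eval a) := by
    have h := Polynomial.dvd_iff_isRoot.mpr
      (show (f - C (f.eval a)).IsRoot a by simp [Polynomial.IsRoot])
    obtain ⟨q, hq⟩ := h
    exact ⟨q, by rw [← hq]; ring⟩
  have e : aeval x f - algebraMap K F (f.eval a) = (x - algebraMap K F a) * aeval x q := by
    have h1 := congrArg (aeval x) hq
    simp only [map_add, map_mul, map_sub, aeval_X, aeval_C] at h1
    rw [h1]
    ring
  rw [e, A.mem_nonunits_iff]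
  rw [A.mem_nonunits_iff] at hxa
  exact lt_of_le_of_lt (FA_S05_v_mul_right _ le_rfl
    ((A.valuation_le_one_iff _).mpr (FA_S13_aeval_mem hA hx q))) hxa

end Fermat.Agent.S13
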