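import Fermat.Agent.S13.TorsMain

/-!
# S13 part (a): `x (n • η)` is regular at the finite places, even, and a polynomial in `x`
(helper9)
-/

set_option linter.unusedSectionVars false

namespace Fermat.Agent.S13

open WeierstrassCurve Polynomial Fermat.Agent.S05
open scoped WeierstrassCurve.Affine

variable {R K F : Type*} [CommRing R] [Field K] [Field F] [Algebra R K] [Algebra R F]
  [Algebra K F] [IsScalarTower R K F]

section generic

variable {W' : WeierstrassCurve.Affine R} (D : FA_S13_Generic W' K F)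

/-- At a place with `x ∈ A` which is not centered at any `a : K`, all nonzero polynomials in `x`
are units. -/
lemma FA_S13_aeval_unit_of_no_center [IsAlgClosed K] {A : ValuationSubring F}
    (hA : ∀ c : K, algebraMap K F c ∈ A) (hx : D.x ∈ A)
    (hno : ∀ a : K, D.x - algebraMap K F a ∉ A.nonunits) :
    ∀ g : K[X], g ≠ 0 → A.valuation (aeval D.x g) = 1 := by
  refine FA_S13_poly_induction ?_ ?_
  · intro c hc
    rw [aeval_C]
    exact FA_S13_const_val hA hc
  · intro a g _ ih
    rw [map_mul, map_mul, ih, mul_one, map_sub, aeval_X, aeval_C]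
    have h1 : A.valuation (D.x - algebraMap K F a) ≤ 1 :=
      (A.valuation_le_one_iff _).mpr (sub_mem hx (hA a))
    have h2 := hno a
    rw [A.mem_nonunits_iff, not_lt] at h2
    exact le_antisymm h1 h2

/-- At a place with `x ∈ A` which is not centered at any `a : K`, everything is integral. -/
lemma FA_S13_all_mem_of_no_center [IsAlgClosed K] {A : ValuationSubring F}
    (hA : ∀ c : K, algebraMap K F c ∈ A) (hx : D.x ∈ A)
    (hno : ∀ a : K, D.x - algebraMap K F a ∉ A.nonunits) (t : F) : t ∈ A := by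
  obtain ⟨u₁, u₂, v₁, v₂, hu₂, hv₂, rfl⟩ := D.span t
  have hy := FA_S13_y_mem D hA hx
  have hunit := FA_S13_aeval_unit_of_no_center D hA hx hno
  have key : ∀ u v : K[X], v ≠ 0 → aeval D.x u / aeval D.x v ∈ A := by
    intro u v hv
    rw [← A.valuation_le_one_iff, map_div₀, hunit v hv, div_one, A.valuation_le_one_iff]
    exact FA_S13_aeval_mem hA hx u
  exact add_mem (key u₁ u₂ hu₂) (mul_mem (key v₁ v₂ hv₂) hy)

variable [DecidableEq K] [DecidableEq F]

/-- **Step 2**: if there is no nonzero `n`-torsion point over `K`, then `x (n • η)` is integral at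
every place where `x` is integral. -/
lemma FA_S13_xn_mem [IsAlgClosed K] (hΔ : (W'⁄K).Δ ≠ 0) {n : ℕ}
    (hno : ∀ P : (W'⁄K).Point, n • P = 0 → P = 0) {A : ValuationSubring F}
    (hA : ∀ c : K, algebraMap K F c ∈ A) (hx : D.x ∈ A) :
    FA_S13_xc (n • FA_S13_η D hΔ) ∈ A := by
  by_cases hc : ∃ a : K, D.x - algebraMap K F a ∈ A.nonunits
  · obtain ⟨a, ha⟩ := hc
    obtain ⟨b, hns, hb⟩ := FA_S13_center D hΔ hA ha
    by_contra hmem
    have hE : FA_S05_E1 A (n • FA_S13_η D hΔ) := (FA_S13_E1_iff A _).mpr (Or.inr hmem)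
    have h0 := hno _ (FA_S13_tors_of_pole D hΔ hA hns ha hb n hE)
    exact Affine.Point.some_ne_zero _ h0
  · exact FA_S13_all_mem_of_no_center D hA hx (fun a ha => hc ⟨a, ha⟩) _

end generic

end Fermat.Agent.S13
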