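import Fermat.Agent.S13.TorsPlace

/-!
# S13 part (a): the generic point of a Weierstrass curve (helper9)

Abstract data of a "function field" `F` of `W'⁄K` with its generic point `(x, y)`, and the basic
specialisation lemmas obtained from the S05 library `L`.
-/

namespace Fermat.Agent.S13

open WeierstrassCurve Polynomial Fermat.Agent.S05
open scoped WeierstrassCurve.Affine

variable {R K F : Type*} [CommRing R] [Field K] [Field F] [Algebra R K] [Algebra R F]
  [Algebra K F] [IsScalarTower R K F]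

/-- A field `F ⊇ K` with a generic point `(x, y)` of `W'` and the conjugation `ι`. -/
structure FA_S13_Generic (W' : WeierstrassCurve.Affine R) (K F : Type*) [Field K] [Field F]
    [Algebra R K] [Algebra R F] [Algebra K F] where
  /-- the `x`-coordinate of the generic point -/
  x : F
  /-- the `y`-coordinate of the generic point -/
  y : F
  /-- the conjugation of `F` over `K(x)` -/
  ι : F →ₐ[K] F
  eq : (W'⁄F).Equation x y
  ιx : ι x = x
  ιy : ι y = (W'⁄F).negY x y
  transc : Transcendental K x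
  span : ∀ t : F, ∃ u₁ u₂ v₁ v₂ : K[X], u₂ ≠ 0 ∧ v₂ ≠ 0 ∧
    t = aeval x u₁ / aeval x u₂ + aeval x v₁ / aeval x v₂ * y

lemma FA_S13_a₁ (W' : WeierstrassCurve.Affine R) :
    (W'⁄F).a₁ = algebraMap K F (W'⁄K).a₁ := by
  simp only [WeierstrassCurve.Affine.baseChange]
  exact IsScalarTower.algebraMap_apply R K F _

lemma FA_S13_a₂ (W' : WeierstrassCurve.Affine R) :
    (W'⁄F).a₂ = algebraMap K F (W'⁄K).a₂ := by
  simp only [WeierstrassCurve.Affine.baseChange]
  exact IsScalarTower.algebraMap_apply R K F _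

lemma FA_S13_a₃ (W' : WeierstrassCurve.Affine R) :
    (W'⁄F).a₃ = algebraMap K F (W'⁄K).a₃ := by
  simp only [WeierstrassCurve.Affine.baseChange]
  exact IsScalarTower.algebraMap_apply R K F _

lemma FA_S13_a₄ (W' : WeierstrassCurve.Affine R) :
    (W'⁄F).a₄ = algebraMap K F (W'⁄K).a₄ := by
  simp only [WeierstrassCurve.Affine.baseChange]
  exact IsScalarTower.algebraMap_apply R K F _

lemma FA_S13_a₆ (W' : WeierstrassCurve.Affine R) :
    (W'⁄F).a₆ = algebraMap K F (W'⁄K).a₆ := by
  simp only [WeierstrassCurve.Affine.baseChange]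
  exact IsScalarTower.algebraMap_apply R K F _

lemma FA_S13_Δ (W' : WeierstrassCurve.Affine R) :
    (W'⁄F).Δ = algebraMap K F (W'⁄K).Δ := by
  have h1 : (W'⁄F).Δ = algebraMap R F W'.Δ := WeierstrassCurve.map_Δ _ _
  have h2 : (W'⁄K).Δ = algebraMap R K W'.Δ := WeierstrassCurve.map_Δ _ _
  rw [h1, h2]
  exact IsScalarTower.algebraMap_apply R K F _

/-- The coefficients of `W'⁄F` are in every valuation subring containing `K`. -/
lemma FA_S13_integral (W' : WeierstrassCurve.Affine R) {A : ValuationSubring F}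
    (hA : ∀ c : K, algebraMap K F c ∈ A) : FA_S05_Integral A (W'⁄F) := by
  refine ⟨?_, ?_, ?_, ?_, ?_⟩
  · rw [FA_S13_a₁ (K := K)]; exact hA _
  · rw [FA_S13_a₂ (K := K)]; exact hA _
  · rw [FA_S13_a₃ (K := K)]; exact hA _
  · rw [FA_S13_a₄ (K := K)]; exact hA _
  · rw [FA_S13_a₆ (K := K)]; exact hA _

lemma FA_S13_Δ_ne_zero (W' : WeierstrassCurve.Affine R) (hΔ : (W'⁄K).Δ ≠ 0) :
    (W'⁄F).Δ ≠ 0 := by
  rw [FA_S13_Δ (K := K)]
  exact (map_ne_zero_iff _ (algebraMap K F).injective).mpr hΔ

lemma FA_S13_Δ_unit (W' : WeierstrassCurve.Affine R) (hΔ : (W'⁄K).Δ ≠ 0)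
    {A : ValuationSubring F} (hA : ∀ c : K, algebraMap K F c ∈ A) :
    (W'⁄F).Δ ∉ A.nonunits := by
  rw [FA_S13_Δ (K := K)]
  exact FA_S13_const_not_mem_nonunits hA hΔ

/-- Natural numbers are units of a valuation subring containing a field of characteristic 0. -/
lemma FA_S13_natCast_unit [CharZero K] {A : ValuationSubring F}
    (hA : ∀ c : K, algebraMap K F c ∈ A) {n : ℕ} (hn : n ≠ 0) :
    (n : F) ∉ A.nonunits := by
  have : (n : F) = algebraMap K F (n : K) := by simp
  rw [this]
  exact FA_S13_const_not_mem_nonunits hA (Nat.cast_ne_zero.mpr hn)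

variable [DecidableEq K] [DecidableEq F]

/-- Base change of points from `K` to `F`. -/
noncomputable def FA_S13_bc (W' : WeierstrassCurve.Affine R) :
    (W'⁄K).Point →+ (W'⁄F).Point :=
  Affine.Point.map (W' := W') (IsScalarTower.toAlgHom R K F)

lemma FA_S13_bc_some (W' : WeierstrassCurve.Affine R) {a b : K}
    (h : (W'⁄K).Nonsingular a b) :
    ∃ h' : (W'⁄F).Nonsingular (algebraMap K F a) (algebraMap K F b),
      FA_S13_bc (F := F) W' (Affine.Point.some a b h)
        = Affine.Point.some (algebraMap K F a) (algebraMap K F b) h' :=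
  ⟨(W'.baseChange_nonsingular (IsScalarTower.toAlgHom R K F).injective a b).mpr h, rfl⟩

/-- A base-changed affine point is not in the kernel of reduction. -/
lemma FA_S13_bc_E1 (W' : WeierstrassCurve.Affine R) {A : ValuationSubring F}
    (hA : ∀ c : K, algebraMap K F c ∈ A) {P : (W'⁄K).Point}
    (hP : FA_S05_E1 A (FA_S13_bc (F := F) W' P)) : P = 0 := by
  rcases P with _ | ⟨a, b, h⟩
  · rfl
  · obtain ⟨h', e⟩ := FA_S13_bc_some (F := F) W' h
    rw [e, FA_S05_E1_some] at hP
    exact absurd (hA a) hP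

/-- A base-changed affine point is integral with nonsingular reduction. -/
lemma FA_S13_bc_NS (W' : WeierstrassCurve.Affine R) {A : ValuationSubring F}
    (hA : ∀ c : K, algebraMap K F c ∈ A) {a b : K}
    (h' : (W'⁄F).Nonsingular (algebraMap K F a) (algebraMap K F b)) :
    FA_S05_NS A (Affine.Point.some (algebraMap K F a) (algebraMap K F b) h') := by
  rw [FA_S05_NS_some]
  refine ⟨hA a, hA b, ?_⟩
  have hns := h'.2
  rw [Affine.evalEval_polynomialX, Affine.evalEval_polynomialY] at hns ⊢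
  rw [FA_S13_a₁ (K := K), FA_S13_a₂ (K := K), FA_S13_a₃ (K := K), FA_S13_a₄ (K := K)] at hns ⊢
  rcases hns with h1 | h1
  · left
    have e : algebraMap K F (W'⁄K).a₁ * algebraMap K F b -
        (3 * algebraMap K F a ^ 2 + 2 * algebraMap K F (W'⁄K).a₂ * algebraMap K F a
          + algebraMap K F (W'⁄K).a₄)
        = algebraMap K F ((W'⁄K).a₁ * b - (3 * a ^ 2 + 2 * (W'⁄K).a₂ * a + (W'⁄K).a₄)) := by
      simp only [map_sub, map_add, map_mul, map_pow, map_ofNat]
    rw [e] at h1 ⊢
    exact FA_S13_const_not_mem_nonunits hA (fun h0 => h1 (by rw [h0, map_zero]))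
  · right
    have e : 2 * algebraMap K F b + algebraMap K F (W'⁄K).a₁ * algebraMap K F a
          + algebraMap K F (W'⁄K).a₃
        = algebraMap K F (2 * b + (W'⁄K).a₁ * a + (W'⁄K).a₃) := by
      simp only [map_add, map_mul, map_ofNat]
    rw [e] at h1 ⊢
    exact FA_S13_const_not_mem_nonunits hA (fun h0 => h1 (by rw [h0, map_zero]))

end Fermat.Agent.S13
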