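import Fermat.Agent.S13.TorsSetup

/-!
# S13 part (a): specialisation of the generic point (helper9)
-/

namespace Fermat.Agent.S13

open WeierstrassCurve Polynomial Fermat.Agent.S05
open scoped WeierstrassCurve.Affine

variable {R K F : Type*} [CommRing R] [Field K] [Field F] [Algebra R K] [Algebra R F]
  [Algebra K F] [IsScalarTower R K F]

/-- The `x`-coordinate of a point (`0` at infinity). -/
def FA_S13_xc {W : WeierstrassCurve.Affine F} : W.Point → F
  | .zero => 0
  | .some x _ _ => x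

@[simp] lemma FA_S13_xc_some {W : WeierstrassCurve.Affine F} {x y : F}
    (h : W.Nonsingular x y) : FA_S13_xc (Affine.Point.some x y h) = x := rfl

lemma FA_S13_E1_iff {W : WeierstrassCurve.Affine F} (A : ValuationSubring F) (Q : W.Point) :
    FA_S05_E1 A Q ↔ Q = 0 ∨ FA_S13_xc Q ∉ A := by
  rcases Q with _ | ⟨x, y, h⟩
  · exact ⟨fun _ => Or.inl rfl, fun _ => Or.inl rfl⟩
  · rw [FA_S05_E1_some]
    constructor
    · intro hx; exact Or.inr hx
    · rintro (h0 | hx)
      · exact absurd h0 (Affine.Point.some_ne_zero h)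
      · exact hx

section generic

variable {W' : WeierstrassCurve.Affine R} (D : FA_S13_Generic W' K F)

lemma FA_S13_generic_nonsingular (hΔ : (W'⁄K).Δ ≠ 0) : (W'⁄F).Nonsingular D.x D.y :=
  (Affine.equation_iff_nonsingular_of_Δ_ne_zero (FA_S13_Δ_ne_zero W' hΔ)).mp D.eq

/-- The generic point. -/
def FA_S13_η (hΔ : (W'⁄K).Δ ≠ 0) : (W'⁄F).Point :=
  Affine.Point.some D.x D.y (FA_S13_generic_nonsingular D hΔ)

/-- The curve equation of the generic point, written out. -/
lemma FA_S13_generic_eq :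
    D.y ^ 2 + algebraMap K F (W'⁄K).a₁ * D.x * D.y + algebraMap K F (W'⁄K).a₃ * D.y
      = D.x ^ 3 + algebraMap K F (W'⁄K).a₂ * D.x ^ 2 + algebraMap K F (W'⁄K).a₄ * D.x
        + algebraMap K F (W'⁄K).a₆ := by
  have h := D.eq
  rw [Affine.equation_iff, FA_S13_a₁ (K := K), FA_S13_a₂ (K := K), FA_S13_a₃ (K := K),
    FA_S13_a₄ (K := K), FA_S13_a₆ (K := K)] at h
  exact h

/-- If `x ∈ A` then `y ∈ A`. -/
lemma FA_S13_y_mem {A : ValuationSubring F} (hA : ∀ c : K, algebraMap K F c ∈ A)
    (hx : D.x ∈ A) : D.y ∈ A := by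
  have hV := FA_S05_VInt_of_Integral (FA_S13_integral (K := K) W' hA)
  rw [← A.valuation_le_one_iff] at hx ⊢
  exact FA_S05_y_int hV D.eq hx

/-- **Center of a place**: if `x - a` is in the maximal ideal of `A`, there is a point `(a, b)`
of the curve over `K` with `y - b` in the maximal ideal. -/
lemma FA_S13_center [IsAlgClosed K] (hΔ : (W'⁄K).Δ ≠ 0) {A : ValuationSubring F}
    (hA : ∀ c : K, algebraMap K F c ∈ A) {a : K}
    (hxa : D.x - algebraMap K F a ∈ A.nonunits) :
    ∃ (b : K) (_ : (W'⁄K).Nonsingular a b), D.y - algebraMap K F b ∈ A.nonunits := by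
  set W := W'⁄K with hWdef
  -- a root of the quadratic
  let q : K[X] := X ^ 2 + C (W.a₁ * a + W.a₃) * X - C (a ^ 3 + W.a₂ * a ^ 2 + W.a₄ * a + W.a₆)
  have hqdeg : q.degree ≠ 0 := by
    have : q.degree = 2 := by
      have h1 : q = X ^ 2 + (C (W.a₁ * a + W.a₃) * X
          + C (-(a ^ 3 + W.a₂ * a ^ 2 + W.a₄ * a + W.a₆))) := by
        simp only [q, C_neg]; ring
      rw [h1]
      have h2 : (C (W.a₁ * a + W.a₃) * X
          + C (-(a ^ 3 + W.a₂ * a ^ 2 + W.a₄ * a + W.a₆)) : K[X]).degree < 2 := by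
        refine lt_of_le_of_lt (Polynomial.degree_linear_le) (by norm_num)
      rw [Polynomial.degree_add_eq_left_of_degree_lt (by rwa [Polynomial.degree_X_pow]),
        Polynomial.degree_X_pow]
      rfl
    rw [this]; norm_num
  obtain ⟨b₁, hb₁⟩ := IsAlgClosed.exists_root q hqdeg
  have hb₁' : b₁ ^ 2 + (W.a₁ * a + W.a₃) * b₁ - (a ^ 3 + W.a₂ * a ^ 2 + W.a₄ * a + W.a₆) = 0 := by
    have := hb₁
    simp only [q, Polynomial.IsRoot, eval_sub, eval_add, eval_pow, eval_X, eval_mul, eval_C]
      at this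
    exact this
  have heq₁ : W.Equation a b₁ := by
    rw [Affine.equation_iff]
    linear_combination hb₁'
  have heq₂ : W.Equation a (W.negY a b₁) := (Affine.equation_neg a b₁).mpr heq₁
  have hns₁ : W.Nonsingular a b₁ := (Affine.equation_iff_nonsingular_of_Δ_ne_zero hΔ).mp heq₁
  have hns₂ : W.Nonsingular a (W.negY a b₁) :=
    (Affine.equation_iff_nonsingular_of_Δ_ne_zero hΔ).mp heq₂
  have hx : D.x ∈ A := by
    have h1 : D.x - algebraMap K F a ∈ A := A.nonunits_le hxa
    have : D.x = (D.x - algebraMap K F a) + algebraMap K F a := by ring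
    rw [this]
    exact add_mem h1 (hA a)
  have hy : D.y ∈ A := FA_S13_y_mem D hA hx
  have hgen := FA_S13_generic_eq D
  have hprod : (D.y - algebraMap K F b₁) * (D.y - algebraMap K F (W.negY a b₁))
      = (D.x - algebraMap K F a) *
        ((D.x ^ 2 + D.x * algebraMap K F a + algebraMap K F a ^ 2
          + algebraMap K F W.a₂ * (D.x + algebraMap K F a) + algebraMap K F W.a₄)
          - algebraMap K F W.a₁ * D.y) := by
    have hb := congrArg (algebraMap K F) hb₁'
    simp only [map_sub, map_add, map_mul, map_pow, map_zero] at hb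
    have hneg : algebraMap K F (W.negY a b₁)
        = -algebraMap K F b₁ - algebraMap K F W.a₁ * algebraMap K F a - algebraMap K F W.a₃ := by
      simp only [Affine.negY, map_sub, map_neg, map_mul]
    rw [hneg]
    linear_combination hgen - hb
  have hmem : (D.y - algebraMap K F b₁) * (D.y - algebraMap K F (W.negY a b₁)) ∈ A.nonunits := by
    rw [hprod, A.mem_nonunits_iff]
    rw [A.mem_nonunits_iff] at hxa
    refine lt_of_le_of_lt (FA_S05_v_mul_right _ le_rfl ?_) hxa
    rw [A.valuation_le_one_iff]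
    refine sub_mem (add_mem (add_mem (add_mem (add_mem (pow_mem hx 2) (mul_mem hx (hA a)))
      (pow_mem (hA a) 2)) (mul_mem (hA _) (add_mem hx (hA a)))) (hA _)) (mul_mem (hA _) hy)
  rw [A.mem_nonunits_iff, map_mul] at hmem
  by_cases h1 : D.y - algebraMap K F b₁ ∈ A.nonunits
  · exact ⟨b₁, hns₁, h1⟩
  · refine ⟨W.negY a b₁, hns₂, ?_⟩
    rw [A.mem_nonunits_iff, not_lt] at h1
    rw [A.mem_nonunits_iff]
    by_contra h2
    rw [not_lt] at h2
    have : (1 : A.ValueGroup) ≤ A.valuation (D.y - algebraMap K F b₁)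
        * A.valuation (D.y - algebraMap K F (W.negY a b₁)) := by
      calc (1 : A.ValueGroup) = 1 * 1 := (one_mul 1).symm
        _ ≤ _ := mul_le_mul' h1 h2
    exact absurd hmem (not_lt.mpr this)

variable [DecidableEq K] [DecidableEq F]

/-- **Closeness of the generic point to its center.** -/
lemma FA_S13_generic_close (hΔ : (W'⁄K).Δ ≠ 0) {A : ValuationSubring F}
    (hA : ∀ c : K, algebraMap K F c ∈ A) {a b : K} (h : (W'⁄K).Nonsingular a b)
    (hxa : D.x - algebraMap K F a ∈ A.nonunits) (hyb : D.y - algebraMap K F b ∈ A.nonunits) :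
    FA_S05_E1 A (FA_S13_η D hΔ - FA_S13_bc (F := F) W' (Affine.Point.some a b h)) := by
  obtain ⟨h', e⟩ := FA_S13_bc_some (F := F) W' h
  rw [e]
  exact FA_S05_close A (FA_S13_integral (K := K) W' hA) h' (FA_S13_generic_nonsingular D hΔ)
    (FA_S13_bc_NS W' hA h') hxa hyb

/-- Multiples of elements of the kernel of reduction. -/
lemma FA_S13_E1_nsmul {W : WeierstrassCurve.Affine F} (A : ValuationSubring F)
    (hW : FA_S05_Integral A W) {Q : W.Point} (hQ : FA_S05_E1 A Q) (n : ℕ) :
    FA_S05_E1 A (n • Q) := by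
  induction n with
  | zero => rw [zero_smul]; exact FA_S05_E1_zero A
  | succ k ih => rw [succ_nsmul]; exact FA_S05_E1_add A hW ih hQ

/-- If `n • η` is in the kernel of reduction at a place centered at `P`, then `n • P = 0`. -/
lemma FA_S13_tors_of_pole (hΔ : (W'⁄K).Δ ≠ 0) {A : ValuationSubring F}
    (hA : ∀ c : K, algebraMap K F c ∈ A) {a b : K} (h : (W'⁄K).Nonsingular a b)
    (hxa : D.x - algebraMap K F a ∈ A.nonunits) (hyb : D.y - algebraMap K F b ∈ A.nonunits)
    (n : ℕ) (hn : FA_S05_E1 A (n • FA_S13_η D hΔ)) :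
    n • (Affine.Point.some a b h : (W'⁄K).Point) = 0 := by
  have hW := FA_S13_integral (K := K) W' hA
  have h1 := FA_S13_E1_nsmul A hW (FA_S13_generic_close D hΔ hA h hxa hyb) n
  rw [smul_sub] at h1
  have h2 : FA_S05_E1 A (n • FA_S13_bc (F := F) W' (Affine.Point.some a b h)) := by
    have := FA_S05_E1_sub A hW hn h1
    rwa [sub_sub_cancel] at this
  rw [← map_nsmul] at h2
  exact FA_S13_bc_E1 W' hA h2

end generic

end Fermat.Agent.S13
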